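import Fermat.Agent.GR.TowerAsm

/-!
# S35: shared definitions (no sorry in this file)

`N = q * M`, `q ∤ M`, `F_N = FN (q * M) ⊆ ℚ̄((t))`, `w = w_q` the Atkin-Lehner involution of `F_N`.

* `UU z q Y = ∏_b Y(z^b t^{1/q})` : the multiplicative `U_q` operator on Laurent series;
* `IsWq q M w` : `w` is THE Atkin-Lehner involution (`w a = a(t^q)` for `a ∈ F_M`);
* `N1 w z f = f * UU z q (w f)` : the norm `F_N → F_M` on `t`-expansions;
* `IsTor A q M m w z` : `m ∣ div z` and `z` is an `m`-th power at both Gauss valuations `V_∞`, `V_0 = V_∞ ∘ w`;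
* `AnData2 p q M w DN DM` : the lattice maps `trH`, `trH'` (norm, norm after `w`) between analytic data at the levels `q M`, `M`.
-/

set_option autoImplicit false

namespace Fermat.Agent.S35

open ModularCurve AlgebraicCurve HahnSeries Fermat.Agent.S24 Fermat.Agent.S18 Fermat.Agent.GR

/-- The multiplicative `U_q`: `Y ↦ ∏_{b < q} Y(z^b t^{1/q})`. -/
noncomputable def UU {R : Type*} [CommRing R] (z : Rˣ) (q : ℕ) [NeZero q] (Y : LaurentSeries R) :
    LaurentSeries R := Uop q (Pop z q Y)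

/-- `w` is the Atkin-Lehner involution `w_q` of `ℚ̄(X₀(q M))` (cf. `S34.exists_wq`). -/
structure IsWq (q M : ℕ) [NeZero q] (w : FN (q * M) ≃ₐ[Kb] FN (q * M)) : Prop where
  invol : ∀ f, w (w f) = f
  gal : ∀ (σ : GQ) (f : FN (q * M)), w (galF (q * M) σ f) = galF (q * M) σ (w f)
  incl : ∀ f : FN (q * M), (f : LaurentSeries Kb) ∈ FN M →
    ((w f : FN (q * M)) : LaurentSeries Kb) = qExpand Kb q (f : LaurentSeries Kb)

/-- The norm `F_{qM} → F_M` on `t`-expansions: `f ↦ f ∏_b (w f)(z^b t^{1/q})`. -/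
noncomputable def N1 {q M : ℕ} [NeZero q] (w : FN (q * M) ≃ₐ[Kb] FN (q * M)) (z : Kbˣ)
    (f : FN (q * M)) : LaurentSeries Kb :=
  (f : LaurentSeries Kb) * UU z q ((w f : FN (q * M)) : LaurentSeries Kb)

/-- `z` is toric: `m ∣ div z`, and `z` is (up to a constant) an `m`-th power at `V_∞` and at `V_0`. -/
def IsTor (A : ValuationSubring Kb) (q M m : ℕ) (w : FN (q * M) ≃ₐ[Kb] FN (q * M))
    (z : FN (q * M)) : Prop :=
  z ≠ 0 ∧ DvdOrd (q * M) m z ∧
  (∃ (c : Kb) (r : LaurentSeries (kA A)), c ≠ 0 ∧ r ∈ modularFunctionFieldFullC (kA A) M ∧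
    Red A (C c * (z : LaurentSeries Kb)) (r ^ m)) ∧
  (∃ (c : Kb) (r : LaurentSeries (kA A)), c ≠ 0 ∧ r ∈ modularFunctionFieldFullC (kA A) M ∧
    Red A (C c * ((w z : FN (q * M)) : LaurentSeries Kb)) (r ^ m))

/-- Compatibility of analytic data `DN`, `DM` at the levels `q M` and `M`: the lattice maps induced by the norm `N1` and
by `N1 ∘ w`. -/
structure AnData2 (p q M : ℕ) [NeZero q] [NeZero M] [NeZero (q * M)]
    (w : FN (q * M) ≃ₐ[Kb] FN (q * M)) (DN : AnData p (q * M)) (DM : AnData p M) where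
  trH : DN.H →+ DM.H
  trH' : DN.H →+ DM.H
  u_tr : ∀ n h, ∃ (ζ : Kbˣ) (x : FN M), IsPrimitiveRoot ζ q ∧
    N1 w ζ (DN.u n h) = ((DM.u n (trH h) * x ^ (p ^ n) : FN M) : LaurentSeries Kb)
  u_tr' : ∀ n h, ∃ (ζ : Kbˣ) (x : FN M), IsPrimitiveRoot ζ q ∧
    N1 w ζ (w (DN.u n h)) = ((DM.u n (trH' h) * x ^ (p ^ n) : FN M) : LaurentSeries Kb)

end Fermat.Agent.S35
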