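import Fermat.Agent.S34.Gauss2
import Fermat.Agent.S35.Defs

/-!
# S35: the formal norm `N1 f = f · ∏_b (w f)(ζ^b t^{1/q})` from level `qM` to level `M`

* `UU z q f = ∏_b f(z^b t^{1/q})` (`= GR.Uop q (GR.Pop z q f)`), multiplicative, Galois equivariant,
  independent of the primitive root;
* `N1 w z f = f * UU z q (w f)`;
* `N1_mem` : `N1 w z f ∈ ℚ̄(X₀(M))` (it is the determinant of the multiplication by `f` in
  `1, Y, …, Y^q`; Vandermonde argument, no separability / degree needed).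
-/

set_option autoImplicit false
set_option linter.unusedSectionVars false

namespace Fermat.Agent.S35

open ModularCurve HahnSeries Fermat.Agent.S24 Fermat.Agent.S28 Fermat.Agent.S28.Core
  Fermat.Agent.S18 Fermat.Agent.GR Fermat.Agent.S34

section UU

variable {R : Type*} [CommRing R]

theorem qExpand_UU [IsDomain R] {z : Rˣ} {q : ℕ} [NeZero q] (hz : IsPrimitiveRoot z q)
    (f : LaurentSeries R) : qExpand R q (UU z q f) = Pop z q f :=
  qExpand_Uop_Pop hz f

theorem UU_mul [IsDomain R] {z : Rˣ} {q : ℕ} [NeZero q] (hz : IsPrimitiveRoot z q)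
    (f g : LaurentSeries R) : UU z q (f * g) = UU z q f * UU z q g :=
  Uop_Pop_mul hz f g

theorem UU_C (z : Rˣ) (q : ℕ) [NeZero q] (c : R) : UU z q (C c : LaurentSeries R) = C (c ^ q) := by
  rw [UU, Pop_C, Uop_C]

theorem UU_one (z : Rˣ) (q : ℕ) [NeZero q] : UU z q (1 : LaurentSeries R) = 1 := by
  have := UU_C z q (1 : R)
  simpa using this

theorem UU_pow [IsDomain R] {z : Rˣ} {q : ℕ} [NeZero q] (hz : IsPrimitiveRoot z q)
    (f : LaurentSeries R) (m : ℕ) : UU z q (f ^ m) = UU z q f ^ m := by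
  induction m with
  | zero => simp [UU_one]
  | succ k ih => rw [pow_succ, UU_mul hz, ih, pow_succ]

theorem UU_eq_of_isPrimitiveRoot [IsDomain R] {z z' : Rˣ} {q : ℕ} [NeZero q]
    (hz : IsPrimitiveRoot z q) (hz' : IsPrimitiveRoot z' q) (f : LaurentSeries R) :
    UU z q f = UU z' q f := by
  rw [UU, UU, Pop_eq_of_isPrimitiveRoot hz hz']

theorem coeffMap_UU {S : Type*} [CommRing S] (φ : R →+* S) (z : Rˣ) (q : ℕ) [NeZero q]
    (f : LaurentSeries R) :
    coeffMap φ (UU z q f) = UU (Units.map (φ : R →* S) z) q (coeffMap φ f) := by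
  rw [UU, UU, coeffMap_Uop, coeffMap_Pop]

/-- `UU (g(t^q)) = g^q`. -/
theorem UU_qExpand {z : Rˣ} {q : ℕ} [NeZero q] (hz : z ^ q = 1) (g : LaurentSeries R) :
    UU z q (qExpand R q g) = g ^ q := by
  have h1 : Pop z q (qExpand R q g) = qExpand R q (g ^ q) := by
    rw [Pop, map_pow]
    have : ∀ i ∈ Finset.range q, scale (z ^ i) (qExpand R q g) = qExpand R q g := fun i _ =>
      scale_qExpand_of_pow_eq_one _ q (by rw [← pow_mul, mul_comm, pow_mul, hz, one_pow]) g
    rw [Finset.prod_congr rfl this, Finset.prod_const, Finset.card_range]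
  rw [UU, h1, Uop_qExpand]

end UU

section UUField

variable {k : Type*} [Field k]

theorem UU_ne_zero {z : kˣ} {q : ℕ} [NeZero q] (hz : IsPrimitiveRoot z q) {f : LaurentSeries k}
    (hf : f ≠ 0) : UU z q f ≠ 0 := by
  intro h
  have h1 : UU z q f * UU z q f⁻¹ = 1 := by
    rw [← UU_mul hz, mul_inv_cancel₀ hf, UU_one]
  rw [h, zero_mul] at h1
  exact zero_ne_one h1

theorem UU_inv {z : kˣ} {q : ℕ} [NeZero q] (hz : IsPrimitiveRoot z q) (f : LaurentSeries k) :
    UU z q f⁻¹ = (UU z q f)⁻¹ := by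
  by_cases hf : f = 0
  · subst hf
    have h0 : UU z q (0 : LaurentSeries k) = 0 := by
      have := UU_C z q (0 : k)
      rwa [map_zero, zero_pow (NeZero.ne q), map_zero] at this
    rw [inv_zero, h0, inv_zero]
  · apply eq_inv_of_mul_eq_one_left
    rw [← UU_mul hz, inv_mul_cancel₀ hf, UU_one]

end UUField

/-- Galois equivariance of `UU`. -/
theorem coeffMap_gal_UU {z : Kbˣ} {q : ℕ} [NeZero q] (hz : IsPrimitiveRoot z q) (σ : GQ)
    (f : LaurentSeries Kb) :
    coeffMap (σ : Kb →+* Kb) (UU z q f) = UU z q (coeffMap (σ : Kb →+* Kb) f) := by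
  rw [coeffMap_UU]
  exact UU_eq_of_isPrimitiveRoot
    (hz.map_of_injective (Units.map_injective (f := ((σ : Kb →+* Kb) : Kb →* Kb)) σ.injective)) hz _

section N1

variable {q M : ℕ} [NeZero q] [NeZero M] {w : FN (q * M) ≃ₐ[Kb] FN (q * M)} {z : Kbˣ}

theorem IsWq.spec (hw : IsWq q M w) : WqSpec q M w := ⟨hw.incl, hw.invol, hw.gal⟩

theorem isWq_of_spec (hw : WqSpec q M w) : IsWq q M w := ⟨hw.invol, hw.gal, hw.incl⟩

theorem exists_isWq (hq : q.Prime) (hqM : ¬ q ∣ M) : ∃ w : FN (q * M) ≃ₐ[Kb] FN (q * M), IsWq q M w := by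
  obtain ⟨w, hw⟩ := exists_wqSpec hq hqM
  exact ⟨w, isWq_of_spec hw⟩

theorem N1_mul (hz : IsPrimitiveRoot z q) (f g : FN (q * M)) :
    N1 w z (f * g) = N1 w z f * N1 w z g := by
  rw [N1, N1, N1, map_mul, MulMemClass.coe_mul, MulMemClass.coe_mul, UU_mul hz]
  ring

theorem N1_one : N1 w z (1 : FN (q * M)) = 1 := by
  rw [N1, map_one]
  show (1 : LaurentSeries Kb) * UU z q 1 = 1
  rw [UU_one, mul_one]

theorem N1_pow (hz : IsPrimitiveRoot z q) (f : FN (q * M)) (m : ℕ) :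
    N1 w z (f ^ m) = N1 w z f ^ m := by
  induction m with
  | zero => simp [N1_one]
  | succ k ih => rw [pow_succ, N1_mul hz, ih, pow_succ]

theorem N1_ne_zero (hz : IsPrimitiveRoot z q) {f : FN (q * M)} (hf : f ≠ 0) : N1 w z f ≠ 0 := by
  refine mul_ne_zero (fun h => hf (Subtype.ext h)) (UU_ne_zero hz fun h => hf ?_)
  exact (map_eq_zero_iff w w.injective).mp (Subtype.ext h)

theorem N1_eq_of_isPrimitiveRoot {z' : Kbˣ} (hz : IsPrimitiveRoot z q)
    (hz' : IsPrimitiveRoot z' q) (f : FN (q * M)) : N1 w z f = N1 w z' f := by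
  rw [N1, N1, UU_eq_of_isPrimitiveRoot hz hz']

theorem N1_galF (hw : IsWq q M w) (hz : IsPrimitiveRoot z q) (σ : GQ) (f : FN (q * M)) :
    N1 w z (galF (q * M) σ f) = coeffMap (σ : Kb →+* Kb) (N1 w z f) := by
  rw [N1, N1, hw.gal, coe_galF, coe_galF, map_mul, coeffMap_gal_UU hz]

/-- on level `M` the norm is the `(q+1)`-st power. -/
theorem N1_incl (hw : IsWq q M w) (hz : IsPrimitiveRoot z q) (a : FN M) :
    N1 w z (inclFN (Dvd.intro_left q rfl) a) = (a : LaurentSeries Kb) ^ (q + 1) := by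
  rw [N1, hw.incl _ (by rw [coe_inclFN]; exact a.2), coe_inclFN, UU_qExpand hz.pow_eq_one,
    pow_succ']

/-! ### `N1 f ∈ ℚ̄(X₀(M))` -/

/-- the `q + 1` embeddings of `ℚ̄(X₀(qM))` over `ℚ̄(X₀(M))` (composed with `t ↦ t^q`). -/
noncomputable def emb (w : FN (q * M) ≃ₐ[Kb] FN (q * M)) (z : Kbˣ) (i : ℕ) :
    FN (q * M) →+* LaurentSeries Kb :=
  if i < q then (scale (z ^ i)).comp ((FN (q * M)).val.toRingHom.comp (w : FN (q * M) →+* FN (q * M)))
  else (qExpand Kb q).comp (FN (q * M)).val.toRingHom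

theorem emb_of_lt {i : ℕ} (hi : i < q) (f : FN (q * M)) :
    emb w z i f = scale (z ^ i) ((w f : FN (q * M)) : LaurentSeries Kb) := by
  rw [emb, if_pos hi]; rfl

theorem emb_self (f : FN (q * M)) : emb w z q f = qExpand Kb q (f : LaurentSeries Kb) := by
  rw [emb, if_neg (lt_irrefl q)]; rfl

theorem emb_base (hw : IsWq q M w) (hz : IsPrimitiveRoot z q) {i : ℕ} (hi : i ≤ q)
    (a : FN (q * M)) (ha : (a : LaurentSeries Kb) ∈ FN M) :
    emb w z i a = qExpand Kb q (a : LaurentSeries Kb) := by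
  rcases hi.lt_or_eq with hi | rfl
  · rw [emb_of_lt hi, hw.incl a ha]
    exact scale_qExpand_of_pow_eq_one _ q
      (by rw [← pow_mul, mul_comm, pow_mul, hz.pow_eq_one, one_pow]) _
  · exact emb_self a

theorem prod_emb (hz : IsPrimitiveRoot z q) (f : FN (q * M)) :
    ∏ i : Fin (q + 1), emb w z (i : ℕ) f = qExpand Kb q (N1 w z f) := by
  rw [Fin.prod_univ_castSucc, N1, map_mul, qExpand_UU hz, Pop, mul_comm]
  congr 1
  · exact emb_self f
  · rw [← Fin.prod_univ_eq_prod_range (fun i => scale (z ^ i) ((w f : FN (q * M)) : LaurentSeries Kb))]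
    exact Finset.prod_congr rfl fun i _ => emb_of_lt i.2 f

theorem emb_Y_injective (hw : IsWq q M w) (hz : IsPrimitiveRoot z q) (hq : q.Prime)
    (hqM : ¬ q ∣ M) : Function.Injective fun i : Fin (q + 1) => emb w z (i : ℕ) (g2Y q M) := by
  have hM := NeZero.ne M
  have hq0 := NeZero.ne q
  have e1 : ∀ i : ℕ, i < q → emb w z i (g2Y q M) = jce Kb ((z ^ i) ^ M * 1) M := by
    intro i hi
    rw [emb_of_lt hi, hw.spec.w_Y]
    exact scale_jce _ _ _ hM
  have e2 : emb w z q (g2Y q M) = jce Kb 1 (q * (q * M)) := by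
    rw [emb_self]
    show qExpand Kb q (jce Kb 1 (q * M)) = _
    rw [← qE_apply, qE_jce hq0 (mul_ne_zero hq0 hM)]
  have hne : M ≠ q * (q * M) := by
    intro h
    have h2 : 2 ≤ q := hq.two_le
    have h3 : M * 1 < M * (q * q) := by
      apply Nat.mul_lt_mul_of_pos_left _ (Nat.pos_of_ne_zero hM)
      nlinarith
    nlinarith
  intro i j hij
  simp only at hij
  apply Fin.ext
  rcases (Nat.lt_succ_iff.mp i.2).lt_or_eq with hi | hi <;>
    rcases (Nat.lt_succ_iff.mp j.2).lt_or_eq with hj | hj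
  · rw [e1 _ hi, e1 _ hj] at hij
    have h1 := (jce_inj hM hM hij).2
    rw [mul_one, mul_one, ← pow_mul, ← pow_mul] at h1
    -- `z^(iM) = z^(jM)`
    have h2 := pow_eq_pow_iff_modEq.mp h1
    rw [← hz.eq_orderOf] at h2
    have h3 : (i : ℕ) ≡ j [MOD q] := by
      have hc : Nat.Coprime q M := (Nat.Prime.coprime_iff_not_dvd hq).mpr hqM
      exact Nat.ModEq.cancel_right_of_coprime (by rwa [Nat.coprime_iff_gcd_eq_one] at hc) h2
    exact Nat.ModEq.eq_of_lt_of_lt h3 hi hj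
  · rw [e1 _ hi, hj, e2] at hij
    exact absurd (jce_inj hM (mul_ne_zero hq0 (mul_ne_zero hq0 hM)) hij).1 hne
  · rw [hi, e2, e1 _ hj] at hij
    exact absurd (jce_inj (mul_ne_zero hq0 (mul_ne_zero hq0 hM)) hM hij).1.symm hne
  · rw [hi, hj]

/-- **`N1 f` lies in `ℚ̄(X₀(M))`.** -/
theorem N1_mem (hw : IsWq q M w) (hz : IsPrimitiveRoot z q) (hq : q.Prime) (hqM : ¬ q ∣ M)
    (f : FN (q * M)) : N1 w z f ∈ FN M := by
  classical
  have hqMK : ((q * M : ℕ) : Kb) ≠ 0 :=
    Nat.cast_ne_zero.mpr (mul_ne_zero (NeZero.ne q) (NeZero.ne M))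
  -- the matrix of the multiplication by `f`
  have hex : ∀ r : Fin (q + 1), ∃ a : Fin (q + 1) → FN M,
      f * g2Y q M ^ (r : ℕ) =
        ∑ s, inclFN (Dvd.intro_left q rfl) (a s) * g2Y q M ^ (s : ℕ) := by
    intro r
    obtain ⟨a, ha, hfa⟩ := g2_span Kb hq hqMK ((f * g2Y q M ^ (r : ℕ) : FN (q * M)) : LaurentSeries Kb)
      ((gs_mem_FN_iff (q * M) _).mp (f * g2Y q M ^ (r : ℕ) : FN (q * M)).2)
    refine ⟨fun s => ⟨a s, (gs_mem_FN_iff M _).mpr (ha s)⟩, ?_⟩
    apply Subtype.ext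
    rw [hfa]
    simp only [AddSubmonoidClass.coe_finsetSum, MulMemClass.coe_mul, SubmonoidClass.coe_pow,
      coe_inclFN]
    rfl
  choose B hB using hex
  set y : Fin (q + 1) → LaurentSeries Kb := fun i => emb w z (i : ℕ) (g2Y q M) with hy
  set d : Fin (q + 1) → LaurentSeries Kb := fun i => emb w z (i : ℕ) f with hd
  set φ : FN M →+* LaurentSeries Kb := (qExpand Kb q).comp (FN M).val.toRingHom with hφ
  set Bm : Matrix (Fin (q + 1)) (Fin (q + 1)) (FN M) := Matrix.of B with hBm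
  have key : Matrix.vandermonde y * (Bm.map φ).transpose = Matrix.diagonal d * Matrix.vandermonde y := by
    apply Matrix.ext
    intro i r
    rw [Matrix.mul_apply, Matrix.diagonal_mul]
    simp only [Matrix.vandermonde_apply, Matrix.transpose_apply, Matrix.map_apply]
    have h1 := congrArg (emb w z (i : ℕ)) (hB r)
    rw [map_mul, map_pow, map_sum] at h1
    show _ = emb w z (i : ℕ) f * emb w z (i : ℕ) (g2Y q M) ^ (r : ℕ)
    rw [h1]
    refine Finset.sum_congr rfl fun s _ => ?_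
    rw [map_mul, map_pow, emb_base hw hz (Nat.lt_succ_iff.mp i.2) _ (by rw [coe_inclFN]; exact (B r s).2),
      coe_inclFN, mul_comm]
    rfl
  have hdet := congrArg Matrix.det key
  rw [Matrix.det_mul, Matrix.det_mul, Matrix.det_transpose, Matrix.det_diagonal, mul_comm] at hdet
  have hV : (Matrix.vandermonde y).det ≠ 0 :=
    Matrix.det_vandermonde_ne_zero_iff.mpr (emb_Y_injective hw hz hq hqM)
  have h2 := mul_right_cancel₀ hV hdet
  rw [hd, prod_emb hz, ← RingHom.mapMatrix_apply, ← RingHom.map_det] at h2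
  have h3 : ((Bm.det : FN M) : LaurentSeries Kb) = N1 w z f :=
    qExpand_injective (R := Kb) q h2
  rw [← h3]
  exact Bm.det.2

end N1

end Fermat.Agent.S35
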