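import Fermat.Agent.GR.ES

/-!
# S35:REDU — reduction of `U_q`-type norms and uniqueness of the reduction up to a constant
-/

set_option autoImplicit false

namespace Fermat.Agent.GR

open ModularCurve AlgebraicCurve HahnSeries Fermat.Agent.S24 Fermat.Agent.S28 Fermat.Agent.S18

variable {A : ValuationSubring Kb}

/-- `∏_b Y(z^b t^{1/ℓ})` reduces to the Frobenius twist in characteristic `ℓ`. -/
theorem coeffMap_Uop_Pop_char {R : Type*} [CommRing R] (ℓ : ℕ) [NeZero ℓ] [Fact ℓ.Prime]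
    [CharP R ℓ] {B : Type*} [CommRing B] [IsReduced R] (φ : B →+* R) (z : Bˣ)
    (hz : z ^ ℓ = 1) (Y : LaurentSeries B) :
    coeffMap φ (Uop ℓ (Pop z ℓ Y)) = coeffMap (frobenius R ℓ) (coeffMap φ Y) := by
  have h1 : Units.map (φ : B →* R) z = 1 := by
    apply Units.ext
    apply frobenius_inj R ℓ
    rw [frobenius_def, frobenius_def, Units.val_one, one_pow, ← Units.val_pow_eq_pow_val, ← map_pow,
      hz, map_one, Units.val_one]
  rw [coeffMap_Uop, coeffMap_Pop, h1, Pop_one_left, pow_char_eq_qExpand, Uop_qExpand]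

/-- half of `Red.Mop`. -/
theorem Red.UU {ℓ : ℕ} [NeZero ℓ] [Fact ℓ.Prime] [CharP (kA A) ℓ] {f : LaurentSeries Kb}
    {r : LaurentSeries (kA A)} (hf : Red A f r) {ζ : Kbˣ} (hζ : IsPrimitiveRoot ζ ℓ) :
    Red A (Uop ℓ (Pop ζ ℓ f)) (coeffMap (frobenius (kA A) ℓ) r) := by
  obtain ⟨Y₁, Y₂, h0, hr, h, h'⟩ := hf
  obtain ⟨z, hz, hz1⟩ := exists_unit_of_pow_eq_one (A := A) (NeZero.ne ℓ) ζ hζ.pow_eq_one
  have hsub : ∀ Y : LaurentSeries A, coeffMap A.subtype (Uop ℓ (Pop z ℓ Y)) =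
      Uop ℓ (Pop ζ ℓ (coeffMap A.subtype Y)) := by
    intro Y
    rw [coeffMap_Uop, coeffMap_Pop]
    congr 2
  have hinj := coeffMap_injective (frobenius (kA A) ℓ) (frobenius (kA A) ℓ).injective
  have hne : ∀ x : LaurentSeries (kA A), x ≠ 0 → coeffMap (frobenius (kA A) ℓ) x ≠ 0 :=
    fun x hx hh => hx (hinj (by rw [hh, map_zero]))
  refine ⟨Uop ℓ (Pop z ℓ Y₁), Uop ℓ (Pop z ℓ Y₂), ?_, hne r hr, ?_, ?_⟩
  · rw [coeffMap_Uop_Pop_char ℓ _ z hz1]
    exact hne _ h0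
  · rw [hsub, hsub, ← Uop_Pop_mul hζ, h]
  · rw [coeffMap_Uop_Pop_char ℓ _ z hz1, coeffMap_Uop_Pop_char ℓ _ z hz1, h', map_mul]

/-- a constant reduces to a constant. -/
theorem Red.const {c : Kb} {t : LaurentSeries (kA A)} (h : Red A (C c) t) :
    ∃ κ : kA A, κ ≠ 0 ∧ t = C κ := by
  obtain ⟨Y₁, Y₂, h0, ht, h, h'⟩ := h
  -- a unit coefficient of `Y₂`
  obtain ⟨n, hn⟩ : ∃ n, (coeffMap (IsLocalRing.residue A) Y₂).coeff n ≠ 0 := by
    by_contra hcon
    apply h0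
    ext n
    by_contra hne
    exact hcon ⟨n, hne⟩
  rw [coeffMap_coeff] at hn
  have hu : IsUnit (Y₂.coeff n) := by
    by_contra hnu
    exact hn ((IsLocalRing.residue_eq_zero_iff _).mpr ((IsLocalRing.mem_maximalIdeal _).mpr hnu))
  obtain ⟨v, hv⟩ := hu
  have hcn := congrArg (fun X => X.coeff n) h
  simp only [HahnSeries.C_mul_eq_smul, HahnSeries.coeff_smul, smul_eq_mul, coeffMap_coeff] at hcn
  have hcA : c ∈ A := by
    have h1 : c = A.subtype (Y₁.coeff n) * A.subtype ((v⁻¹ : Aˣ) : A) := by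
      rw [← hcn, mul_assoc, ← map_mul, ← hv, Units.mul_inv, map_one, mul_one]
    rw [h1]
    exact mul_mem (Subtype.property _) (Subtype.property _)
  have hY : Y₁ = C (⟨c, hcA⟩ : A) * Y₂ := by
    apply coeffMap_injective A.subtype A.subtype_injective
    rw [← h, map_mul, coeffMap_C]
    rfl
  rw [hY, map_mul, coeffMap_C] at h'
  have h2 := mul_right_cancel₀ h0 h'
  refine ⟨IsLocalRing.residue A ⟨c, hcA⟩, ?_, h2.symm⟩
  intro h3
  rw [h3, map_zero] at h2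
  exact ht h2.symm

/-- the reduction is unique up to a nonzero constant. -/
theorem Red.unique {f : LaurentSeries Kb} {a b : Kb} {r s : LaurentSeries (kA A)}
    (hr : Red A (C a * f) r) (hs : Red A (C b * f) s) : ∃ κ : kA A, κ ≠ 0 ∧ r = C κ * s := by
  have hbf := hs.ne_zero
  have hb : (C b : LaurentSeries Kb) ≠ 0 := left_ne_zero_of_mul hbf
  have hf : f ≠ 0 := right_ne_zero_of_mul hbf
  have h1 := hr.mul hs.inv
  have h2 : C a * f * (C b * f)⁻¹ = C (a * b⁻¹) := by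
    rw [map_mul, map_inv₀]
    field_simp
  rw [h2] at h1
  obtain ⟨κ, hκ, h3⟩ := h1.const
  refine ⟨κ, hκ, ?_⟩
  rw [← h3, mul_assoc, inv_mul_cancel₀ hs.red_ne_zero, mul_one]

end Fermat.Agent.GR
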