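import Fermat.Agent.S35.N1
import Fermat.Agent.S35.RedU

/-!
# S35, piece TOR: if the two norms of `v` are `m`-th powers then `(σ + w)[v]` is toric

`A ∣ q`, `σ` a Frobenius lift at `A`, `v ∈ ℚ̄(X₀(qM))`.  If `c v ≡ r`, `c' w v ≡ r'` then
`N1 v ≡ r Φ(r')`, `N1 (w v) ≡ r' Φ(r)` (`Φ` = Frobenius on the coefficients), `σ v · w v ≡ Φ(r) r'` and
`w (σ v · w v) = σ (w v) · v ≡ Φ(r') r` (up to constants).
-/

set_option autoImplicit false
set_option linter.unusedSectionVars false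

namespace Fermat.Agent.S35

open ModularCurve HahnSeries Fermat.Agent.S24 Fermat.Agent.S28 Fermat.Agent.S18 Fermat.Agent.GR
  Fermat.Agent.S34

variable {A : ValuationSubring Kb}

theorem red_iff {f : LaurentSeries Kb} {r : LaurentSeries (kA A)} :
    Red A f r ↔ gsMem A f ∧ gr A f = r ∧ r ≠ 0 := by
  constructor
  · rintro ⟨Y₁, Y₂, h0, hr, h, h'⟩
    refine ⟨⟨Y₁, Y₂, h0, h⟩, ?_, hr⟩
    have h1 := gr_mul_eq h0 h
    rw [h'] at h1
    exact mul_right_cancel₀ h0 h1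
  · rintro ⟨⟨Y₁, Y₂, h0, h⟩, rfl, hr⟩
    exact ⟨Y₁, Y₂, h0, hr, h, (gr_mul_eq h0 h).symm⟩

/-- normal form at level `M` (good reduction), with the reduction in the residue function field. -/
theorem exists_red_mem {q M : ℕ} [NeZero M] (hq : q.Prime) (hqM : ¬ q ∣ M)
    (hA : A.LiesOverPrime q) (y : FN M) (hy : y ≠ 0) :
    ∃ (d : Kb) (s : LaurentSeries (kA A)), d ≠ 0 ∧ s ∈ modularFunctionFieldFullC (kA A) M ∧
      Red A (C d * (y : LaurentSeries Kb)) s := by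
  obtain ⟨d, s, hd, hs⟩ := exists_red hq hqM hA y hy
  refine ⟨d, s, hd, ?_, hs⟩
  obtain ⟨h1, h2, -⟩ := red_iff.mp hs
  rw [← h2]
  refine gr_mem A M (natCast_kA_ne_zero hq hA hqM) ?_ h1
  have := (algebraMap Kb (FN M) d * y : FN M).2
  rwa [MulMemClass.coe_mul, gs_coe_algebraMap] at this

/-- normal form at level `qM` for the Gauss valuation at `∞`. -/
theorem exists_red_mem' {q M : ℕ} [NeZero q] [NeZero M] (hq : q.Prime) (hqM : ¬ q ∣ M)
    (hA : A.LiesOverPrime q) {w : FN (q * M) ≃ₐ[Kb] FN (q * M)} (hw : IsWq q M w)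
    (f : FN (q * M)) (hf : f ≠ 0) :
    ∃ (c : Kb) (r : LaurentSeries (kA A)), c ≠ 0 ∧ r ∈ modularFunctionFieldFullC (kA A) M ∧
      Red A (C c * (f : LaurentSeries Kb)) r := by
  have : Fact q.Prime := ⟨hq⟩
  have := charP_kA hq hA
  obtain ⟨c, hc, h1, h2, h3⟩ := g2_normalForm A hqM hw.spec f hf
  exact ⟨c, _, hc, h3, red_iff.mpr ⟨h1, rfl, h2⟩⟩

theorem tor_half {q M m : ℕ} [NeZero q] [NeZero M] (hq : q.Prime) (hqM : ¬ q ∣ M) (hm : 0 < m)
    (hA : A.LiesOverPrime q) {σ : GQ} (hσ : A.IsFrobeniusAt σ q) {ζ : Kbˣ}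
    (hζ : IsPrimitiveRoot ζ q) {f g : LaurentSeries Kb} {c c' : Kb}
    {r r' : LaurentSeries (kA A)} (hf : Red A (C c * f) r) (hg : Red A (C c' * g) r')
    (y : FN M) (hy : g * UU ζ q f = (y : LaurentSeries Kb) ^ m) :
    ∃ ρ : LaurentSeries (kA A), σ c * c' ≠ 0 ∧ ρ ∈ modularFunctionFieldFullC (kA A) M ∧
      Red A (C (σ c * c') * (coeffMap (σ : Kb →+* Kb) f * g)) (ρ ^ m) := by
  have : Fact q.Prime := ⟨hq⟩
  have := charP_kA hq hA
  have := isAlgClosed_kA A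
  obtain ⟨hσd, hσF⟩ := hσ
  have hφ : ∀ x : A, IsLocalRing.residue A ((⟨σ, hσd⟩ : A.decompositionSubgroup ℚ) • x) =
      frobenius (kA A) q (IsLocalRing.residue A x) := by
    intro x
    rw [IsLocalRing.ResidueField.residue_smul, hσF, frobenius_def]
  have hc : c ≠ 0 := by
    rintro rfl
    apply hf.ne_zero
    rw [map_zero, zero_mul]
  have hc' : c' ≠ 0 := by
    rintro rfl
    apply hg.ne_zero
    rw [map_zero, zero_mul]
  -- the norm
  have h1 : Red A (C (c' * c ^ q) * (g * UU ζ q f)) (r' * coeffMap (frobenius (kA A) q) r) := by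
    have h := hg.mul (hf.UU hζ)
    have e : C c' * g * Uop q (Pop ζ q (C c * f)) = C (c' * c ^ q) * (g * UU ζ q f) := by
      show C c' * g * UU ζ q (C c * f) = _
      rw [UU_mul hζ, UU_C, map_mul]
      ring
    rwa [e] at h
  have hy0 : y ≠ 0 := by
    rintro rfl
    apply h1.ne_zero
    rw [hy]
    show _ * (0 : LaurentSeries Kb) ^ m = 0
    rw [zero_pow hm.ne', mul_zero]
  obtain ⟨d, s, hd, hsE, hs⟩ := exists_red_mem hq hqM hA y hy0
  have h2 : Red A (C (d ^ m) * (g * UU ζ q f)) (s ^ m) := by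
    have h := hs.pow m
    rwa [mul_pow, ← map_pow, ← hy] at h
  obtain ⟨κ, hκ, h3⟩ := h1.unique h2
  obtain ⟨lam, hlam⟩ := IsAlgClosed.exists_pow_nat_eq κ hm
  -- the Galois side
  have h4 := (hf.map ⟨σ, hσd⟩ _ hφ).mul hg
  have e4 : coeffMap (σ : Kb →+* Kb) (C c * f) * (C c' * g) =
      C (σ c * c') * (coeffMap (σ : Kb →+* Kb) f * g) := by
    rw [map_mul (coeffMap _), coeffMap_C, map_mul C]
    simp only [RingHom.coe_coe]
    ring
  refine ⟨C lam * s, mul_ne_zero (by simpa using hc) hc', ?_, ?_⟩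
  · rw [← Fermat.Agent.S28.algebraMap_eq_C]
    exact mul_mem (IntermediateField.algebraMap_mem _ _) hsE
  · rw [← e4, mul_pow, ← map_pow, hlam, ← h3, mul_comm r']
    exact h4

/-- **TOR.** -/
theorem isTor_of_norm {q M m : ℕ} [NeZero q] [NeZero M] (hq : q.Prime) (hqM : ¬ q ∣ M) (hm : 0 < m)
    (hA : A.LiesOverPrime q) {σ : GQ} (hσ : A.IsFrobeniusAt σ q) {ζ : Kbˣ}
    (hζ : IsPrimitiveRoot ζ q) {w : FN (q * M) ≃ₐ[Kb] FN (q * M)} (hw : IsWq q M w)
    (v : FN (q * M)) (hv : v ≠ 0) (hord : DvdOrd (q * M) m v) (hord' : DvdOrd (q * M) m (w v))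
    (y y' : FN M) (hy : N1 w ζ v = (y : LaurentSeries Kb) ^ m)
    (hy' : N1 w ζ (w v) = (y' : LaurentSeries Kb) ^ m) :
    IsTor A q M m w (galF (q * M) σ v * w v) := by
  have hwv : w v ≠ 0 := by rwa [Ne, map_eq_zero_iff w w.injective]
  have hσv : galF (q * M) σ v ≠ 0 := by rwa [Ne, map_eq_zero_iff _ (galF (q * M) σ).injective]
  obtain ⟨c, r, hc, -, hr⟩ := exists_red_mem' hq hqM hA hw v hv
  obtain ⟨c', r', hc', -, hr'⟩ := exists_red_mem' hq hqM hA hw (w v) hwv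
  refine ⟨mul_ne_zero hσv hwv, (hord.galF σ).mul hord', ?_, ?_⟩
  · rw [N1, hw.invol] at hy'
    obtain ⟨ρ, he, hρ, h⟩ := tor_half hq hqM hm hA hσ hζ hr hr' y' hy'
    exact ⟨_, ρ, he, hρ, h⟩
  · rw [N1] at hy
    obtain ⟨ρ, he, hρ, h⟩ := tor_half hq hqM hm hA hσ hζ hr' hr y hy
    refine ⟨_, ρ, he, hρ, ?_⟩
    rw [map_mul w, hw.gal, hw.invol]
    exact h

end Fermat.Agent.S35
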