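import Fermat.Agent.S34.UnipCoord
import Fermat.Agent.S34.NZ
import Fermat.Agent.S35.Tor

/-!
# S35, piece TKL-mod: `σ² = q²` on the toric Kummer classes of `ℚ̄(X₀(qM))`

Frobenius version of `S34/UnipMod.lean` + `S34/UnipCoord.lean`.

* `CoordF q M hqM` : what the coordinate team has to provide (it is the output of `S34.exists_nodalZ` with
  `Fr = g2Phi A`, plus `x` Galois invariant and `Fr y = y^q`);
* `IsTor1` : toric with ONE constant for both Gauss valuations;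
* `TorFrob q M` : `σ² z = z^(q²) h^m` for `z` toric, `σ` a Frobenius lift;
* `torFrob_of_coord : CoordF q M hqM → TorFrob q M`.
-/

set_option autoImplicit false
set_option linter.unusedSectionVars false

namespace Fermat.Agent.S35

open ModularCurve AlgebraicCurve HahnSeries Fermat.Agent.S24 Fermat.Agent.S28 Fermat.Agent.S18
  Fermat.Agent.GR Fermat.Agent.S34

/-! ### the decomposition group and the Gauss reduction -/

section Decomp

variable {A : ValuationSubring Kb}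

theorem gs_decomp (g : A.decompositionSubgroup ℚ) (φ : kA A →+* kA A)
    (hφ : ∀ x : A, IsLocalRing.residue A (g • x) = φ (IsLocalRing.residue A x))
    {f : LaurentSeries Kb} (hf : gsMem A f) :
    gsMem A (coeffMap ((g : GQ) : Kb →+* Kb) f) ∧
      gr A (coeffMap ((g : GQ) : Kb →+* Kb) f) = coeffMap φ (gr A f) := by
  obtain ⟨Y₁, Y₂, h0, h⟩ := hf
  have hres : ∀ Y : LaurentSeries A, coeffMap (IsLocalRing.residue A) (coeffMap (dA g) Y) =
      coeffMap φ (coeffMap (IsLocalRing.residue A) Y) := by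
    intro Y
    rw [coeffMap_coeffMap, coeffMap_coeffMap]
    exact coeffMap_congr (RingHom.ext fun x => hφ x) _
  have hinj := coeffMap_injective φ φ.injective
  have h0'' : coeffMap φ (coeffMap (IsLocalRing.residue A) Y₂) ≠ 0 :=
    fun hh => h0 (hinj (by rw [hh, map_zero]))
  have h0' : coeffMap (IsLocalRing.residue A) (coeffMap (dA g) Y₂) ≠ 0 := by rw [hres]; exact h0''
  have h' : coeffMap ((g : GQ) : Kb →+* Kb) f * coeffMap A.subtype (coeffMap (dA g) Y₂) =
      coeffMap A.subtype (coeffMap (dA g) Y₁) := by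
    rw [coeffMap_subtype_dA, coeffMap_subtype_dA, ← map_mul, h]
  refine ⟨⟨_, _, h0', h'⟩, ?_⟩
  have e1 := gr_mul_eq h0' h'
  have e2 := gr_mul_eq h0 h
  rw [hres, hres, ← e2, map_mul] at e1
  exact mul_right_cancel₀ h0'' e1

end Decomp

/-! ### the action on the coefficients of the residue function field -/

theorem coeffMap_mem_fullC {k : Type} [Field k] (φ : k →+* k) (M : ℕ) {x : LaurentSeries k}
    (hx : x ∈ modularFunctionFieldFullC k M) : coeffMap φ x ∈ modularFunctionFieldFullC k M := by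
  induction hx using IntermediateField.adjoin_induction with
  | mem x hx =>
    obtain ⟨d, hd, hdN, rfl⟩ := hx
    have := hd
    rw [coeffMap_qExpand, coeffMap_jqModC]
    exact IntermediateField.subset_adjoin _ _ ⟨d, hd, hdN, rfl⟩
  | algebraMap c =>
    rw [Fermat.Agent.S28.algebraMap_eq_C, coeffMap_C, ← Fermat.Agent.S28.algebraMap_eq_C]
    exact IntermediateField.algebraMap_mem _ _
  | add x y _ _ hx hy => rw [map_add]; exact add_mem hx hy
  | inv x _ hx => rw [map_inv₀]; exact inv_mem hx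
  | mul x y _ _ hx hy => rw [map_mul]; exact mul_mem hx hy

/-- `φ` on the coefficients of `k(X₀(M))`. -/
noncomputable def cfE {k : Type} [Field k] (φ : k →+* k) (M : ℕ) :
    modularFunctionFieldFullC k M →+* modularFunctionFieldFullC k M where
  toFun x := ⟨coeffMap φ (x : LaurentSeries k), coeffMap_mem_fullC φ M x.2⟩
  map_one' := Subtype.ext (map_one _)
  map_mul' _ _ := Subtype.ext (map_mul _ _ _)
  map_zero' := Subtype.ext (map_zero _)
  map_add' _ _ := Subtype.ext (map_add _ _ _)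

theorem coe_cfE {k : Type} [Field k] (φ : k →+* k) (M : ℕ) (x : modularFunctionFieldFullC k M) :
    ((cfE φ M x : modularFunctionFieldFullC k M) : LaurentSeries k) = coeffMap φ x := rfl

theorem cfE_algebraMap {k : Type} [Field k] (φ : k →+* k) (M : ℕ) (c : k) :
    cfE φ M (algebraMap k _ c) = algebraMap k _ (φ c) := by
  apply Subtype.ext
  rw [coe_cfE]
  show coeffMap φ (algebraMap k (LaurentSeries k) c) = algebraMap k (LaurentSeries k) (φ c)
  rw [Fermat.Agent.S28.algebraMap_eq_C, coeffMap_C, ← Fermat.Agent.S28.algebraMap_eq_C]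

/-- integrality over `k[Y]` is transported by a semilinear ring homomorphism. -/
theorem isIntegral_map_semilinear {k R R' : Type*} [CommRing k] [CommRing R] [CommRing R']
    [Algebra k R] [Algebra k R'] (f : R →+* R') (φ : k →+* k)
    (hfk : ∀ c : k, f (algebraMap k R c) = algebraMap k R' (φ c))
    {Y : R} {Y' : R'} (hY : f Y ∈ Algebra.adjoin k {Y'}) {r : R}
    (hr : IsIntegral (Algebra.adjoin k {Y}) r) : IsIntegral (Algebra.adjoin k {Y'}) (f r) := by
  have hmap : ∀ z : Algebra.adjoin k {Y}, f (z : R) ∈ Algebra.adjoin k {Y'} := by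
    rintro ⟨z, hz⟩
    show f z ∈ _
    induction hz using Algebra.adjoin_induction with
    | mem x hx =>
      rw [Set.mem_singleton_iff] at hx
      rw [hx]; exact hY
    | algebraMap c => rw [hfk]; exact Subalgebra.algebraMap_mem _ _
    | add x y _ _ hx hy => rw [map_add]; exact add_mem hx hy
    | mul x y _ _ hx hy => rw [map_mul]; exact mul_mem hx hy
  let φ' : Algebra.adjoin k {Y} →+* Algebra.adjoin k {Y'} :=
    (f.comp (algebraMap (Algebra.adjoin k {Y}) R)).codRestrict (Algebra.adjoin k {Y'}) hmap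
  exact hr.map_of_comp_eq φ' f (RingHom.ext fun _ => rfl)

section Main

variable (A : ValuationSubring Kb) {q M : ℕ} [NeZero q] [NeZero M] [Fact q.Prime]
  [CharP (kA A) q] {w : FN (q * M) ≃ₐ[Kb] FN (q * M)}

local notation "EE" => modularFunctionFieldFullC (kA A) M

/-- the Frobenius on the coefficients of `k(X₀(M))`. -/
noncomputable def PhiE : EE →+* EE := cfE (frobenius (kA A) q) M

/-- `a^q = Fr (Φ a)`. -/
theorem pow_eq_g2Phi_PhiE (a : EE) : a ^ q = g2Phi A (PhiE (q := q) A a) := by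
  apply Subtype.ext
  rw [coe_g2Phi]
  show (a : LaurentSeries (kA A)) ^ q = qExpand (kA A) q (coeffMap (frobenius (kA A) q) a)
  exact pow_char_eq_qExpand q _

theorem pow_sq_eq (a : EE) :
    a ^ (q ^ 2) = g2Phi A (g2Phi A (PhiE (q := q) A (PhiE (q := q) A a))) := by
  rw [sq, pow_mul, pow_eq_g2Phi_PhiE A a, ← map_pow, pow_eq_g2Phi_PhiE A (PhiE A a)]

theorem PhiE_eq_self {y : EE} (hy : g2Phi (q := q) A y = y ^ q) : PhiE (q := q) A y = y := by
  apply (g2Phi (q := q) A).injective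
  rw [← pow_eq_g2Phi_PhiE, hy]

theorem PhiE_mem_nzC {y : EE} (hy : g2Phi (q := q) A y = y ^ q) {a : EE}
    (ha : a ∈ nzC (kA A) y) : PhiE (q := q) A a ∈ nzC (kA A) y :=
  isIntegral_map_semilinear (PhiE (q := q) A) (frobenius (kA A) q)
    (fun c => cfE_algebraMap _ _ c)
    (by rw [PhiE_eq_self A hy]; exact Algebra.self_mem_adjoin_singleton _ y) ha

/-- the Frobenius on the residue ring of `gauss2`. -/
noncomputable def gbE : EE × EE →+* EE × EE := RingHom.prodMap (PhiE (q := q) A) (PhiE (q := q) A)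

/-- a Frobenius lift preserves the sup-ball and induces the Frobenius on the reduction. -/
theorem gauss2_frob (hqM : ¬ q ∣ M) (hw : WqSpec q M w) {σ : GQ} (hσ : A.IsFrobeniusAt σ q)
    (f : FN (q * M)) (hf : f ∈ (gauss2 A hqM hw).V) :
    galF (q * M) σ f ∈ (gauss2 A hqM hw).V ∧
      (gauss2 A hqM hw).rd (galF (q * M) σ f) = gbE (q := q) A ((gauss2 A hqM hw).rd f) := by
  obtain ⟨hσd, hσF⟩ := hσ
  have hφ : ∀ x : A, IsLocalRing.residue A ((⟨σ, hσd⟩ : A.decompositionSubgroup ℚ) • x) =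
      frobenius (kA A) q (IsLocalRing.residue A x) := by
    intro x
    rw [IsLocalRing.ResidueField.residue_smul, hσF, frobenius_def]
  have h1 := gs_decomp ⟨σ, hσd⟩ _ hφ hf.1
  have h2 := gs_decomp ⟨σ, hσd⟩ _ hφ hf.2
  have hmem : galF (q * M) σ f ∈ (gauss2 A hqM hw).V := by
    refine ⟨h1.1, ?_⟩
    rw [hw.gal]
    exact h2.1
  refine ⟨hmem, ?_⟩
  rw [(gauss2 A hqM hw).rd_of_mem hmem, (gauss2 A hqM hw).rd_of_mem hf]
  refine Prod.ext (Subtype.ext ?_) (Subtype.ext ?_)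
  · exact h1.2
  · show gr A ((w (galF (q * M) σ f) : FN (q * M)) : LaurentSeries Kb) = _
    rw [hw.gal]
    exact h2.2

end Main

/-- **What the coordinate team has to provide for S35** (`= ` output of `S34.exists_nodalZ` for `Fr = g2Phi A`). -/
def CoordF (q M : ℕ) [NeZero q] [NeZero M] [Fact q.Prime] (hqM : ¬ q ∣ M) : Prop :=
  ∀ (A : ValuationSubring Kb) [CharP (kA A) q], A.LiesOverPrime q →
    ∀ (w : FN (q * M) ≃ₐ[Kb] FN (q * M)) (hw : WqSpec q M w),
    ∃ (x : FN (q * M)) (y : modularFunctionFieldFullC (kA A) M) (Z : NodalZ (gauss2 A hqM hw) x),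
      (gauss2 A hqM hw).Coord x ∧ (∀ σ : GQ, galF (q * M) σ x = x) ∧ g2Phi (q := q) A y = y ^ q ∧
      Z.C0 = (nzC (kA A) y).prod (nzC (kA A) y) ∧
      ∀ ξ ∈ Z.Ξ, ∀ (r : modularFunctionFieldFullC (kA A) M × modularFunctionFieldFullC (kA A) M)
        (hr : r ∈ Z.C0)
        (hr' : (g2Phi (q := q) A (g2Phi (q := q) A r.1), g2Phi (q := q) A (g2Phi (q := q) A r.2)) ∈ Z.C0),
        ξ ⟨_, hr'⟩ = ξ ⟨r, hr⟩

/-- `CoordF` contains the input of `S34.unipAt_of_coord`. -/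
theorem CoordF.unipAt {q M : ℕ} [NeZero q] [NeZero M] [Fact q.Prime] {hqM : ¬ q ∣ M}
    (H : CoordF q M hqM) : UnipAt (q * M) q :=
  unipAt_of_coord hqM fun A _ hA w hw => by
    obtain ⟨x, y, Z, hx, hG, -⟩ := H A hA w hw
    exact ⟨x, hx, ⟨Z⟩, fun g _ => hG g⟩

/-- toric, with ONE constant for both Gauss valuations. -/
def IsTor1 (A : ValuationSubring Kb) (q M m : ℕ) (w : FN (q * M) ≃ₐ[Kb] FN (q * M))
    (z : FN (q * M)) : Prop :=
  DvdOrd (q * M) m z ∧
  ∃ (c : Kb) (r r' : LaurentSeries (kA A)), c ≠ 0 ∧ r ∈ modularFunctionFieldFullC (kA A) M ∧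
    r' ∈ modularFunctionFieldFullC (kA A) M ∧ Red A (C c * (z : LaurentSeries Kb)) (r ^ m) ∧
    Red A (C c * ((w z : FN (q * M)) : LaurentSeries Kb)) (r' ^ m)

/-- a unit of `A` reduces to a nonzero constant. -/
theorem red_C_of_unit {A : ValuationSubring Kb} {a : Kb} (ha : a ∈ A) (hai : a⁻¹ ∈ A) (ha0 : a ≠ 0) :
    ∃ κ : kA A, κ ≠ 0 ∧ Red A (C a) (C κ) := by
  refine ⟨IsLocalRing.residue A ⟨a, ha⟩, ?_, ?_⟩
  · intro h0
    have h5 : (⟨a⁻¹, hai⟩ : A) * ⟨a, ha⟩ = 1 := Subtype.ext (inv_mul_cancel₀ ha0)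
    have h6 := congrArg (IsLocalRing.residue A) h5
    rw [map_mul, h0, mul_zero, map_one] at h6
    exact zero_ne_one h6
  · have hκ : IsLocalRing.residue A ⟨a, ha⟩ ≠ 0 := by
      intro h0
      have h5 : (⟨a⁻¹, hai⟩ : A) * ⟨a, ha⟩ = 1 := Subtype.ext (inv_mul_cancel₀ ha0)
      have h6 := congrArg (IsLocalRing.residue A) h5
      rw [map_mul, h0, mul_zero, map_one] at h6
      exact zero_ne_one h6
    refine red_iff.mpr ⟨gsMem_C ha, gr_C ha, ?_⟩
    rw [Ne, map_eq_zero_iff _ HahnSeries.C_injective]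
    exact hκ

/-- **TOR**, with one constant. -/
theorem isTor1_of_norm {A : ValuationSubring Kb} {q M m : ℕ} [NeZero q] [NeZero M] (hq : q.Prime)
    (hqM : ¬ q ∣ M) (hm : 0 < m)
    (hA : A.LiesOverPrime q) {σ : GQ} (hσ : A.IsFrobeniusAt σ q) {ζ : Kbˣ}
    (hζ : IsPrimitiveRoot ζ q) {w : FN (q * M) ≃ₐ[Kb] FN (q * M)} (hw : IsWq q M w)
    (v : FN (q * M)) (hv : v ≠ 0) (hord : DvdOrd (q * M) m v) (hord' : DvdOrd (q * M) m (w v))
    (y y' : FN M) (hy : N1 w ζ v = (y : LaurentSeries Kb) ^ m)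
    (hy' : N1 w ζ (w v) = (y' : LaurentSeries Kb) ^ m) :
    IsTor1 A q M m w (galF (q * M) σ v * w v) := by
  have := isAlgClosed_kA A
  have hwv : w v ≠ 0 := by rwa [Ne, map_eq_zero_iff w w.injective]
  obtain ⟨c, r, hc, -, hr⟩ := exists_red_mem' hq hqM hA hw v hv
  obtain ⟨c', r', hc', -, hr'⟩ := exists_red_mem' hq hqM hA hw (w v) hwv
  refine ⟨(hord.galF σ).mul hord', ?_⟩
  rw [N1, hw.invol] at hy'
  rw [N1] at hy
  obtain ⟨ρ, he, hρ, h⟩ := tor_half hq hqM hm hA hσ hζ hr hr' y' hy'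
  obtain ⟨ρ', he', hρ', h'⟩ := tor_half hq hqM hm hA hσ hζ hr' hr y hy
  -- the quotient of the two constants is a unit
  set g : A.decompositionSubgroup ℚ := ⟨σ, hσ.1⟩ with hg
  have a1 : σ c / c ∈ A := decomp_div_mem g hc
  have a2 : (σ c / c)⁻¹ ∈ A := decomp_div_inv_mem g hc
  have b1 : σ c' / c' ∈ A := decomp_div_mem g hc'
  have b2 : (σ c' / c')⁻¹ ∈ A := decomp_div_inv_mem g hc'
  have hσc : σ c ≠ 0 := by simpa using hc
  have hσc' : σ c' ≠ 0 := by simpa using hc'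
  set ε : Kb := σ c / c * (σ c' / c')⁻¹ with hε
  have hε0 : ε ≠ 0 := mul_ne_zero (div_ne_zero hσc hc) (inv_ne_zero (div_ne_zero hσc' hc'))
  obtain ⟨κ, hκ, hred⟩ := red_C_of_unit (A := A) (a := ε) (mul_mem a1 b2)
    (by rw [hε, mul_inv, inv_inv]; exact mul_mem a2 b1) hε0
  obtain ⟨lam, hlam⟩ := IsAlgClosed.exists_pow_nat_eq κ hm
  refine ⟨σ c * c', ρ, C lam * ρ', he, hρ, ?_, h, ?_⟩
  · rw [← Fermat.Agent.S28.algebraMap_eq_C]
    exact mul_mem (IntermediateField.algebraMap_mem _ _) hρ'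
  · have h2 := hred.mul h'
    rw [map_mul w, hw.gal, hw.invol, mul_pow, ← map_pow, hlam]
    have e : C ε * (C (σ c' * c) * (coeffMap (σ : Kb →+* Kb) ((w v : FN (q * M)) : LaurentSeries Kb) *
        (v : LaurentSeries Kb))) = C (σ c * c') *
        (coeffMap (σ : Kb →+* Kb) ((w v : FN (q * M)) : LaurentSeries Kb) * (v : LaurentSeries Kb)) := by
      rw [← mul_assoc, ← map_mul]
      congr 2
      rw [hε]
      field_simp
    rw [e] at h2
    exact h2

/-- `σ² = q²` on the toric classes. -/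
def TorFrob (q M : ℕ) [NeZero q] : Prop :=
  ∀ A : ValuationSubring Kb, A.LiesOverPrime q → ∀ w : FN (q * M) ≃ₐ[Kb] FN (q * M), IsWq q M w →
    ∀ m : ℕ, ¬ q ∣ m → ∀ σ : GQ, A.IsFrobeniusAt σ q → ∀ z : FN (q * M), IsTor1 A q M m w z →
      ∃ h : FN (q * M), galF (q * M) σ (galF (q * M) σ z) = z ^ (q ^ 2) * h ^ m

section Rep

variable (A : ValuationSubring Kb) {q M : ℕ} [NeZero q] [NeZero M] [Fact q.Prime]
  [CharP (kA A) q] {w : FN (q * M) ≃ₐ[Kb] FN (q * M)}

/-- a toric class has a representative `≡ 1` for both Gauss valuations. -/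
theorem exists_toric_rep1 (hqM : ¬ q ∣ M) (hw : WqSpec q M w) {m : ℕ} (hm : 0 < m)
    (z : FN (q * M)) (hz : IsTor1 A q M m w z) :
    ∃ v : FN (q * M), v ≠ 0 ∧ z * v ^ m ∈ (gauss2 A hqM hw).V ∧
      (gauss2 A hqM hw).rd (z * v ^ m) = 1 := by
  set S := gauss2 A hqM hw with hS
  obtain ⟨-, c, r, r', hc, hrE, hrE', h1, h2⟩ := hz
  obtain ⟨d, hd⟩ := IsAlgClosed.exists_pow_nat_eq c hm
  have hd0 : d ≠ 0 := by
    rintro rfl
    rw [zero_pow hm.ne'] at hd
    exact hc hd.symm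
  obtain ⟨m1, g1, n1⟩ := red_iff.mp h1
  obtain ⟨m2, g2, n2⟩ := red_iff.mp h2
  have hr0 : r ≠ 0 := fun h => n1 (by rw [h, zero_pow hm.ne'])
  have hr0' : r' ≠ 0 := fun h => n2 (by rw [h, zero_pow hm.ne'])
  set z1 : FN (q * M) := algebraMap Kb (FN (q * M)) c * z with hz1
  have hz1V : z1 ∈ S.V := by
    refine ⟨?_, ?_⟩
    · rw [hz1, MulMemClass.coe_mul, gs_coe_algebraMap]; exact m1
    · rw [hz1, WqSpec.w_C_mul]; exact m2
  set ρ : modularFunctionFieldFullC (kA A) M := ⟨r, hrE⟩ with hρ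
  set ρ' : modularFunctionFieldFullC (kA A) M := ⟨r', hrE'⟩ with hρ'
  have hρ0 : ρ ≠ 0 := fun h => hr0 (congrArg Subtype.val h)
  have hρ0' : ρ' ≠ 0 := fun h => hr0' (congrArg Subtype.val h)
  have hrz1 : S.red ⟨z1, hz1V⟩ = (ρ ^ m, ρ' ^ m) := by
    refine Prod.ext (Subtype.ext ?_) (Subtype.ext ?_)
    · show gr A ((z1 : FN (q * M)) : LaurentSeries Kb) = _
      rw [hz1, MulMemClass.coe_mul, gs_coe_algebraMap, g1]; rfl
    · show gr A ((w z1 : FN (q * M)) : LaurentSeries Kb) = _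
      rw [hz1, WqSpec.w_C_mul, g2]; rfl
  obtain ⟨v0, hv0⟩ := S.red_surj (ρ⁻¹, ρ'⁻¹)
  have hv00 : (v0 : FN (q * M)) ≠ 0 := by
    intro h0
    have : v0 = 0 := Subtype.ext h0
    rw [this, map_zero] at hv0
    exact inv_ne_zero hρ0 (congrArg Prod.fst hv0).symm
  have e : z * (algebraMap Kb (FN (q * M)) d * (v0 : FN (q * M))) ^ m =
      z1 * (v0 : FN (q * M)) ^ m := by
    rw [mul_pow, ← map_pow, hd, hz1]; ring
  have hmem : z1 * (v0 : FN (q * M)) ^ m ∈ S.V := mul_mem hz1V (pow_mem v0.2 m)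
  refine ⟨algebraMap Kb (FN (q * M)) d * v0, mul_ne_zero (by rw [Ne, map_eq_zero]; exact hd0) hv00,
    by rw [e]; exact hmem, ?_⟩
  rw [e, S.rd_of_mem hmem]
  have e' : (⟨z1 * (v0 : FN (q * M)) ^ m, hmem⟩ : S.V) = ⟨z1, hz1V⟩ * v0 ^ m := rfl
  rw [e', map_mul, map_pow, hv0, hrz1]
  refine Prod.ext ?_ ?_
  · simp only [Prod.fst_mul, Prod.pow_fst, Prod.fst_one]
    rw [← mul_pow, mul_inv_cancel₀ hρ0, one_pow]
  · simp only [Prod.snd_mul, Prod.pow_snd, Prod.snd_one]
    rw [← mul_pow, mul_inv_cancel₀ hρ0', one_pow]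

end Rep

/-- **TKL-mod.** -/
theorem torFrob_of_coord {q M : ℕ} [NeZero q] [NeZero M] [Fact q.Prime] {hqM : ¬ q ∣ M}
    (H : CoordF q M hqM) : TorFrob q M := by
  intro A hA w hw' m hm σ hσ z hz
  have hq : q.Prime := Fact.out
  have : NeZero (q * M) := ⟨mul_ne_zero (NeZero.ne q) (NeZero.ne M)⟩
  have := charP_kA hq hA
  have := isAlgClosed_kA A
  have hw := hw'.spec
  have hm0 : 0 < m := Nat.pos_of_ne_zero (fun h0 => hm (h0 ▸ dvd_zero q))
  obtain ⟨x, y, Z, hx, hG, hy, hC0, hξ⟩ := H A hA w hw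
  obtain ⟨v, hv0, hV, h1⟩ := exists_toric_rep1 A hqM hw hm0 z hz
  set θ : FN (q * M) →+* FN (q * M) :=
    (galF (q * M) σ).toRingHom.comp (galF (q * M) σ).toRingHom with hθ
  set θb := (gbE (q := q) (M := M) A).comp (gbE (q := q) (M := M) A) with hθb
  have hθC : ∀ r ∈ Z.C0, θb r ∈ Z.C0 := by
    intro r hr
    rw [hC0] at hr ⊢
    have := Subalgebra.mem_prod.1 hr
    exact Subalgebra.mem_prod.2 ⟨PhiE_mem_nzC A hy (PhiE_mem_nzC A hy this.1),
      PhiE_mem_nzC A hy (PhiE_mem_nzC A hy this.2)⟩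
  have hord : DvdOrd (q * M) m (z * v ^ m) := hz.1.mul (dvdOrd_pow_self m v)
  obtain ⟨h, hh⟩ := toricKL_gen' (isFF_FN (q * M)) hx Z (arch_of_liesOver A hq hA)
    (Fermat.Agent.S18.natCast_kA_ne_zero A hq hA hm) θ θb (q ^ 2)
    (fun a b => add_pow_char_pow a b q 2) (pow_pos hq.pos 2)
    (fun c => ⟨σ (σ c), by
      show galF (q * M) σ (galF (q * M) σ _) = _
      rw [galF_algebraMap, galF_algebraMap]⟩)
    (by show galF (q * M) σ (galF (q * M) σ x) = x; rw [hG, hG])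
    (fun f hf => by
      obtain ⟨a1, a2⟩ := gauss2_frob A hqM hw hσ f hf
      obtain ⟨b1, b2⟩ := gauss2_frob A hqM hw hσ _ a1
      exact ⟨b1, by
        show (gauss2 A hqM hw).rd (galF (q * M) σ (galF (q * M) σ f)) = _
        rw [b2, a2]; rfl⟩)
    hθC
    (fun ξ hξ' r hr => by
      have key : r ^ (q ^ 2) = (g2Phi (q := q) A (g2Phi (q := q) A (θb r).1),
          g2Phi (q := q) A (g2Phi (q := q) A (θb r).2)) :=
        Prod.ext (pow_sq_eq A r.1) (pow_sq_eq A r.2)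
      have hmem : (g2Phi (q := q) A (g2Phi (q := q) A (θb r).1),
          g2Phi (q := q) A (g2Phi (q := q) A (θb r).2)) ∈ Z.C0 := by
        rw [← key]; exact pow_mem hr _
      rw [← hξ ξ hξ' (θb r) (hθC r hr) hmem, ← map_pow]
      exact congrArg ξ (Subtype.ext key.symm))
    hV h1 hord ((hord.galF σ).galF σ)
  have hne : ∀ {t : FN (q * M)}, t ≠ 0 → galF (q * M) σ t ≠ 0 := fun {t} ht => by
    rwa [Ne, map_eq_zero_iff _ (galF (q * M) σ).injective]
  have hz0 : z ≠ 0 := by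
    rintro rfl
    rw [zero_mul, (gauss2 A hqM hw).rd_zero] at h1
    exact zero_ne_one h1
  refine ⟨h * v ^ (q ^ 2) / galF (q * M) σ (galF (q * M) σ v), ?_⟩
  have hh' : h ^ m = galF (q * M) σ (galF (q * M) σ (z * v ^ m)) / (z * v ^ m) ^ (q ^ 2) := hh
  rw [div_pow, mul_pow, hh', map_mul, map_mul, map_pow, map_pow]
  have h3 := hne (hne hv0)
  field_simp
  rw [mul_pow, ← pow_mul, ← pow_mul, mul_comm m]
  ring

end Fermat.Agent.S35
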