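import Fermat.Agent.S34.HC
import Fermat.Agent.S35.TKLMod

/-!
# S35: `CoordF q M` for `4 ∣ M` (`q` odd), `9 ∣ M` (`q = 2`), from the S34 machine
-/

set_option autoImplicit false

namespace Fermat.Agent.S35

open ModularCurve AlgebraicCurve Fermat.Agent.S24 Fermat.Agent.S28 Fermat.Agent.S18 Fermat.Agent.GR
open Fermat.Agent.S34

section

variable (A : ValuationSubring Kb) {q M : ℕ} [NeZero q] [NeZero M] [Fact q.Prime]
  [CharP (kA A) q] {w : FN (q * M) ≃ₐ[Kb] FN (q * M)}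

/-- the body of `CoordF` for a level `M` coordinate with integer `q`-expansion and good reduction. -/
theorem coordF_of_coord (hqM : ¬ q ∣ M) (hw : WqSpec q M w) (t : FN M) (tZ : LaurentSeries ℤ)
    (htZ : (t : LaurentSeries Kb) = coeffMap (Int.castRingHom Kb) tZ)
    (hc : (gaussSetting A M (g2_natCast_ne_zero A hqM)).Coord t)
    (h0 : (gaussSetting A M (g2_natCast_ne_zero A hqM)).NormalRed t)
    (hI : (gaussSetting A M (g2_natCast_ne_zero A hqM)).NormalRed t⁻¹) :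
    ∃ (x : FN (q * M)) (y : modularFunctionFieldFullC (kA A) M) (Z : NodalZ (gauss2 A hqM hw) x),
      (gauss2 A hqM hw).Coord x ∧ (∀ σ : GQ, galF (q * M) σ x = x) ∧ g2Phi (q := q) A y = y ^ q ∧
      Z.C0 = (nzC (kA A) y).prod (nzC (kA A) y) ∧
      ∀ ξ ∈ Z.Ξ, ∀ (r : modularFunctionFieldFullC (kA A) M × modularFunctionFieldFullC (kA A) M)
        (hr : r ∈ Z.C0)
        (hr' : (g2Phi (q := q) A (g2Phi (q := q) A r.1), g2Phi (q := q) A (g2Phi (q := q) A r.2)) ∈ Z.C0),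
        ξ ⟨_, hr'⟩ = ξ ⟨r, hr⟩ := by
  have := isAlgClosed_kA A
  set D := hcTwoLevel A hqM hw t tZ htZ hc h0 hI with hD
  obtain ⟨h1, Z, hC0, hξ⟩ := D.main
  refine ⟨D.x, D.y, Z, h1, fun σ => ?_, D.Fr_y, hC0, hξ⟩
  have ht : galF M σ t = t := galF_eq_of_int _ t tZ htZ
  exact D.map_x (galF (q * M) σ).toRingHom (galF_i1_of_fixed _ ht) (galF_w_i1_of_fixed hw _ ht)

end

/-- `CoordF q M`, `q` odd, `4 ∣ M`. -/
theorem coordF_odd {q M : ℕ} [NeZero q] [NeZero M] [Fact q.Prime] (hodd : q ≠ 2) (h4 : 4 ∣ M)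
    (hqM : ¬ q ∣ M) : CoordF q M hqM := by
  intro A _ hA w hw
  obtain ⟨hc, h0, hI⟩ := instA_odd A Fact.out hA hodd M h4 hqM _
    (isGauss_gaussSetting A M (g2_natCast_ne_zero A hqM))
  exact coordF_of_coord A hqM hw _ tZ2 (instA_coe_t2 M _) hc h0 hI

/-- `CoordF 2 M`, `9 ∣ M`. -/
theorem coordF_two {M : ℕ} [NeZero M] [Fact (Nat.Prime 2)] (h9 : 9 ∣ M) (hqM : ¬ 2 ∣ M) :
    CoordF 2 M hqM := by
  intro A _ hA w hw
  obtain ⟨hc, h0, hI⟩ := instA_two A hA M h9 hqM _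
    (isGauss_gaussSetting A M (g2_natCast_ne_zero A hqM))
  exact coordF_of_coord A hqM hw _ tZ3 (instA_coe_t3 M _) hc h0 hI

/-- for `q ∤ M₀` there is a multiple `M` of `M₀` (`4 M₀` or `9 M₀`) with `CoordF q M`. -/
theorem exists_coordF {q M₀ : ℕ} [NeZero q] [Fact q.Prime] (hM₀ : M₀ ≠ 0) (hqM₀ : ¬ q ∣ M₀) :
    ∃ (M : ℕ) (_ : NeZero M) (hqM : ¬ q ∣ M), M₀ ∣ M ∧ CoordF q M hqM := by
  have hq : q.Prime := Fact.out
  by_cases h2 : q = 2
  · subst h2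
    have h9 : ¬ 2 ∣ 9 * M₀ := by
      intro h
      rcases (Nat.Prime.dvd_mul hq).mp h with h | h
      · omega
      · exact hqM₀ h
    have : NeZero (9 * M₀) := ⟨mul_ne_zero (by norm_num) hM₀⟩
    exact ⟨9 * M₀, this, h9, Dvd.intro_left 9 rfl, coordF_two (Dvd.intro M₀ rfl) h9⟩
  · have h4 : ¬ q ∣ 4 * M₀ := by
      intro h
      rcases (Nat.Prime.dvd_mul hq).mp h with h | h
      · have : q ∣ 2 ^ 2 := by simpa using h
        exact h2 ((Nat.prime_dvd_prime_iff_eq hq Nat.prime_two).mp (hq.dvd_of_dvd_pow this))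
      · exact hqM₀ h
    have : NeZero (4 * M₀) := ⟨mul_ne_zero (by norm_num) hM₀⟩
    exact ⟨4 * M₀, this, h4, Dvd.intro_left 4 rfl, coordF_odd h2 (Dvd.intro M₀ rfl) h4⟩

end Fermat.Agent.S35
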