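import Fermat.Agent.S35.TKLMod
import Fermat.Agent.S35.CoordF

/-!
# S35, piece TKL: `σ² = q²` on the toric part  (the S34 machine for `γ = σ²`, `Q = q²`)

* `IsWq.compat` : `w_q` at level `q M₁` restricts to `w_q` at level `q M` (`M ∣ M₁`);
* `IsTor.exists_isTor1` : weak approximation: a toric `z` (two constants) becomes toric with the constant `1` for both
  Gauss valuations after multiplication by an `m`-th power;
* `toric_sq_of_coord` : the statement of TKL from `CoordF q M₁` at an auxiliary level `M ∣ M₁`.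
-/

set_option autoImplicit false
set_option linter.unusedSectionVars false

namespace Fermat.Agent.S35

open ModularCurve AlgebraicCurve HahnSeries Fermat.Agent.S24 Fermat.Agent.S28 Fermat.Agent.S18
  Fermat.Agent.GR Fermat.Agent.S34

/-! ### change of level -/

theorem IsWq.coe_compat {q M M₁ : ℕ} [NeZero q] (hq : q.Prime) (h : M ∣ M₁)
    {w : FN (q * M) ≃ₐ[Kb] FN (q * M)} {w₁ : FN (q * M₁) ≃ₐ[Kb] FN (q * M₁)}
    (hw : IsWq q M w) (hw₁ : IsWq q M₁ w₁) (f : FN (q * M)) :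
    ((w₁ (inclFN (mul_dvd_mul_left q h) f) : FN (q * M₁)) : LaurentSeries Kb) =
      ((w f : FN (q * M)) : LaurentSeries Kb) := by
  induction f using FN_induction with
  | gen d hd =>
    by_cases hqd : q ∣ d
    · obtain ⟨d₁, rfl⟩ := hqd
      have hd₁ : d₁ ∣ M := Nat.dvd_of_mul_dvd_mul_left hq.pos hd
      have i1 : NeZero d₁ := ⟨fun h0 => NeZero.ne (q * d₁) (by rw [h0, mul_zero])⟩
      -- `j(t^(q d₁)) = w (j(t^d₁))` at both levels
      have a1 : w ⟨jd d₁, jd_mem (hd₁.trans (Dvd.intro_left q rfl))⟩ = ⟨jd (q * d₁), jd_mem hd⟩ := by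
        apply Subtype.ext
        rw [hw.incl _ (jd_mem hd₁)]
        exact qExpand_jd q d₁
      have a2 : w₁ ⟨jd d₁, jd_mem ((hd₁.trans h).trans (Dvd.intro_left q rfl))⟩ =
          inclFN (mul_dvd_mul_left q h) ⟨jd (q * d₁), jd_mem hd⟩ := by
        apply Subtype.ext
        rw [hw₁.incl _ (jd_mem (hd₁.trans h)), coe_inclFN]
        exact qExpand_jd q d₁
      rw [← a2, hw₁.invol, ← a1, hw.invol]
    · have hd' : d ∣ M :=
        (Nat.Coprime.dvd_of_dvd_mul_left ((Nat.Prime.coprime_iff_not_dvd hq).mpr hqd).symm hd)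
      rw [hw₁.incl _ (by rw [coe_inclFN]; exact jd_mem (hd'.trans h)), coe_inclFN,
        hw.incl _ (jd_mem hd')]
  | alg c =>
    rw [AlgHom.commutes, AlgEquiv.commutes, AlgEquiv.commutes, coe_algebraMap_FN, coe_algebraMap_FN]
  | add x y hx hy =>
    rw [map_add, map_add, map_add, AddMemClass.coe_add, AddMemClass.coe_add, hx, hy]
  | inv x hx =>
    rw [map_inv₀, map_inv₀, map_inv₀, IntermediateField.coe_inv, IntermediateField.coe_inv, hx]
  | mul x y hx hy =>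
    rw [map_mul, map_mul, map_mul, MulMemClass.coe_mul, MulMemClass.coe_mul, hx, hy]

theorem IsTor.incl {A : ValuationSubring Kb} {q M M₁ m : ℕ} [NeZero q] [NeZero (q * M₁)]
    (hq : q.Prime) (h : M ∣ M₁)
    {w : FN (q * M) ≃ₐ[Kb] FN (q * M)} {w₁ : FN (q * M₁) ≃ₐ[Kb] FN (q * M₁)}
    (hw : IsWq q M w) (hw₁ : IsWq q M₁ w₁) {z : FN (q * M)} (hz : IsTor A q M m w z) :
    IsTor A q M₁ m w₁ (inclFN (mul_dvd_mul_left q h) z) := by
  obtain ⟨hz0, hord, ⟨c, r, hc, hr, h1⟩, ⟨c', r', hc', hr', h2⟩⟩ := hz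
  refine ⟨by rw [Ne, map_eq_zero]; exact hz0, dvdOrd_inclFN _ hord,
    ⟨c, r, hc, dw_fullC_le _ h hr, by rw [coe_inclFN]; exact h1⟩,
    ⟨c', r', hc', dw_fullC_le _ h hr', by rw [hw.coe_compat hq h hw₁]; exact h2⟩⟩

/-! ### weak approximation -/

section Approx

variable (A : ValuationSubring Kb) {q M : ℕ} [NeZero q] [NeZero M] [Fact q.Prime]
  [CharP (kA A) q] {w : FN (q * M) ≃ₐ[Kb] FN (q * M)}

/-- the powers of an element of the maximal ideal of the Gauss valuation become arbitrarily small. -/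
theorem small_pow (hA : A.LiesOverPrime q) (hqM : ¬ q ∣ M) (hw : WqSpec q M w) {e : FN (q * M)}
    (he0 : e ≠ 0) (hm : gsMem A (e : LaurentSeries Kb)) (hg : gr A (e : LaurentSeries Kb) = 0)
    (a : Kb) : ∃ n₀ : ℕ, ∀ n, n₀ ≤ n → gsMem A (C a * (e : LaurentSeries Kb) ^ n) ∧
      gr A (C a * (e : LaurentSeries Kb) ^ n) = 0 := by
  have hq : q.Prime := Fact.out
  by_cases ha : a = 0
  · subst ha
    refine ⟨0, fun n _ => ?_⟩
    rw [map_zero, zero_mul]
    exact ⟨gsMem_zero, gr_zero⟩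
  obtain ⟨c, hc, m1, h1, -⟩ := g2_normalForm A hqM hw e he0
  have hci : c⁻¹ ∈ A := g2_inv_mem hm h1
  have hcA : c ∉ A := by
    intro hcA
    apply h1
    rw [gr_mul (gsMem_C hcA) hm, hg, mul_zero]
  have hres : IsLocalRing.residue A ⟨c⁻¹, hci⟩ = 0 :=
    (valSubring_map_eq_zero_iff A (IsLocalRing.residue A) IsLocalRing.residue_surjective hci).mpr
      (Or.inr (by rwa [inv_inv]))
  obtain ⟨n₁, hn₁⟩ := arch_of_liesOver A hq hA c⁻¹ hci (by rwa [inv_inv]) a⁻¹ (inv_ne_zero ha)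
  rw [inv_inv] at hn₁
  refine ⟨n₁ + 1, fun n hn => ?_⟩
  obtain ⟨j, rfl⟩ : ∃ j, n = n₁ + 1 + j := ⟨n - (n₁ + 1), by omega⟩
  have hb : c⁻¹ ^ n₁ * a * c⁻¹ ^ j ∈ A := mul_mem hn₁ (pow_mem hci j)
  have e1 : C a * (e : LaurentSeries Kb) ^ (n₁ + 1 + j) =
      C c⁻¹ * (C (c⁻¹ ^ n₁ * a * c⁻¹ ^ j) * (C c * (e : LaurentSeries Kb)) ^ (n₁ + 1 + j)) := by
    rw [mul_pow, ← map_pow, ← mul_assoc, ← mul_assoc, ← map_mul, ← map_mul]
    congr 2
    rw [inv_pow, inv_pow, _root_.pow_add, _root_.pow_add, pow_one]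
    field_simp
  have m2 := (gsMem_C hb).mul (m1.pow (n₁ + 1 + j))
  rw [e1]
  exact ⟨(gsMem_C hci).mul m2, by rw [gr_mul (gsMem_C hci) m2, gr_C hci, hres, map_zero, zero_mul]⟩

/-- weak approximation for constants. -/
theorem exists_approx (hA : A.LiesOverPrime q) (hqM : ¬ q ∣ M) (hw : WqSpec q M w) {a b : Kb}
    (ha : a ≠ 0) (hb : b ≠ 0) : ∃ η : FN (q * M), η ≠ 0 ∧
      Red A (C a⁻¹ * (η : LaurentSeries Kb)) 1 ∧
      Red A (C b⁻¹ * ((w η : FN (q * M)) : LaurentSeries Kb)) 1 := by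
  obtain ⟨e, he⟩ := g2_exists_idem A hqM hw
  have g1 : gr A ((e : FN (q * M)) : LaurentSeries Kb) = 0 := by
    have := congrArg (fun t : _ × _ => ((t.1 : modularFunctionFieldFullC (kA A) M) :
      LaurentSeries (kA A))) he
    exact this
  have g2 : gr A ((w (e : FN (q * M)) : FN (q * M)) : LaurentSeries Kb) = 1 := by
    have := congrArg (fun t : _ × _ => ((t.2 : modularFunctionFieldFullC (kA A) M) :
      LaurentSeries (kA A))) he
    exact this
  have me1 : gsMem A ((e : FN (q * M)) : LaurentSeries Kb) := e.2.1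
  have me2 : gsMem A ((w (e : FN (q * M)) : FN (q * M)) : LaurentSeries Kb) := e.2.2
  set e₀ : FN (q * M) := (e : FN (q * M)) with he₀
  set e' : FN (q * M) := 1 - e₀ with he'
  have c1 : ((e' : FN (q * M)) : LaurentSeries Kb) = 1 + -(e₀ : LaurentSeries Kb) := by
    rw [he', sub_eq_add_neg]; rfl
  have c2 : ((w e' : FN (q * M)) : LaurentSeries Kb) =
      1 + -((w e₀ : FN (q * M)) : LaurentSeries Kb) := by
    rw [he', map_sub, map_one, sub_eq_add_neg]; rfl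
  have grneg : ∀ {f : LaurentSeries Kb}, gsMem A f → gr A (-f) = - gr A f := by
    intro f hf
    have h0 := gr_add hf hf.neg
    rw [add_neg_cancel, gr_zero] at h0
    exact (neg_eq_of_add_eq_zero_right h0.symm).symm
  have me1' : gsMem A ((e' : FN (q * M)) : LaurentSeries Kb) := by
    rw [c1]; exact gsMem_one.add me1.neg
  have me2' : gsMem A ((w e' : FN (q * M)) : LaurentSeries Kb) := by
    rw [c2]; exact gsMem_one.add me2.neg
  have g1' : gr A ((e' : FN (q * M)) : LaurentSeries Kb) = 1 := by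
    rw [c1, gr_add gsMem_one me1.neg, gr_one, grneg me1, g1, neg_zero, add_zero]
  have g2' : gr A ((w e' : FN (q * M)) : LaurentSeries Kb) = 0 := by
    rw [c2, gr_add gsMem_one me2.neg, gr_one, grneg me2, g2, add_neg_cancel]
  have he00 : e₀ ≠ 0 := by
    intro h0
    rw [h0, map_zero] at g2
    exact zero_ne_one (gr_zero.symm.trans g2)
  have he0' : e' ≠ 0 := by
    intro h0
    rw [h0] at g1'
    exact zero_ne_one (gr_zero.symm.trans g1')
  have hwe0' : w e' ≠ 0 := by rwa [Ne, map_eq_zero_iff w w.injective]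
  obtain ⟨n₁, hn₁⟩ := small_pow A hA hqM hw he00 me1 g1 (a⁻¹ * b)
  obtain ⟨n₂, hn₂⟩ := small_pow A hA hqM hw hwe0' me2' g2' (b⁻¹ * a)
  set n := max n₁ n₂ with hn
  obtain ⟨s1, s2⟩ := hn₁ n (le_max_left _ _)
  obtain ⟨t1, t2⟩ := hn₂ n (le_max_right _ _)
  set η : FN (q * M) := algebraMap Kb _ a * e' ^ n + algebraMap Kb _ b * e₀ ^ n with hη
  have k1 : C a⁻¹ * (η : LaurentSeries Kb) =
      (e' : LaurentSeries Kb) ^ n + C (a⁻¹ * b) * (e₀ : LaurentSeries Kb) ^ n := by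
    have : (η : LaurentSeries Kb) = C a * (e' : LaurentSeries Kb) ^ n +
        C b * (e₀ : LaurentSeries Kb) ^ n := by
      rw [hη, AddMemClass.coe_add, MulMemClass.coe_mul, MulMemClass.coe_mul, gs_coe_algebraMap,
        gs_coe_algebraMap]
      rfl
    rw [this, mul_add, ← mul_assoc, ← mul_assoc, g2_C_mul_C_inv ha, one_mul, ← map_mul]
  have k2 : C b⁻¹ * ((w η : FN (q * M)) : LaurentSeries Kb) =
      C (b⁻¹ * a) * ((w e' : FN (q * M)) : LaurentSeries Kb) ^ n +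
        ((w e₀ : FN (q * M)) : LaurentSeries Kb) ^ n := by
    have : ((w η : FN (q * M)) : LaurentSeries Kb) =
        C a * ((w e' : FN (q * M)) : LaurentSeries Kb) ^ n +
        C b * ((w e₀ : FN (q * M)) : LaurentSeries Kb) ^ n := by
      rw [hη, map_add, map_mul, map_mul, map_pow, map_pow, AlgEquiv.commutes, AlgEquiv.commutes,
        AddMemClass.coe_add, MulMemClass.coe_mul, MulMemClass.coe_mul, gs_coe_algebraMap,
        gs_coe_algebraMap]
      rfl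
    rw [this, mul_add, ← mul_assoc, ← mul_assoc, g2_C_mul_C_inv hb, one_mul, ← map_mul]
  have r1 : Red A (C a⁻¹ * (η : LaurentSeries Kb)) 1 := by
    rw [k1]
    refine red_iff.mpr ⟨(me1'.pow n).add s1, ?_, one_ne_zero⟩
    rw [gr_add (me1'.pow n) s1, gr_pow me1', g1', one_pow, s2, add_zero]
  have r2 : Red A (C b⁻¹ * ((w η : FN (q * M)) : LaurentSeries Kb)) 1 := by
    rw [k2]
    refine red_iff.mpr ⟨t1.add (me2.pow n), ?_, one_ne_zero⟩
    rw [gr_add t1 (me2.pow n), gr_pow me2, g2, one_pow, t2, zero_add]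
  refine ⟨η, ?_, r1, r2⟩
  intro h0
  apply r1.ne_zero
  rw [h0]
  exact mul_zero _

/-- a toric element is toric with the constant `1` after multiplication by an `m`-th power. -/
theorem IsTor.exists_isTor1 (hA : A.LiesOverPrime q) (hqM : ¬ q ∣ M) (hw : WqSpec q M w) {m : ℕ}
    (hm : 0 < m) {z : FN (q * M)} (hz : IsTor A q M m w z) :
    ∃ η : FN (q * M), η ≠ 0 ∧ IsTor1 A q M m w (z * η ^ m) := by
  obtain ⟨hz0, hord, ⟨c, r, hc, hr, h1⟩, ⟨c', r', hc', hr', h2⟩⟩ := hz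
  obtain ⟨d, hd⟩ := IsAlgClosed.exists_pow_nat_eq c hm
  obtain ⟨d', hd'⟩ := IsAlgClosed.exists_pow_nat_eq c' hm
  have hd0 : d ≠ 0 := by
    rintro rfl
    rw [zero_pow hm.ne'] at hd
    exact hc hd.symm
  have hd0' : d' ≠ 0 := by
    rintro rfl
    rw [zero_pow hm.ne'] at hd'
    exact hc' hd'.symm
  obtain ⟨η, hη0, a1, a2⟩ := exists_approx A hA hqM hw hd0 hd0'
  refine ⟨η, hη0, hord.mul (dvdOrd_pow_self m η), 1, r, r', one_ne_zero, hr, hr', ?_, ?_⟩
  · have h3 := h1.mul (a1.pow m)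
    rw [one_pow, mul_one] at h3
    have e : C c * (z : LaurentSeries Kb) * (C d⁻¹ * (η : LaurentSeries Kb)) ^ m =
        C 1 * ((z * η ^ m : FN (q * M)) : LaurentSeries Kb) := by
      rw [mul_pow, ← map_pow, inv_pow, hd, map_one, one_mul, MulMemClass.coe_mul,
        SubmonoidClass.coe_pow]
      have := g2_C_mul_C_inv hc
      linear_combination ((z : LaurentSeries Kb) * (η : LaurentSeries Kb) ^ m) * this
    rwa [e] at h3
  · have h3 := h2.mul (a2.pow m)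
    rw [one_pow, mul_one] at h3
    have e : C c' * ((w z : FN (q * M)) : LaurentSeries Kb) *
        (C d'⁻¹ * ((w η : FN (q * M)) : LaurentSeries Kb)) ^ m =
        C 1 * ((w (z * η ^ m) : FN (q * M)) : LaurentSeries Kb) := by
      rw [mul_pow, ← map_pow, inv_pow, hd', map_one, one_mul, map_mul w, map_pow w,
        MulMemClass.coe_mul, SubmonoidClass.coe_pow]
      have := g2_C_mul_C_inv hc'
      linear_combination (((w z : FN (q * M)) : LaurentSeries Kb) *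
        ((w η : FN (q * M)) : LaurentSeries Kb) ^ m) * this
    rwa [e] at h3

end Approx

/-- `σ² = q²` on toric classes (two constants) at a level with a good coordinate. -/
theorem TorFrob.of_isTor {q M : ℕ} [NeZero q] [NeZero M] (hq : q.Prime) (hqM : ¬ q ∣ M)
    (H : TorFrob q M) {A : ValuationSubring Kb} (hA : A.LiesOverPrime q)
    {w : FN (q * M) ≃ₐ[Kb] FN (q * M)} (hw : IsWq q M w) {m : ℕ} (hm : ¬ q ∣ m) {σ : GQ}
    (hσ : A.IsFrobeniusAt σ q) {z : FN (q * M)} (hz : IsTor A q M m w z) :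
    ∃ h : FN (q * M), galF (q * M) σ (galF (q * M) σ z) = z ^ (q ^ 2) * h ^ m := by
  have : Fact q.Prime := ⟨hq⟩
  have := charP_kA hq hA
  have hm0 : 0 < m := Nat.pos_of_ne_zero (fun h0 => hm (h0 ▸ dvd_zero q))
  obtain ⟨η, hη0, h1⟩ := hz.exists_isTor1 A hA hqM hw.spec hm0
  obtain ⟨h, hh⟩ := H A hA w hw m hm σ hσ _ h1
  have hne : ∀ {t : FN (q * M)}, t ≠ 0 → galF (q * M) σ t ≠ 0 := fun {t} ht => by
    rwa [Ne, map_eq_zero_iff _ (galF (q * M) σ).injective]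
  have h3 := hne (hne hη0)
  refine ⟨h * η ^ (q ^ 2) / galF (q * M) σ (galF (q * M) σ η), ?_⟩
  rw [map_mul, map_mul, map_pow, map_pow] at hh
  rw [div_pow, mul_pow]
  have h4 : galF (q * M) σ (galF (q * M) σ z) =
      (z * η ^ m) ^ (q ^ 2) * h ^ m / galF (q * M) σ (galF (q * M) σ η) ^ m := by
    rw [← hh]; field_simp
  rw [h4, mul_pow, ← pow_mul, ← pow_mul, mul_comm m]
  ring

/-- **TKL**, from a good coordinate at an auxiliary level `q M₁`, `M ∣ M₁`. -/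
theorem toric_sq_of_coord {q M M₁ : ℕ} [NeZero q] [NeZero M] [NeZero M₁] [NeZero (q * M)]
    [Fact q.Prime] (hMM₁ : M ∣ M₁) (hqM₁ : ¬ q ∣ M₁) (H : CoordF q M₁ hqM₁)
    {w : FN (q * M) ≃ₐ[Kb] FN (q * M)} (hw : IsWq q M w) :
    ∃ d : ℕ, 0 < d ∧ ∀ (A : ValuationSubring Kb), A.LiesOverPrime q → ∀ σ : GQ,
      A.IsFrobeniusAt σ q → ∀ m : ℕ, ¬ q ∣ m → ∀ z : FN (q * M), IsTor A q M m w z →
        ∃ x : FN (q * M),
          (galF (q * M) σ (galF (q * M) σ z)) ^ d = (z ^ (q ^ 2)) ^ d * x ^ m := by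
  have hq : q.Prime := Fact.out
  have : NeZero (q * M₁) := ⟨mul_ne_zero (NeZero.ne q) (NeZero.ne M₁)⟩
  obtain ⟨w₁, hw₁⟩ := exists_isWq (q := q) (M := M₁) hq hqM₁
  have hdvd : q * M ∣ q * M₁ := mul_dvd_mul_left q hMM₁
  obtain ⟨d, hd, hn⟩ := exists_pow_eq_of_inclFN_eq_pow hdvd
  refine ⟨d, hd, fun A hA σ hσ m hm z hz => ?_⟩
  obtain ⟨h, hh⟩ := (torFrob_of_coord H).of_isTor hq hqM₁ hA hw₁ hm hσ (hz.incl hq hMM₁ hw hw₁)
  have hz0 : z ≠ 0 := hz.1
  obtain ⟨x, hx⟩ := hn m (galF (q * M) σ (galF (q * M) σ z) * (z ^ (q ^ 2))⁻¹) h (by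
    rw [galF_inclFN, galF_inclFN] at hh
    have h2 : inclFN hdvd z ≠ 0 := by rw [Ne, map_eq_zero]; exact hz0
    rw [map_mul, hh, map_inv₀, map_pow]
    field_simp)
  refine ⟨x, ?_⟩
  rw [← hx, mul_pow _ ((z ^ (q ^ 2))⁻¹), inv_pow]
  field_simp

theorem IsTor1.isTor {A : ValuationSubring Kb} {q M m : ℕ} {w : FN (q * M) ≃ₐ[Kb] FN (q * M)}
    {z : FN (q * M)} (hz : IsTor1 A q M m w z) : IsTor A q M m w z := by
  obtain ⟨hord, c, r, r', hc, hr, hr', h1, h2⟩ := hz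
  refine ⟨?_, hord, ⟨c, r, hc, hr, h1⟩, ⟨c, r', hc, hr', h2⟩⟩
  rintro rfl
  apply h1.ne_zero
  exact mul_zero _

/-- **TKL** for `IsTor` (two constants). -/
theorem toric_sq' {q M : ℕ} [NeZero q] [NeZero M] [NeZero (q * M)] (hq : q.Prime) (hqM : ¬ q ∣ M)
    {w : FN (q * M) ≃ₐ[Kb] FN (q * M)} (hw : IsWq q M w) :
    ∃ d : ℕ, 0 < d ∧ ∀ (A : ValuationSubring Kb), A.LiesOverPrime q → ∀ σ : GQ,
      A.IsFrobeniusAt σ q → ∀ m : ℕ, ¬ q ∣ m → ∀ z : FN (q * M), IsTor A q M m w z →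
        ∃ x : FN (q * M),
          (galF (q * M) σ (galF (q * M) σ z)) ^ d = (z ^ (q ^ 2)) ^ d * x ^ m := by
  have : Fact q.Prime := ⟨hq⟩
  obtain ⟨M₁, _, hqM₁, hMM₁, H⟩ := exists_coordF (q := q) (NeZero.ne M) hqM
  exact toric_sq_of_coord hMM₁ hqM₁ H hw

/-- **TKL.** -/
theorem toric_sq {q M : ℕ} [NeZero q] [NeZero M] [NeZero (q * M)] (hq : q.Prime) (hqM : ¬ q ∣ M)
    {w : FN (q * M) ≃ₐ[Kb] FN (q * M)} (hw : IsWq q M w) :
    ∃ d : ℕ, 0 < d ∧ ∀ (A : ValuationSubring Kb), A.LiesOverPrime q → ∀ σ : GQ,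
      A.IsFrobeniusAt σ q → ∀ m : ℕ, ¬ q ∣ m → ∀ z : FN (q * M), IsTor1 A q M m w z →
        ∃ x : FN (q * M),
          (galF (q * M) σ (galF (q * M) σ z)) ^ d = (z ^ (q ^ 2)) ^ d * x ^ m := by
  obtain ⟨d, hd, H⟩ := toric_sq' hq hqM hw
  exact ⟨d, hd, fun A hA σ hσ m hm z hz => H A hA σ hσ m hm z hz.isTor⟩

end Fermat.Agent.S35
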