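import Fermat.Agent.GR.Lim
import Fermat.Agent.GR.Pseudo
import Fermat.Agent.S30

/-!
# S35, piece CONS: the consumer

* `exists_traceDataW` : copy of `GR.exists_traceData` (helper4) with the eigenvector `h` as an INPUT and one more
  output: every relation `c₄ g⁴ + c₂ g² + c₀ = 0` which holds on the Galois orbit of `ιM n h` at all levels `n`
  holds on `D.X`.
* `t_eq_of_rel` : pure algebra, `s² - t s + q = 0` and `d (s² - q²)(s² - 1) = 0` on a nonzero torsion free module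
  `⟹ t = q + 1 ∨ t = -(q + 1)`.
* `consumer` : the exact conclusion of S35 for a character `χ` of the Hecke algebra, from a tower and the hypothesis
  `hkey` ("`d (σ² - q²)(σ² - 1) = 0` on the orbit of `ιM n h` for every `χ`-eigenvector `h`").
-/

set_option autoImplicit false

namespace Fermat.Agent.S35

open Fermat.Agent.GR TensorProduct IsLocalRing Polynomial

theorem exists_traceDataW {p N : ℕ} [NeZero N] [Fact p.Prime] (𝔗 : Tower p N) (S : Finset ℕ)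
    (hpS : p ∈ S) (hNS : ∀ q : ℕ, q.Prime → q ∣ N → q ∈ S)
    {𝒪 : Type} [CommRing 𝒪] [IsDomain 𝒪] [IsDiscreteValuationRing 𝒪]
    [IsAdicComplete (maximalIdeal 𝒪) 𝒪] [CharZero 𝒪] (hp : (p : 𝒪) ∈ maximalIdeal 𝒪)
    (χ : CuspForm.heckeAlgebra N 2 (↑S : Set ℕ) →+* 𝒪) (δ : GQ →* 𝒪ˣ) (hδ : IsCyclo p δ)
    (h : 𝒪 ⊗[ℤ] 𝔗.H) (hh0 : h ≠ 0)
    (hheig : ∀ (ℓ : ℕ) (hℓ : ℓ.Prime) (hℓN : ¬ ℓ ∣ N) (hℓS : ℓ ∉ (↑S : Set ℕ)),
      (𝔗.actH (CuspForm.heckeAlgebra.T hℓ hℓN (Set.notMem_empty ℓ))).baseChange 𝒪 h =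
        χ (CuspForm.heckeAlgebra.T hℓ hℓN hℓS) • h) :
    ∃ D : TraceData p N S 𝒪 χ δ, ∀ (g : GQ) (c₄ c₂ c₀ : 𝒪),
      (∀ (n : ℕ) (g' : GQ),
        c₄ • 𝔗.actM 𝒪 n g (𝔗.actM 𝒪 n g (𝔗.actM 𝒪 n g (𝔗.actM 𝒪 n g
            (𝔗.actM 𝒪 n g' (𝔗.ιM 𝒪 n h)))))
          + c₂ • 𝔗.actM 𝒪 n g (𝔗.actM 𝒪 n g (𝔗.actM 𝒪 n g' (𝔗.ιM 𝒪 n h)))
          + c₀ • 𝔗.actM 𝒪 n g' (𝔗.ιM 𝒪 n h) = 0) →
      ∀ x : D.X, c₄ • D.r g (D.r g (D.r g (D.r g x))) + c₂ • D.r g (D.r g x) + c₀ • x = 0 := by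
  classical
  have hpp : p.Prime := Fact.out
  let W : ∀ n, 𝔗.M 𝒪 n := fun n => 𝔗.ιM 𝒪 n h
  have hW : W ∈ 𝔗.Lim 𝒪 := fun n => 𝔗.trM_ιM n h
  have hsep : ∀ a : 𝒪, (∀ n : ℕ, a ∈ Ideal.span {(p : 𝒪) ^ n}) → a = 0 := by
    intro a ha
    have hH : IsHausdorff (maximalIdeal 𝒪) 𝒪 := inferInstance
    apply hH.haus a
    intro n
    rw [SModEq.zero, smul_eq_mul, Ideal.mul_top]
    exact (Ideal.span_singleton_le_iff_mem _).2 (Ideal.pow_mem_pow hp n) (ha n)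
  have hW0 : W ≠ 0 := by
    obtain ⟨n, hn⟩ := 𝔗.exists_ιM_ne_zero hsep h hh0
    intro h0
    exact hn (congrFun h0 n)
  have hWeig : ∀ (n ℓ : ℕ) (hℓ : ℓ.Prime) (hℓN : ¬ ℓ ∣ N) (hℓS : ℓ ∉ (↑S : Set ℕ)),
      𝔗.TM 𝒪 n ℓ (W n) = χ (CuspForm.heckeAlgebra.T hℓ hℓN hℓS) • W n := by
    intro n ℓ hℓ hℓN hℓS
    have hℓp : ℓ ≠ p := fun h => hℓS (by simpa [h] using hpS)
    show 𝔗.TM 𝒪 n ℓ (𝔗.ιM 𝒪 n h) = _
    rw [← 𝔗.ιM_T n ℓ hℓ hℓN hℓp h, hheig ℓ hℓ hℓN hℓS, map_smul]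
  have hex : ∀ (g : GQ) (n : ℕ), ∃ t, 𝔗.Sol δ W n g t := fun g n =>
    𝔗.exists_level_trace S hpS hNS χ δ hδ n (W n) (hWeig n) g
  choose t ht using fun g => Tower.exists_global_sol hp hW hW0 g (hex g)
  let X : Submodule 𝒪 (∀ n, 𝔗.M 𝒪 n) := Submodule.span 𝒪 (Set.range fun g : GQ => 𝔗.actP g W)
  have hXLim : X ≤ 𝔗.Lim 𝒪 := Submodule.span_le.2 (by
    rintro _ ⟨g, rfl⟩
    exact 𝔗.actP_mem_Lim g hW)
  have hXst : ∀ g : GQ, ∀ x ∈ X, 𝔗.actP g x ∈ X := by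
    intro g x hx
    induction hx using Submodule.span_induction with
    | mem x hx =>
      obtain ⟨g', rfl⟩ := hx
      rw [← Tower.actP_mul]
      exact Submodule.subset_span ⟨_, rfl⟩
    | zero => rw [map_zero]; exact zero_mem _
    | add x y _ _ hx hy => rw [map_add]; exact add_mem hx hy
    | smul a x _ hx => rw [map_smul]; exact Submodule.smul_mem _ _ hx
  have hrel : ∀ g : GQ, ∀ x ∈ X,
      𝔗.actP g (𝔗.actP g x) - t g • 𝔗.actP g x + (δ g : 𝒪) • x = 0 := by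
    intro g x hx
    induction hx using Submodule.span_induction with
    | mem x hx =>
      obtain ⟨g', rfl⟩ := hx
      funext n
      exact ht g n g'
    | zero => simp
    | add x y _ _ hx hy =>
      have e : 𝔗.actP g (𝔗.actP g (x + y)) - t g • 𝔗.actP g (x + y) + (δ g : 𝒪) • (x + y) =
          (𝔗.actP g (𝔗.actP g x) - t g • 𝔗.actP g x + (δ g : 𝒪) • x) +
          (𝔗.actP g (𝔗.actP g y) - t g • 𝔗.actP g y + (δ g : 𝒪) • y) := by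
        simp only [map_add, smul_add]; abel
      rw [e, hx, hy, add_zero]
    | smul a x _ hx =>
      have e : 𝔗.actP g (𝔗.actP g (a • x)) - t g • 𝔗.actP g (a • x) + (δ g : 𝒪) • (a • x) =
          a • (𝔗.actP g (𝔗.actP g x) - t g • 𝔗.actP g x + (δ g : 𝒪) • x) := by
        simp only [map_smul, smul_add, smul_sub, smul_comm a]
      rw [e, hx, smul_zero]
  let r : GQ →* Module.End 𝒪 X :=
    { toFun := fun g => (𝔗.actP g).restrict (hXst g)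
      map_one' := by
        ext x : 2
        exact 𝔗.actP_one (x : ∀ n, 𝔗.M 𝒪 n)
      map_mul' := by
        intro g g'
        ext x : 2
        exact 𝔗.actP_mul g g' (x : ∀ n, 𝔗.M 𝒪 n) }
  have hr_apply : ∀ (g : GQ) (x : X), ((r g x : X) : ∀ n, 𝔗.M 𝒪 n) = 𝔗.actP g x := fun _ _ => rfl
  refine ⟨{ X := X, nontriv := ?_, tf := ?_, r := r, t := t, rel := ?_, frob := ?_, unram := ?_,
            cont := ?_ }, ?_⟩
  rotate_right
  · intro g c₄ c₂ c₀ hc x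
    apply Subtype.ext
    have key : ∀ x ∈ X, c₄ • 𝔗.actP g (𝔗.actP g (𝔗.actP g (𝔗.actP g x)))
        + c₂ • 𝔗.actP g (𝔗.actP g x) + c₀ • x = 0 := by
      intro x hx
      induction hx using Submodule.span_induction with
      | mem x hx =>
        obtain ⟨g', rfl⟩ := hx
        funext n
        exact hc n g'
      | zero => simp
      | add x y _ _ hx hy =>
        have e : c₄ • 𝔗.actP g (𝔗.actP g (𝔗.actP g (𝔗.actP g (x + y))))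
            + c₂ • 𝔗.actP g (𝔗.actP g (x + y)) + c₀ • (x + y) =
            (c₄ • 𝔗.actP g (𝔗.actP g (𝔗.actP g (𝔗.actP g x)))
              + c₂ • 𝔗.actP g (𝔗.actP g x) + c₀ • x) +
            (c₄ • 𝔗.actP g (𝔗.actP g (𝔗.actP g (𝔗.actP g y)))
              + c₂ • 𝔗.actP g (𝔗.actP g y) + c₀ • y) := by
          simp only [map_add, smul_add]; abel
        rw [e, hx, hy, add_zero]
      | smul a x _ hx =>
        have e : c₄ • 𝔗.actP g (𝔗.actP g (𝔗.actP g (𝔗.actP g (a • x))))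
            + c₂ • 𝔗.actP g (𝔗.actP g (a • x)) + c₀ • (a • x) =
            a • (c₄ • 𝔗.actP g (𝔗.actP g (𝔗.actP g (𝔗.actP g x)))
              + c₂ • 𝔗.actP g (𝔗.actP g x) + c₀ • x) := by
          simp only [map_smul, smul_add, smul_comm a]
        rw [e, hx, smul_zero]
    exact key x x.2
  · refine ⟨⟨⟨W, ?_⟩, 0, ?_⟩⟩
    · have h1 : 𝔗.actP 1 W ∈ X := Submodule.subset_span ⟨1, rfl⟩
      rwa [Tower.actP_one] at h1
    · intro h0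
      exact hW0 (congrArg Subtype.val h0)
  · intro a x hax
    by_cases ha : a = 0
    · exact Or.inl ha
    · right
      apply Subtype.ext
      exact Tower.Lim_tf hp (hXLim x.2) ha (congrArg Subtype.val hax)
  · intro g x
    apply Subtype.ext
    exact hrel g x x.2
  · intro ℓ hℓ hℓN hℓS P hP σ hσ
    have hℓp : ℓ ≠ p := fun h => hℓS (by simpa [h] using hpS)
    apply Tower.sol_unique hp hW hW0 (ht σ)
    intro n g'
    have h1 := 𝔗.es_M (𝒪 := 𝒪) n ℓ hℓ hℓN hℓp P hP σ hσ (𝔗.actM 𝒪 n g' (W n))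
    rw [Tower.TM_actM, Tower.TM_actM, hWeig n ℓ hℓ hℓN hℓS, map_smul, map_smul] at h1
    rw [hδ.frob hp hℓ hℓp hP hσ]
    exact h1
  · intro q hq hqN hqp P hP σ hσ
    ext x : 2
    funext n
    exact 𝔗.unram_M n q hq hqN hqp P hP σ hσ _
  · intro n
    obtain ⟨n', hn'⟩ := Tower.exists_ann_le hp hW hW0 n
    obtain ⟨L, hfd, hst, hroots, hfix⟩ := 𝔗.exists_field_fixing' hpp.pos n' (W n')
    refine ⟨L, hfd, fun σ hσ g h' => ?_⟩
    apply hn'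
    refine Tower.Sol.ann (δ := δ) (g := g * h') ?_ (ht (g * h') n')
    intro g'
    have h1 := ht (g * σ * h') n' g'
    have hact : ∀ g'' : GQ, 𝔗.actM 𝒪 n' (g * σ * h') (𝔗.actM 𝒪 n' g'' (W n')) =
        𝔗.actM 𝒪 n' (g * h') (𝔗.actM 𝒪 n' g'' (W n')) := by
      intro g''
      rw [Tower.actM_mul, Tower.actM_mul, ← Tower.actM_mul _ _ h' g'', hfix σ hσ (h' * g''),
        Tower.actM_mul _ _ g h', Tower.actM_mul _ _ h' g'']
    have hδσ : ((δ σ : 𝒪) - 1) ∈ Ideal.span {(p : 𝒪) ^ n'} := by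
      have := hδ n' σ 1 (fun ζ hζ => by rw [pow_one]; exact hσ ζ (hroots ζ hζ))
      simpa using this
    have hδ2 : (δ (g * σ * h') : 𝒪) - (δ (g * h') : 𝒪) ∈ Ideal.span {(p : 𝒪) ^ n'} := by
      have e : (δ (g * σ * h') : 𝒪) - (δ (g * h') : 𝒪) =
          (δ g : 𝒪) * (δ h' : 𝒪) * ((δ σ : 𝒪) - 1) := by
        simp only [map_mul, Units.val_mul]; ring
      rw [e]
      exact Ideal.mul_mem_left _ _ hδσ
    have h2 := 𝔗.smul_M_eq_zero_of_mem n' hδ2 (𝔗.actM 𝒪 n' g' (W n'))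
    rw [sub_smul, sub_eq_zero] at h2
    have h3 : 𝔗.actM 𝒪 n' (g * σ * h') (𝔗.actM 𝒪 n' (g * h') (𝔗.actM 𝒪 n' g' (W n'))) =
        𝔗.actM 𝒪 n' (g * h') (𝔗.actM 𝒪 n' (g * h') (𝔗.actM 𝒪 n' g' (W n'))) := by
      have := hact (g * h' * g')
      rwa [Tower.actM_mul _ _ (g * h') g'] at this
    rw [hact g', h3, h2] at h1
    exact h1


theorem t_eq_of_rel {𝒪 X : Type} [CommRing 𝒪] [IsDomain 𝒪] [CharZero 𝒪] [AddCommGroup X]
    [Module 𝒪 X] [Nontrivial X] (htf : ∀ (a : 𝒪) (x : X), a • x = 0 → a = 0 ∨ x = 0)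
    (s : Module.End 𝒪 X) (t : 𝒪) (q : ℕ) (hq : q ≠ 0)
    (hrel : ∀ x : X, s (s x) - t • s x + (q : 𝒪) • x = 0)
    (d : 𝒪) (hd : d ≠ 0)
    (hkey : ∀ x : X, d • s (s (s (s x))) + (-(d * ((q : 𝒪) ^ 2 + 1))) • s (s x)
      + (d * (q : 𝒪) ^ 2) • x = 0) :
    t = (q : 𝒪) + 1 ∨ t = -((q : 𝒪) + 1) := by
  have hq0 : (q : 𝒪) ≠ 0 := Nat.cast_ne_zero.2 hq
  have h4 : ∀ x : X, s (s (s (s x))) - ((q : 𝒪) ^ 2 + 1) • s (s x) + (q : 𝒪) ^ 2 • x = 0 := by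
    intro x
    have h1 : d • (s (s (s (s x))) - ((q : 𝒪) ^ 2 + 1) • s (s x) + (q : 𝒪) ^ 2 • x) = 0 := by
      rw [← hkey x]
      module
    exact (htf _ _ h1).resolve_left hd
  obtain ⟨x, hx⟩ := exists_ne (0 : X)
  by_cases h1 : s x - x = 0
  · left
    have e : s x = x := sub_eq_zero.1 h1
    have h2 := hrel x
    rw [e, e] at h2
    have h3 : (1 - t + (q : 𝒪)) • x = 0 := by
      rw [← h2]; module
    have := (htf _ _ h3).resolve_right hx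
    linear_combination -this
  set y1 := s x - x with hy1
  by_cases h2 : s y1 + y1 = 0
  · right
    have e : s y1 = -y1 := eq_neg_of_add_eq_zero_left h2
    have h3 := hrel y1
    rw [e, map_neg, e] at h3
    have h4' : (1 + t + (q : 𝒪)) • y1 = 0 := by
      rw [← h3]; module
    have := (htf _ _ h4').resolve_right h1
    linear_combination this
  set y2 := s y1 + y1 with hy2
  by_cases h3 : s y2 - (q : 𝒪) • y2 = 0
  · left
    have e : s y2 = (q : 𝒪) • y2 := sub_eq_zero.1 h3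
    have h5 := hrel y2
    rw [e, map_smul, e] at h5
    have h6 : ((q : 𝒪) * ((q : 𝒪) - t + 1)) • y2 = 0 := by
      rw [← h5]; module
    have h7 := (htf _ _ h6).resolve_right h2
    have h8 := (mul_eq_zero.1 h7).resolve_left hq0
    linear_combination -h8
  set y3 := s y2 - (q : 𝒪) • y2 with hy3
  right
  have e0 : s y3 + (q : 𝒪) • y3 = 0 := by
    rw [← h4 x, hy3, hy2, hy1]
    simp only [map_sub, map_add, map_smul]
    module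
  have e : s y3 = -((q : 𝒪) • y3) := eq_neg_of_add_eq_zero_left e0
  have h5 := hrel y3
  rw [e, map_neg, map_smul, e] at h5
  have h6 : ((q : 𝒪) * ((q : 𝒪) + t + 1)) • y3 = 0 := by
    rw [← h5]; module
  have h7 := (htf _ _ h6).resolve_right h3
  have h8 := (mul_eq_zero.1 h7).resolve_left hq0
  linear_combination h8


theorem mem_span_of_baseChange_eq_zero {𝒪 H B : Type*} [CommRing 𝒪] [Module.Flat ℤ 𝒪]
    [AddCommGroup H] [AddCommGroup B] (f : H →ₗ[ℤ] B) (y : 𝒪 ⊗[ℤ] H)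
    (hy : f.baseChange 𝒪 y = 0) :
    y ∈ Submodule.span 𝒪 {z : 𝒪 ⊗[ℤ] H | ∃ h₀ : H, f h₀ = 0 ∧ z = (1 : 𝒪) ⊗ₜ[ℤ] h₀} := by
  have hex : Function.Exact (LinearMap.ker f).subtype f := LinearMap.exact_subtype_ker_map f
  have hex' := Module.Flat.lTensor_exact 𝒪 hex
  obtain ⟨z, rfl⟩ := (hex' y).mp hy
  clear hy
  induction z using TensorProduct.induction_on with
  | zero => rw [map_zero]; exact zero_mem _
  | tmul c k =>
    rw [LinearMap.lTensor_tmul, Submodule.subtype_apply]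
    have : c ⊗ₜ[ℤ] (k : H) = c • ((1 : 𝒪) ⊗ₜ[ℤ] (k : H)) := by
      rw [TensorProduct.smul_tmul', smul_eq_mul, mul_one]
    rw [this]
    exact Submodule.smul_mem _ _ (Submodule.subset_span ⟨k, k.2, rfl⟩)
  | add a b ha hb => rw [map_add]; exact add_mem ha hb

theorem mem_span_of_baseChange_eq_zero₂ {𝒪 H B₁ B₂ : Type*} [CommRing 𝒪] [Module.Flat ℤ 𝒪]
    [AddCommGroup H] [AddCommGroup B₁] [AddCommGroup B₂] (f₁ : H →ₗ[ℤ] B₁) (f₂ : H →ₗ[ℤ] B₂)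
    (y : 𝒪 ⊗[ℤ] H) (hy₁ : f₁.baseChange 𝒪 y = 0) (hy₂ : f₂.baseChange 𝒪 y = 0) :
    y ∈ Submodule.span 𝒪
      {z : 𝒪 ⊗[ℤ] H | ∃ h₀ : H, f₁ h₀ = 0 ∧ f₂ h₀ = 0 ∧ z = (1 : 𝒪) ⊗ₜ[ℤ] h₀} := by
  have key : ∀ y : 𝒪 ⊗[ℤ] H, TensorProduct.prodRight ℤ 𝒪 𝒪 B₁ B₂ ((f₁.prod f₂).baseChange 𝒪 y) =
      (f₁.baseChange 𝒪 y, f₂.baseChange 𝒪 y) := by
    intro y
    induction y using TensorProduct.induction_on with
    | zero => simp only [map_zero]; rfl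
    | tmul c k => simp
    | add a b ha hb => simp only [map_add, ha, hb, Prod.mk_add_mk]
  have h0 : (f₁.prod f₂).baseChange 𝒪 y = 0 := by
    apply (TensorProduct.prodRight ℤ 𝒪 𝒪 B₁ B₂).injective
    rw [key, hy₁, hy₂, map_zero]
    rfl
  refine Submodule.span_mono ?_ (mem_span_of_baseChange_eq_zero (f₁.prod f₂) y h0)
  rintro z ⟨h₀, hh, rfl⟩
  have hh' : (f₁ h₀, f₂ h₀) = 0 := hh
  rw [Prod.mk_eq_zero] at hh'
  exact ⟨h₀, hh'.1, hh'.2, rfl⟩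

/-- A relation with integer coefficients which holds on the orbits of `ι n h₀`, `h₀ ∈ Hs`, holds on the orbit of
`ιM n h` for every `h` in the `𝒪`-span of the `1 ⊗ h₀`. -/
theorem rel_of_mem_span {p N : ℕ} [NeZero N] (𝔗 : Tower p N) (𝒪 : Type) [CommRing 𝒪]
    (Hs : Set 𝔗.H) (σ : GQ) (a₄ a₂ a₀ : ℤ)
    (hH : ∀ h₀ ∈ Hs, ∀ (n : ℕ) (g' : GQ),
      a₄ • 𝔗.act n σ (𝔗.act n σ (𝔗.act n σ (𝔗.act n σ (𝔗.act n g' (𝔗.ι n h₀)))))
        + a₂ • 𝔗.act n σ (𝔗.act n σ (𝔗.act n g' (𝔗.ι n h₀)))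
        + a₀ • 𝔗.act n g' (𝔗.ι n h₀) = 0)
    (h : 𝒪 ⊗[ℤ] 𝔗.H)
    (hh : h ∈ Submodule.span 𝒪 {z : 𝒪 ⊗[ℤ] 𝔗.H | ∃ h₀ : 𝔗.H, h₀ ∈ Hs ∧ z = (1 : 𝒪) ⊗ₜ[ℤ] h₀})
    (n : ℕ) (g' : GQ) :
    (a₄ : 𝒪) • 𝔗.actM 𝒪 n σ (𝔗.actM 𝒪 n σ (𝔗.actM 𝒪 n σ (𝔗.actM 𝒪 n σ
        (𝔗.actM 𝒪 n g' (𝔗.ιM 𝒪 n h)))))
      + (a₂ : 𝒪) • 𝔗.actM 𝒪 n σ (𝔗.actM 𝒪 n σ (𝔗.actM 𝒪 n g' (𝔗.ιM 𝒪 n h)))
      + (a₀ : 𝒪) • 𝔗.actM 𝒪 n g' (𝔗.ιM 𝒪 n h) = 0 := by
  induction hh using Submodule.span_induction with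
  | mem x hx =>
    obtain ⟨h₀, hh₀, rfl⟩ := hx
    simp only [Tower.ιM_tmul, Tower.actM_tmul]
    rw [Int.cast_smul_eq_zsmul, Int.cast_smul_eq_zsmul, Int.cast_smul_eq_zsmul,
      ← TensorProduct.tmul_smul, ← TensorProduct.tmul_smul, ← TensorProduct.tmul_smul,
      ← TensorProduct.tmul_add, ← TensorProduct.tmul_add, hH h₀ hh₀ n g', TensorProduct.tmul_zero]
  | zero => simp
  | add x y _ _ hx hy =>
    simp only [map_add, smul_add]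
    have e := congrArg₂ (· + ·) hx hy
    simp only [add_zero] at e
    rw [← e]
    abel
  | smul a x _ hx =>
    simp only [map_smul, smul_comm _ a]
    rw [← smul_add, ← smul_add, hx, smul_zero]

/-- **CONS.**  The exact conclusion of S35 for a character `χ` of the Hecke algebra away from `S`. -/
theorem consumer (p : ℕ) [Fact p.Prime] (N : ℕ) [NeZero N] (S : Finset ℕ)
    (hpS : p ∈ S) (hNS : ∀ q : ℕ, q.Prime → q ∣ N → q ∈ S)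
    (𝒪' : Type) [CommRing 𝒪'] [IsDomain 𝒪'] [IsDiscreteValuationRing 𝒪']
    [IsAdicComplete (IsLocalRing.maximalIdeal 𝒪') 𝒪'] [Finite (IsLocalRing.ResidueField 𝒪')]
    [CharZero 𝒪'] (hp : (p : 𝒪') ∈ IsLocalRing.maximalIdeal 𝒪')
    (χ : CuspForm.heckeAlgebra N 2 (↑S : Set ℕ) →+* 𝒪') (𝔗 : Tower p N)
    (hkey : ∀ h : 𝒪' ⊗[ℤ] 𝔗.H, h ≠ 0 →
      (∀ (ℓ : ℕ) (hℓ : ℓ.Prime) (hℓN : ¬ ℓ ∣ N) (hℓS : ℓ ∉ (↑S : Set ℕ)),
        (𝔗.actH (CuspForm.heckeAlgebra.T hℓ hℓN (Set.notMem_empty ℓ))).baseChange 𝒪' h =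
          χ (CuspForm.heckeAlgebra.T hℓ hℓN hℓS) • h) →
      ∀ q : ℕ, q.Prime → q ≠ p → q ∣ N → ¬ q ^ 2 ∣ N →
        ∀ P : ValuationSubring Qb, P.LiesOverPrime q → ∀ σ : GQ, P.IsFrobeniusAt σ q →
          ∃ d : 𝒪', d ≠ 0 ∧ ∀ (n : ℕ) (g' : GQ),
            d • 𝔗.actM 𝒪' n σ (𝔗.actM 𝒪' n σ (𝔗.actM 𝒪' n σ (𝔗.actM 𝒪' n σ
                (𝔗.actM 𝒪' n g' (𝔗.ιM 𝒪' n h)))))
              + (-(d * ((q : 𝒪') ^ 2 + 1))) •
                  𝔗.actM 𝒪' n σ (𝔗.actM 𝒪' n σ (𝔗.actM 𝒪' n g' (𝔗.ιM 𝒪' n h)))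
              + (d * (q : 𝒪') ^ 2) • 𝔗.actM 𝒪' n g' (𝔗.ιM 𝒪' n h) = 0) :
    ∃ (O'' : Type) (_ : CommRing O'') (_ : IsDomain O'') (_ : IsDiscreteValuationRing O'')
      (_ : IsAdicComplete (IsLocalRing.maximalIdeal O'') O'')
      (_ : Finite (IsLocalRing.ResidueField O''))
      (_ : CharZero O'') (_ : Algebra 𝒪' O'') (_ : Module.Finite 𝒪' O'')
      (_ : IsLocalHom (algebraMap 𝒪' O'')),
      Function.Injective (algebraMap 𝒪' O'') ∧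
      ∃ ρ : GaloisRepAdic O'',
        (∀ (ℓ : ℕ) (hℓ : ℓ.Prime) (hℓM : ¬ ℓ ∣ N) (hℓS : ℓ ∉ (↑S : Set ℕ)),
          ∀ A : ValuationSubring (AlgebraicClosure ℚ), A.LiesOverPrime ℓ →
            ∀ σ : AlgebraicClosure ℚ ≃ₐ[ℚ] AlgebraicClosure ℚ, A.IsFrobeniusAt σ ℓ →
              LinearMap.charpoly (ρ.ρ σ) =
                X ^ 2 - C (algebraMap 𝒪' O'' (χ (CuspForm.heckeAlgebra.T hℓ hℓM hℓS))) * X
                  + C ((ℓ : O''))) ∧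
        (∀ q : ℕ, q.Prime → q ≠ p → q ∣ N → ¬ q ^ 2 ∣ N →
          ∀ A : ValuationSubring (AlgebraicClosure ℚ), A.LiesOverPrime q →
            ∀ σ : AlgebraicClosure ℚ ≃ₐ[ℚ] AlgebraicClosure ℚ, A.IsFrobeniusAt σ q →
              LinearMap.charpoly (ρ.ρ σ) = X ^ 2 - C ((q : O'') + 1) * X + C ((q : O'')) ∨
              LinearMap.charpoly (ρ.ρ σ) = X ^ 2 + C ((q : O'') + 1) * X + C ((q : O''))) := by
  obtain ⟨δ, hδ⟩ := exists_cyclo p 𝒪' hp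
  obtain ⟨c, hc, hcζ⟩ := exists_complexConj
  obtain ⟨h, hh0, hheig⟩ := 𝔗.exists_eigenvector (↑S : Set ℕ) χ
  obtain ⟨D, hD⟩ := exists_traceDataW 𝔗 S hpS hNS hp χ δ hδ h hh0 hheig
  have := D.nontriv
  obtain ⟨M, s, htr, hdet, hcont⟩ := exists_matrix_rep D.tf D.r δ D.t D.rel c hc (hδ.conj hp hcζ)
  have hcont' : ∀ n : ℕ, ∃ L : IntermediateField ℚ Qb, FiniteDimensional ℚ L ∧
      ∀ σ : GQ, (∀ z ∈ L, σ z = z) → ∀ i j, (M σ - 1) i j ∈ maximalIdeal 𝒪' ^ n := by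
    intro n
    obtain ⟨L, hL, h⟩ := D.cont (n + s)
    exact ⟨L, hL, fun σ hσ => hcont n σ (h σ hσ)⟩
  refine ⟨𝒪', inferInstance, inferInstance, inferInstance, inferInstance, inferInstance,
    inferInstance, Algebra.id 𝒪', inferInstance, ?_, Function.injective_id,
    Fermat.Agent.S30.repOfMatrix M hcont', ?_, ?_⟩
  · exact ⟨fun a ha => ha⟩
  · intro ℓ hℓ hℓN hℓS A hA σ hσ
    have hℓp : ℓ ≠ p := fun h => hℓS (h ▸ hpS)
    change LinearMap.charpoly (Matrix.toLinAlgEquiv' (M σ)) = _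
    have h1 : LinearMap.charpoly (Matrix.toLinAlgEquiv' (M σ)) = (M σ).charpoly := by
      exact Matrix.charpoly_toLin' (M σ)
    rw [h1, Matrix.charpoly_fin_two, htr, hdet, D.frob ℓ hℓ hℓN hℓS A hA σ hσ,
      hδ.frob hp hℓ hℓp hA hσ]
    rfl
  · intro q hq hqp hqN hq2 A hA σ hσ
    obtain ⟨d, hd, hrel⟩ := hkey h hh0 hheig q hq hqp hqN hq2 A hA σ hσ
    have hδq : (δ σ : 𝒪') = (q : 𝒪') := hδ.frob hp hq hqp hA hσ
    have ht := t_eq_of_rel D.tf (D.r σ) (D.t σ) q hq.ne_zero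
      (fun x => by have := D.rel σ x; rwa [hδq] at this) d hd
      (hD σ d (-(d * ((q : 𝒪') ^ 2 + 1))) (d * (q : 𝒪') ^ 2) hrel)
    have h1 : LinearMap.charpoly (Matrix.toLinAlgEquiv' (M σ)) = (M σ).charpoly := by
      exact Matrix.charpoly_toLin' (M σ)
    rcases ht with ht | ht
    · left
      change LinearMap.charpoly (Matrix.toLinAlgEquiv' (M σ)) = _
      rw [h1, Matrix.charpoly_fin_two, htr, hdet, hδq, ht]
    · right
      change LinearMap.charpoly (Matrix.toLinAlgEquiv' (M σ)) = _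
      rw [h1, Matrix.charpoly_fin_two, htr, hdet, hδq, ht, C_neg, neg_mul, sub_neg_eq_add]

end Fermat.Agent.S35
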