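import Fermat.Agent.S35.N1

/-!
# S35, piece EQV (hedge): the lattice maps `trH`, `trH'` commute with the good Hecke operators
-/

set_option autoImplicit false
set_option linter.unusedSectionVars false

namespace Fermat.Agent.S35.EqvH

open ModularCurve AlgebraicCurve HahnSeries Fermat.Agent.S24 Fermat.Agent.S18 Fermat.Agent.GR

section abs

variable {N M : ℕ}

/-- the map induced on `F^× / F^{× m}` by a multiplicative map. -/
noncomputable def nuQ (m : ℕ) (ν : FN N →* FN M) : KQ N m →+ KQ M m :=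
  MonoidHom.toAdditive (QuotientGroup.map (Pw N m) (Pw M m) (Units.map ν) (by
    rintro _ ⟨w, rfl⟩
    exact ⟨Units.map ν w, (map_pow _ _ _).symm⟩))

theorem nu_ne_zero (ν : FN N →* FN M) {u : FN N} (hu : u ≠ 0) : ν u ≠ 0 :=
  ((isUnit_iff_ne_zero.mpr hu).map ν).ne_zero

theorem nuQ_cls {m : ℕ} (ν : FN N →* FN M) {u : FN N} (hu : u ≠ 0) :
    nuQ m ν (cls m u) = cls m (ν u) := by
  rw [cls_of_ne hu, cls_of_ne (nu_ne_zero ν hu)]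
  show mkQ m _ = _
  congr 1
  exact Units.ext rfl

theorem nuQ_actQ {m : ℕ} (ν : FN N →* FN M)
    (hgal : ∀ (σ : GQ) (f : FN N), ν (galF N σ f) = galF M σ (ν f)) (σ : GQ) (y : KQ N m) :
    nuQ m ν (actQ m σ y) = actQ m σ (nuQ m ν y) := by
  obtain ⟨u, hu, rfl⟩ := cls_surjective y
  have hu' : galF N σ u ≠ 0 := by rwa [Ne, map_eq_zero_iff _ (galF N σ).injective]
  rw [actQ_cls, nuQ_cls ν hu', nuQ_cls ν hu, actQ_cls, hgal]

theorem nuQ_TQ {m : ℕ} (ν : FN N →* FN M)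
    (hgal : ∀ (σ : GQ) (f : FN N), ν (galF N σ f) = galF M σ (ν f)) (ℓ : ℕ) (y : KQ N m) :
    nuQ m ν (TQ N m ℓ y) = TQ M m ℓ (nuQ m ν y) := by
  rw [TQ_apply, TQ_apply, map_add, map_nsmul, nuQ_actQ ν hgal, nuQ_actQ ν hgal]

theorem int_eq_zero_of_forall_pow_dvd {p : ℕ} (hp : 2 ≤ p) {c : ℤ} (h : ∀ n : ℕ, (p : ℤ) ^ n ∣ c) :
    c = 0 := by
  refine Int.eq_zero_of_abs_lt_dvd (h c.natAbs) ?_
  have h1 : c.natAbs < p ^ c.natAbs := Nat.lt_pow_self hp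
  rw [Int.abs_eq_natAbs]
  exact_mod_cast h1

theorem eq_zero_of_forall_pow_smul {H : Type} [AddCommGroup H] [Module.Free ℤ H] {p : ℕ}
    (hp : 2 ≤ p) {a : H} (h : ∀ n : ℕ, ∃ h' : H, a = (p ^ n) • h') : a = 0 := by
  let b := Module.Free.chooseBasis ℤ H
  rw [← b.repr.map_eq_zero_iff]
  ext i
  refine int_eq_zero_of_forall_pow_dvd hp fun n => ?_
  obtain ⟨h', rfl⟩ := h n
  refine ⟨b.repr h' i, ?_⟩
  rw [map_nsmul, Finsupp.smul_apply]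
  simp

variable [NeZero N] [NeZero M] {p : ℕ} [Fact p.Prime]

/-- **EQV, abstract form.** -/
theorem eqv_abs (DN : AnData p N) (DM : AnData p M) (ν : FN N →* FN M)
    (hgal : ∀ (σ : GQ) (f : FN N), ν (galF N σ f) = galF M σ (ν f))
    (tr : DN.H →+ DM.H)
    (htr : ∀ n h, ∃ x : FN M, ν (DN.u n h) = DM.u n (tr h) * x ^ (p ^ n))
    {ℓ : ℕ} (hℓ : ℓ.Prime) (hℓN : ¬ ℓ ∣ N) (hℓM : ¬ ℓ ∣ M) (hℓp : ℓ ≠ p) (h : DN.H) :
    tr (DN.actH (CuspForm.heckeAlgebra.T hℓ hℓN (Set.notMem_empty ℓ)) h) =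
      DM.actH (CuspForm.heckeAlgebra.T hℓ hℓM (Set.notMem_empty ℓ)) (tr h) := by
  have hp2 : 2 ≤ p := (Fact.out : p.Prime).two_le
  have hgen : ∀ n h, nuQ (p ^ n) ν (gen DN n 1 h) = gen DM n 1 (tr h) := by
    intro n h
    obtain ⟨x, hx⟩ := htr n h
    rw [gen, gen, nuQ_cls ν (galF_u_ne DN n 1 h), hgal, hx]
    refine cls_eq_of_eq_mul_pow (w := galF M 1 x) ?_ (by rw [map_mul, map_pow])
    rw [← hx, Ne, map_eq_zero_iff _ (galF M 1).injective]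
    exact nu_ne_zero ν (DN.u_ne n h)
  rw [← sub_eq_zero]
  refine eq_zero_of_forall_pow_smul hp2 fun n => ?_
  set a := tr (DN.actH (CuspForm.heckeAlgebra.T hℓ hℓN (Set.notMem_empty ℓ)) h) with ha
  set b := DM.actH (CuspForm.heckeAlgebra.T hℓ hℓM (Set.notMem_empty ℓ)) (tr h) with hb
  have h1 : gen DM n 1 a = gen DM n 1 b := by
    rw [ha, ← hgen, ← TQ_gen DN n hℓ hℓN hℓp, nuQ_TQ ν hgal, hgen, TQ_gen DM n hℓ hℓM hℓp]
  have h2 : gen DM n 1 (a - b) = 0 := by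
    have h3 := gen_add DM n 1 (a - b) b
    rw [sub_add_cancel, h1] at h3
    exact (add_eq_right.mp h3.symm)
  rw [gen, cls_eq_zero_iff (galF_u_ne DM n 1 _)] at h2
  obtain ⟨W, hW⟩ := h2
  refine DM.u_ker n _ ⟨galF M 1⁻¹ W, ?_⟩
  rw [← map_pow, ← hW, ← galF_mul, inv_mul_cancel, galF_one]

end abs

section conc

variable {p q M : ℕ} [Fact p.Prime] [NeZero q] [NeZero M] [NeZero (q * M)]
  {w : FN (q * M) ≃ₐ[Kb] FN (q * M)} {DN : AnData p (q * M)} {DM : AnData p M}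

/-- the norm as a multiplicative map `F_{qM} → F_M`. -/
noncomputable def nu (hw : IsWq q M w) {z : Kbˣ} (hz : IsPrimitiveRoot z q) (hq : q.Prime)
    (hqM : ¬ q ∣ M) : FN (q * M) →* FN M where
  toFun f := ⟨N1 w z f, N1_mem hw hz hq hqM f⟩
  map_one' := Subtype.ext N1_one
  map_mul' f g := Subtype.ext (N1_mul hz f g)

theorem coe_nu (hw : IsWq q M w) {z : Kbˣ} (hz : IsPrimitiveRoot z q) (hq : q.Prime)
    (hqM : ¬ q ∣ M) (f : FN (q * M)) :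
    ((nu hw hz hq hqM f : FN M) : LaurentSeries Kb) = N1 w z f := rfl

theorem nu_galF (hw : IsWq q M w) {z : Kbˣ} (hz : IsPrimitiveRoot z q) (hq : q.Prime)
    (hqM : ¬ q ∣ M) (σ : GQ) (f : FN (q * M)) :
    nu hw hz hq hqM (galF (q * M) σ f) = galF M σ (nu hw hz hq hqM f) := by
  apply Subtype.ext
  rw [coe_nu, coe_galF, coe_nu, N1_galF hw hz]

theorem exists_prim (q : ℕ) [NeZero q] : ∃ z : Kbˣ, IsPrimitiveRoot z q := by
  obtain ⟨ζ₀, hζ₀⟩ := HasEnoughRootsOfUnity.exists_primitiveRoot Kb q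
  refine ⟨hζ₀.isUnit (NeZero.ne q) |>.unit, ?_⟩
  rw [← IsPrimitiveRoot.coe_units_iff]
  exact hζ₀

theorem trH_T (D2 : AnData2 p q M w DN DM) (hq : q.Prime) (hqM : ¬ q ∣ M) (hw : IsWq q M w)
    {ℓ : ℕ} (hℓ : ℓ.Prime) (hℓN : ¬ ℓ ∣ q * M) (hℓM : ¬ ℓ ∣ M) (hℓp : ℓ ≠ p) (h : DN.H) :
    D2.trH (DN.actH (CuspForm.heckeAlgebra.T hℓ hℓN (Set.notMem_empty ℓ)) h) =
      DM.actH (CuspForm.heckeAlgebra.T hℓ hℓM (Set.notMem_empty ℓ)) (D2.trH h) := by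
  obtain ⟨z, hz⟩ := exists_prim q
  refine eqv_abs DN DM (nu hw hz hq hqM) (nu_galF hw hz hq hqM) D2.trH ?_ hℓ hℓN hℓM hℓp h
  intro n h
  obtain ⟨ζ, x, hζ, hx⟩ := D2.u_tr n h
  refine ⟨x, Subtype.ext ?_⟩
  rw [coe_nu, N1_eq_of_isPrimitiveRoot hz hζ, hx]

theorem trH'_T (D2 : AnData2 p q M w DN DM) (hq : q.Prime) (hqM : ¬ q ∣ M)
    (hw : IsWq q M w)
    {ℓ : ℕ} (hℓ : ℓ.Prime) (hℓN : ¬ ℓ ∣ q * M) (hℓM : ¬ ℓ ∣ M) (hℓp : ℓ ≠ p) (h : DN.H) :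
    D2.trH' (DN.actH (CuspForm.heckeAlgebra.T hℓ hℓN (Set.notMem_empty ℓ)) h) =
      DM.actH (CuspForm.heckeAlgebra.T hℓ hℓM (Set.notMem_empty ℓ)) (D2.trH' h) := by
  obtain ⟨z, hz⟩ := exists_prim q
  refine eqv_abs DN DM ((nu hw hz hq hqM).comp (w : FN (q * M) →* FN (q * M))) ?_ D2.trH' ?_
    hℓ hℓN hℓM hℓp h
  · intro σ f
    show nu hw hz hq hqM (w (galF (q * M) σ f)) = galF M σ (nu hw hz hq hqM (w f))
    rw [hw.gal, nu_galF]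
  · intro n h
    obtain ⟨ζ, x, hζ, hx⟩ := D2.u_tr' n h
    refine ⟨x, Subtype.ext ?_⟩
    show ((nu hw hz hq hqM (w (DN.u n h)) : FN M) : LaurentSeries Kb) = _
    rw [coe_nu, N1_eq_of_isPrimitiveRoot hz hζ, hx]

end conc

end Fermat.Agent.S35.EqvH
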