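import Fermat.Agent.S35.N1
import Fermat.Agent.S35.EqvH

/-!
# S35, piece EQV: the lattice maps `trH`, `trH'` commute with the good Hecke operators
-/

set_option autoImplicit false

namespace Fermat.Agent.S35

open ModularCurve AlgebraicCurve HahnSeries Fermat.Agent.S24 Fermat.Agent.S18 Fermat.Agent.GR

variable {p q M : ℕ} [Fact p.Prime] [NeZero q] [NeZero M] [NeZero (q * M)]
  {w : FN (q * M) ≃ₐ[Kb] FN (q * M)} {DN : AnData p (q * M)} {DM : AnData p M}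

/-- **EQV.**  `ν_n : KQ (q M) (p^n) →+ KQ M (p^n)`, `[f] ↦ [N1 f]` (`N1_mem`, `N1_mul`, `N1_pow`) commutes with `actQ` (`N1_galF`), hence with
`TQ = Frob + ℓ Frob⁻¹`; `ν_n (gen DN n 1 h) = gen DM n 1 (trH h)` (`u_tr`); `TQ_gen` at both levels gives
`gen DM n 1 (trH (T h)) = gen DM n 1 (T (trH h))` for all `n`; `u_ker`, `u_add`: the difference is divisible by all `p ^ n`, hence `0` (`H` is free of finite rank). -/
theorem AnData2.trH_T (D2 : AnData2 p q M w DN DM) (hq : q.Prime) (hqM : ¬ q ∣ M) (hw : IsWq q M w)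
    {ℓ : ℕ} (hℓ : ℓ.Prime) (hℓN : ¬ ℓ ∣ q * M) (hℓM : ¬ ℓ ∣ M) (hℓp : ℓ ≠ p) (h : DN.H) :
    D2.trH (DN.actH (CuspForm.heckeAlgebra.T hℓ hℓN (Set.notMem_empty ℓ)) h) =
      DM.actH (CuspForm.heckeAlgebra.T hℓ hℓM (Set.notMem_empty ℓ)) (D2.trH h) :=
  EqvH.trH_T D2 hq hqM hw hℓ hℓN hℓM hℓp h

/-- the same with `ν'_n [f] = [N1 (w f)]` (`IsWq.gal`). -/
theorem AnData2.trH'_T (D2 : AnData2 p q M w DN DM) (hq : q.Prime) (hqM : ¬ q ∣ M)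
    (hw : IsWq q M w)
    {ℓ : ℕ} (hℓ : ℓ.Prime) (hℓN : ¬ ℓ ∣ q * M) (hℓM : ¬ ℓ ∣ M) (hℓp : ℓ ≠ p) (h : DN.H) :
    D2.trH' (DN.actH (CuspForm.heckeAlgebra.T hℓ hℓN (Set.notMem_empty ℓ)) h) =
      DM.actH (CuspForm.heckeAlgebra.T hℓ hℓM (Set.notMem_empty ℓ)) (D2.trH' h) :=
  EqvH.trH'_T D2 hq hqM hw hℓ hℓN hℓM hℓp h

end Fermat.Agent.S35
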