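import Fermat.Agent.S35.TKL

/-!
# S35, piece KEY: `d (σ² - q²)(σ² - 1) = 0` on the Galois orbits of the classes `ι n h`, `h ∈ ker trH ∩ ker trH'`
-/

set_option autoImplicit false

namespace Fermat.Agent.S35

open ModularCurve AlgebraicCurve HahnSeries Fermat.Agent.S24 Fermat.Agent.S18 Fermat.Agent.GR

/-- `w` preserves `m ∣ div` (`w` is a `ℚ̄`-automorphism, it permutes the places). -/
theorem DvdOrd.wq {N m : ℕ} (w : FN N ≃ₐ[Kb] FN N) {u : FN N} (hu : DvdOrd N m u) :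
    DvdOrd N m (w u) := by
  intro P
  have h1 := Place.ord_smul w (w⁻¹ • P) u
  rw [smul_inv_smul] at h1
  rw [h1]
  exact hu _

variable {p q M : ℕ} [Fact p.Prime] [NeZero q] [NeZero M] [NeZero (q * M)]
  {w : FN (q * M) ≃ₐ[Kb] FN (q * M)} {DN : AnData p (q * M)} {DM : AnData p M}

/-- `u n 0` is a `p ^ n`-th power. -/
theorem AnData.u_zero {p N : ℕ} [NeZero N] (D : AnData p N) (n : ℕ) :
    ∃ x : FN N, D.u n 0 = x ^ (p ^ n) := by
  obtain ⟨x, hx⟩ := D.u_add n 0 0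
  rw [add_zero] at hx
  have h0 := D.u_ne n 0
  refine ⟨x⁻¹, ?_⟩
  have hx0 : x ^ (p ^ n) ≠ 0 := by
    intro h
    rw [h, mul_zero] at hx
    exact h0 hx
  have h1 : D.u n 0 * x ^ (p ^ n) = 1 := by
    have : D.u n 0 * 1 = D.u n 0 * (D.u n 0 * x ^ (p ^ n)) := by rw [mul_one, ← mul_assoc]; exact hx
    exact (mul_left_cancel₀ h0 this).symm
  rw [inv_pow]
  exact eq_inv_of_mul_eq_one_left h1

/-- the element identity behind KEY. -/
theorem key_cls {N m d Q : ℕ} (w : FN N ≃ₐ[Kb] FN N) (σ : GQ)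
    (hgal : ∀ f : FN N, w (galF N σ f) = galF N σ (w f)) (hinv : ∀ f, w (w f) = f)
    (v : FN N) (hv : v ≠ 0) (x : FN N)
    (E : (galF N σ (galF N σ (galF N σ v * w v))) ^ d = ((galF N σ v * w v) ^ Q) ^ d * x ^ m) :
    (d : ℤ) • cls m (galF N σ (galF N σ (galF N σ (galF N σ v))))
      + (-((d : ℤ) * ((Q : ℤ) + 1))) • cls m (galF N σ (galF N σ v))
      + ((d : ℤ) * (Q : ℤ)) • cls m v = 0 := by
  have hs : ∀ {f : FN N}, f ≠ 0 → galF N σ f ≠ 0 := fun {f} hf => by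
    rwa [Ne, map_eq_zero_iff _ (galF N σ).injective]
  have hw0 : ∀ {f : FN N}, f ≠ 0 → w f ≠ 0 := fun {f} hf => by
    rwa [Ne, map_eq_zero_iff _ w.injective]
  set v1 := galF N σ v with hv1
  set v2 := galF N σ v1 with hv2
  set v3 := galF N σ v2 with hv3
  set v4 := galF N σ v3 with hv4
  set u0 := w v with hu0
  set u1 := galF N σ u0 with hu1
  set u2 := galF N σ u1 with hu2
  set u3 := galF N σ u2 with hu3
  have n1 : v1 ≠ 0 := hs hv
  have n2 : v2 ≠ 0 := hs n1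
  have n3 : v3 ≠ 0 := hs n2
  have n4 : v4 ≠ 0 := hs n3
  have k0 : u0 ≠ 0 := hw0 hv
  have k1 : u1 ≠ 0 := hs k0
  have k2 : u2 ≠ 0 := hs k1
  have k3 : u3 ≠ 0 := hs k2
  have wv1 : w v1 = u1 := hgal v
  have wv2 : w v2 = u2 := by rw [hv2, hgal, wv1]
  have wv3 : w v3 = u3 := by rw [hv3, hgal, wv2]
  have wu0 : w u0 = v := hinv v
  have wu1 : w u1 = v1 := by rw [hu1, hgal, wu0]
  have wu2 : w u2 = v2 := by rw [hu2, hgal, wu1]
  have E0 : (v3 * u2) ^ d = ((v1 * u0) ^ Q) ^ d * x ^ m := by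
    have : galF N σ (galF N σ (v1 * u0)) = v3 * u2 := by
      rw [map_mul, map_mul]
    rw [← this]; exact E
  have E1 : (v4 * u3) ^ d = ((v2 * u1) ^ Q) ^ d * (galF N σ x) ^ m := by
    have := congrArg (galF N σ) E0
    simpa only [map_mul, map_pow] using this
  have E2 : (u3 * v2) ^ d = ((u1 * v) ^ Q) ^ d * (w x) ^ m := by
    have := congrArg w E0
    simpa only [map_mul, map_pow, wv3, wu2, wv1, wu0] using this
  have C1 := cls_eq_of_eq_mul_pow (m := m) (pow_ne_zero d (mul_ne_zero n4 k3)) E1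
  have C2 := cls_eq_of_eq_mul_pow (m := m) (pow_ne_zero d (mul_ne_zero k3 n2)) E2
  rw [cls_pow (mul_ne_zero n4 k3), cls_mul n4 k3, cls_pow (pow_ne_zero Q (mul_ne_zero n2 k1)),
    cls_pow (mul_ne_zero n2 k1), cls_mul n2 k1] at C1
  rw [cls_pow (mul_ne_zero k3 n2), cls_mul k3 n2, cls_pow (pow_ne_zero Q (mul_ne_zero k1 hv)),
    cls_pow (mul_ne_zero k1 hv), cls_mul k1 hv] at C2
  generalize cls m v4 = a4 at *
  generalize cls m v2 = a2 at *
  generalize cls m v = a0 at *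
  generalize cls m u3 = b3 at *
  generalize cls m u1 = b1 at *
  have C1' : (d : ℤ) • (a4 + b3) = (d : ℤ) • ((Q : ℤ) • (a2 + b1)) := by
    simpa only [natCast_zsmul] using C1
  have C2' : (d : ℤ) • (b3 + a2) = (d : ℤ) • ((Q : ℤ) • (b1 + a0)) := by
    simpa only [natCast_zsmul] using C2
  have : (d : ℤ) • a4 + (-((d : ℤ) * ((Q : ℤ) + 1))) • a2 + ((d : ℤ) * (Q : ℤ)) • a0 =
      ((d : ℤ) • (a4 + b3) - (d : ℤ) • ((Q : ℤ) • (a2 + b1))) -
      ((d : ℤ) • (b3 + a2) - (d : ℤ) • ((Q : ℤ) • (b1 + a0))) := by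
    module
  rw [this, C1', C2', sub_self, sub_self, sub_self]

/-- **KEY.**  `v = galF g' (DN.u n h)`; `N1 v = g' (N1 (DN.u n h)) = g' (DM.u n 0 * x^m)` (`N1_galF`), and `DM.u n 0` is an `m`-th power; the same for `N1 (w v)`;
`isTor1_of_norm`, `toric_sq`, `key_cls`.  The shape of the conclusion is the one of `rel_of_mem_span` (`S35/Cons.lean`). -/
theorem key_tower (D2 : AnData2 p q M w DN DM) (hq : q.Prime) (hqM : ¬ q ∣ M) (hqp : q ≠ p)
    (hw : IsWq q M w) :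
    ∃ d : ℕ, 0 < d ∧ ∀ (A : ValuationSubring Kb), A.LiesOverPrime q → ∀ σ : GQ,
      A.IsFrobeniusAt σ q → ∀ h : DN.H, D2.trH h = 0 → D2.trH' h = 0 → ∀ (n : ℕ) (g' : GQ),
        (d : ℤ) • (towerOfAnData DN).act n σ ((towerOfAnData DN).act n σ
            ((towerOfAnData DN).act n σ ((towerOfAnData DN).act n σ
              ((towerOfAnData DN).act n g' ((towerOfAnData DN).ι n h)))))
          + (-((d : ℤ) * ((q : ℤ) ^ 2 + 1))) • (towerOfAnData DN).act n σ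
              ((towerOfAnData DN).act n σ ((towerOfAnData DN).act n g' ((towerOfAnData DN).ι n h)))
          + ((d : ℤ) * (q : ℤ) ^ 2) • (towerOfAnData DN).act n g' ((towerOfAnData DN).ι n h) = 0 := by
  obtain ⟨d, hd, H⟩ := toric_sq hq hqM hw
  refine ⟨d, hd, fun A hA σ hσ h h1 h2 n g' => ?_⟩
  have hm : 0 < p ^ n := pow_pos (Fact.out : p.Prime).pos n
  have hqm : ¬ q ∣ p ^ n := not_dvd_pow hq hqp n
  set v : FN (q * M) := galF (q * M) g' (DN.u n h) with hvdef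
  have hv : v ≠ 0 := galF_u_ne DN n g' h
  have hord : DvdOrd (q * M) (p ^ n) v := (dvdOrd_u DN n h).galF g'
  have hord' : DvdOrd (q * M) (p ^ n) (w v) := DvdOrd.wq w hord
  obtain ⟨ζ, x1, hζ, e1⟩ := D2.u_tr n h
  obtain ⟨ζ', x2, hζ', e2⟩ := D2.u_tr' n h
  obtain ⟨x0, hx0⟩ := AnData.u_zero DM n
  rw [h1, hx0, ← mul_pow] at e1
  rw [h2, hx0, ← mul_pow, N1_eq_of_isPrimitiveRoot hζ' hζ] at e2
  have hy : N1 w ζ v = ((galF M g' (x0 * x1) : FN M) : LaurentSeries Kb) ^ (p ^ n) := by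
    rw [hvdef, N1_galF hw hζ, e1, coe_galF, ← map_pow]
    rfl
  have hy' : N1 w ζ (w v) = ((galF M g' (x0 * x2) : FN M) : LaurentSeries Kb) ^ (p ^ n) := by
    rw [hvdef, hw.gal, N1_galF hw hζ, e2, coe_galF, ← map_pow]
    rfl
  have htor := isTor1_of_norm hq hqM hm hA hσ hζ hw v hv hord hord' _ _ hy hy'
  obtain ⟨x, hx⟩ := H A hA σ hσ (p ^ n) hqm _ htor
  have hfin := key_cls (m := p ^ n) w σ (hw.gal σ) hw.invol v hv x hx
  have hg : (((towerOfAnData DN).act n g' ((towerOfAnData DN).ι n h)) : AS DN n).1 =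
      cls (p ^ n) v := by
    show actQ (p ^ n) g' (gen DN n 1 h) = _
    rw [actQ_gen, mul_one]
    rfl
  have hact : ∀ (y : AS DN n) (f : FN (q * M)), y.1 = cls (p ^ n) f →
      ((towerOfAnData DN).act n σ y : AS DN n).1 = cls (p ^ n) (galF (q * M) σ f) := by
    intro y f hyf
    show actQ (p ^ n) σ y.1 = _
    rw [hyf, actQ_cls]
  have h2' := hact _ _ (hact _ _ hg)
  have h4' := hact _ _ (hact _ _ h2')
  push_cast at hfin
  apply Subtype.ext
  refine Eq.trans ?_ hfin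
  rw [← h4', ← h2', ← hg]
  rfl

end Fermat.Agent.S35
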