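import Fermat.Agent.S49
import Fermat.Agent.S23
import Fermat.Agent.GR.Eigen
import Fermat.Prelude.Def_CuspForm_HeckeLocal

/-!
# S35, piece EIGM: every ring homomorphism `heckeAlgebra M 2 S → ℂ` is the eigensystem of a normalised
eigenform of level `M`.

Route: `GR.exists_eigenvector_abs` on the integral lattice (faithful by S23), the lattice is
`ℂ`-linearly independent (rational functionals on `ℂ`), annihilator of the eigenvector in the complex
Hecke algebra `S49.AA`, a maximal ideal above it, `S49.exists_eigenvector`.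
-/

set_option autoImplicit false
set_option linter.style.haveILetI false

namespace Fermat.Agent.S35

open CuspForm CongruenceSubgroup ModularFormClass TensorProduct Fermat.Agent.S49

noncomputable section

variable {M : ℕ} [NeZero M]

/-- a family of forms with integral `q`-expansions which is `ℤ`-linearly independent is `ℂ`-linearly
independent. -/
theorem eigm_linearIndependent {ι : Type*} [Fintype ι] (b : ι → V M)
    (hb : ∀ i, b i ∈ intLattice M 2) (hli : LinearIndependent ℤ b) : LinearIndependent ℂ b := by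
  classical
  letI : Module ℚ (V M) := Module.compHom (V M) (algebraMap ℚ ℂ)
  haveI : IsScalarTower ℚ ℂ (V M) := ⟨fun x y z => by
    show (x • y) • z = (algebraMap ℚ ℂ x) • (y • z)
    rw [Algebra.smul_def, mul_smul]⟩
  have hQ : LinearIndependent ℚ b := (LinearIndependent.iff_fractionRing ℤ ℚ).mp hli
  rw [Fintype.linearIndependent_iff]
  intro g hg i
  rw [← Module.forall_dual_apply_eq_zero_iff ℚ]
  intro lam
  have hm : ∀ j n, ∃ m : ℤ, qc M n (b j) = (m : ℂ) := fun j => (mem_intLattice_iff' (b j)).mp (hb j)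
  choose m hm using hm
  have key : ∑ j, lam (g j) • b j = 0 := by
    apply eq_zero_of_qc
    intro n
    have h1 : qc M n (∑ j, g j • b j) = 0 := by rw [hg, map_zero]
    rw [map_sum] at h1
    simp only [map_smul, smul_eq_mul, hm] at h1
    have h2 := congrArg lam h1
    rw [map_sum, map_zero] at h2
    have h3 : ∀ j, lam (g j * (m j n : ℂ)) = (m j n : ℚ) * lam (g j) := by
      intro j
      have : g j * (m j n : ℂ) = (m j n : ℚ) • g j := by
        rw [Rat.smul_def]
        push_cast
        ring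
      rw [this, map_smul, smul_eq_mul]
    simp only [h3] at h2
    rw [map_sum]
    have h4 : ∀ j, qc M n (lam (g j) • b j) = (((m j n : ℚ) * lam (g j) : ℚ) : ℂ) := by
      intro j
      have : lam (g j) • b j = ((lam (g j) : ℚ) : ℂ) • b j := rfl
      rw [this, map_smul, smul_eq_mul, hm]
      push_cast
      ring
    simp only [h4]
    rw [← Rat.cast_sum, h2, Rat.cast_zero]
  exact (Fintype.linearIndependent_iff.mp hQ) _ key i

/-- a nonzero eigenvector with a given character of the integral Hecke algebra. -/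
theorem eigm_exists_vector (S : Set ℕ) (ψ : heckeAlgebra M 2 S →+* ℂ) :
    ∃ v : V M, v ≠ 0 ∧ ∀ t : heckeAlgebra M 2 S, (t : Module.End ℂ (V M)) v = ψ t • v := by
  classical
  haveI := intLattice.moduleFinite M
  haveI := intLattice.moduleFree M
  obtain ⟨h, hh, hr⟩ := GR.exists_eigenvector_abs (latticeActionHom M S)
    (latticeActionHom_injective M S (Fermat.Agent.S23.result M)) ψ
  let π : ℂ ⊗[ℤ] ↥(intLattice M 2) →ₗ[ℂ] V M := (intLattice M 2).subtype.liftBaseChange ℂ
  have hπ : ∀ (c : ℂ) (f : ↥(intLattice M 2)), π (c ⊗ₜ f) = c • (f : V M) := fun c f =>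
    LinearMap.liftBaseChange_tmul _ _ _ _
  let b := Module.Free.chooseBasis ℤ ↥(intLattice M 2)
  let bC := b.baseChange ℂ
  have hli : LinearIndependent ℂ (fun i => ((b i : ↥(intLattice M 2)) : V M)) := by
    apply eigm_linearIndependent _ (fun i => (b i).2)
    exact b.linearIndependent.map' (intLattice M 2).subtype (Submodule.ker_subtype _)
  have hinj : ∀ x, π x = 0 → x = 0 := by
    intro x hx
    rw [← bC.sum_repr x, map_sum] at hx
    have h1 : ∀ i, π (bC.repr x i • bC i) = bC.repr x i • ((b i : ↥(intLattice M 2)) : V M) := by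
      intro i
      rw [map_smul, Module.Basis.baseChange_apply, hπ, one_smul]
    simp only [h1] at hx
    have h2 := Fintype.linearIndependent_iff.mp hli _ hx
    rw [← bC.sum_repr x]
    exact Finset.sum_eq_zero fun i _ => by rw [h2 i, zero_smul]
  have hequiv : ∀ (t : heckeAlgebra M 2 S) (x : ℂ ⊗[ℤ] ↥(intLattice M 2)),
      π ((latticeActionHom M S t).baseChange ℂ x) = (t : Module.End ℂ (V M)) (π x) := by
    intro t x
    induction x using TensorProduct.induction_on with
    | zero => simp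
    | tmul c f =>
      rw [LinearMap.baseChange_tmul, hπ, hπ, map_smul]
      rfl
    | add x y hx hy => rw [map_add, map_add, hx, hy, map_add, map_add]
  refine ⟨π h, fun h0 => hh (hinj h h0), fun t => ?_⟩
  rw [← hequiv, hr, map_smul]

/-- the annihilator of a vector in the complex Hecke algebra. -/
def eigmAnn (v : V M) : Ideal (AA M) where
  carrier := {s | (s : Module.End ℂ (V M)) v = 0}
  add_mem' := by
    intro a b ha hb
    show ((a + b : AA M) : Module.End ℂ (V M)) v = 0
    rw [Subalgebra.coe_add, LinearMap.add_apply, ha, hb, add_zero]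
  zero_mem' := by
    show ((0 : AA M) : Module.End ℂ (V M)) v = 0
    simp
  smul_mem' := by
    intro c a ha
    show ((c * a : AA M) : Module.End ℂ (V M)) v = 0
    rw [Subalgebra.coe_mul, Module.End.mul_apply, ha, map_zero]

/-- a character of the complex Hecke algebra killing the annihilator of a nonzero vector. -/
theorem eigm_exists_character (v : V M) (hv : v ≠ 0) :
    ∃ μ : AA M →ₐ[ℂ] ℂ, ∀ s : AA M, (s : Module.End ℂ (V M)) v = 0 → μ s = 0 := by
  have hI : eigmAnn v ≠ ⊤ := by
    intro h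
    have h1 : (1 : AA M) ∈ eigmAnn v := h ▸ Submodule.mem_top
    have h2 : ((1 : AA M) : Module.End ℂ (V M)) v = 0 := h1
    apply hv
    simpa using h2
  obtain ⟨𝔫, h𝔫, hle⟩ := Ideal.exists_le_maximal _ hI
  haveI : 𝔫.IsPrime := h𝔫.isPrime
  haveI : IsDomain (AA M ⧸ 𝔫) := Ideal.Quotient.isDomain 𝔫
  haveI : Module.Finite ℂ (AA M ⧸ 𝔫) := Module.Finite.quotient ℂ 𝔫
  haveI : Algebra.IsIntegral ℂ (AA M ⧸ 𝔫) := Algebra.IsIntegral.of_finite ℂ (AA M ⧸ 𝔫)
  have hbij : Function.Bijective (algebraMap ℂ (AA M ⧸ 𝔫)) :=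
    IsAlgClosed.algebraMap_bijective_of_isIntegral
  let e : ℂ ≃ₐ[ℂ] (AA M ⧸ 𝔫) := AlgEquiv.ofBijective (Algebra.ofId ℂ (AA M ⧸ 𝔫)) hbij
  refine ⟨e.symm.toAlgHom.comp (Ideal.Quotient.mkₐ ℂ 𝔫), fun s hs => ?_⟩
  have h1 : Ideal.Quotient.mk 𝔫 s = 0 := Ideal.Quotient.eq_zero_iff_mem.mpr (hle hs)
  show e.symm (Ideal.Quotient.mk 𝔫 s) = 0
  rw [h1, map_zero]

/-- **EIGM** (any set `S`). -/
theorem exists_eigenform_of_char' (M : ℕ) [NeZero M] (S : Set ℕ) (ψ : heckeAlgebra M 2 S →+* ℂ) :
    ∃ g' : CuspForm (Gamma0 M) 2, g'.IsNormalizedEigenform ∧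
      ∀ (l : ℕ) (hl : l.Prime) (hlM : ¬ l ∣ M) (hlS : l ∉ S),
        qCoeff g' l = ψ (heckeAlgebra.T hl hlM hlS) := by
  obtain ⟨v, hv0, hv⟩ := eigm_exists_vector S ψ
  obtain ⟨μ, hμ⟩ := eigm_exists_character v hv0
  obtain ⟨g, hg1, hg⟩ := Fermat.Agent.S49.exists_eigenvector M μ
  obtain ⟨hnorm, hcoeff⟩ := isNormalizedEigenform_of_eigenvector μ g hg1 hg
  refine ⟨g, hnorm, fun l hl hlM hlS => ?_⟩
  rw [hcoeff l hl hlM]
  have h1 : μ (incl M (heckeAlgebra.T hl hlM (Set.notMem_empty _)) -
      algebraMap ℂ (AA M) (ψ (heckeAlgebra.T hl hlM hlS))) = 0 := by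
    apply hμ
    rw [Subalgebra.coe_sub, LinearMap.sub_apply, incl_coe, heckeAlgebra.coe_T,
      Subalgebra.coe_algebraMap, Module.algebraMap_end_apply, sub_eq_zero]
    exact hv (heckeAlgebra.T hl hlM hlS)
  rw [map_sub, AlgHom.commutes, sub_eq_zero] at h1
  exact h1

/-- **EIGM.** Every ring homomorphism from the Hecke algebra away from `S` to `ℂ` is the eigensystem
of a normalised eigenform. -/
theorem exists_eigenform_of_char (M : ℕ) [NeZero M] (S : Finset ℕ)
    (ψ : heckeAlgebra M 2 (↑S : Set ℕ) →+* ℂ) :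
    ∃ g' : CuspForm (Gamma0 M) 2, g'.IsNormalizedEigenform ∧
      ∀ (l : ℕ) (hl : l.Prime) (hlM : ¬ l ∣ M) (hlS : l ∉ (↑S : Set ℕ)),
        qCoeff g' l = ψ (heckeAlgebra.T hl hlM hlS) :=
  exists_eigenform_of_char' M (↑S : Set ℕ) ψ

end

end Fermat.Agent.S35
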