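import Fermat.Agent.S35.SMO
import Fermat.Agent.S35.EigM
import Fermat.Agent.S22
import Fermat.Prelude.Def_CuspForm_Newforms

/-!
# S35 : NEW.  The eigensystem of a newform of level `N` does not occur at a proper divisor `M` of `N`,
even after transport along `iota : chig.range →+* O'`.
-/

set_option autoImplicit false

namespace Fermat.Agent.S35

open CuspForm ModularFormClass CongruenceSubgroup TensorProduct

/-- A ring homomorphism from the (finite over `ℤ`) coefficient ring of an eigensystem to a domain of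
characteristic zero is injective. -/
theorem new_iota_injective {N : ℕ} [NeZero N] (S : Set ℕ) {O' : Type*} [CommRing O'] [IsDomain O']
    [CharZero O'] (chig : heckeAlgebra N 2 S →+* ℂ) (iota : chig.range →+* O') :
    Function.Injective iota := by
  have : Module.Finite ℤ (heckeAlgebra N 2 S) := Fermat.Agent.S22.result N 2 S
  have : Algebra.IsIntegral ℤ (heckeAlgebra N 2 S) := Algebra.IsIntegral.of_finite ℤ _
  have : Algebra.IsIntegral ℤ chig.range := by
    refine ⟨fun x => ?_⟩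
    obtain ⟨t, ht⟩ := chig.rangeRestrict_surjective x
    rw [← ht]
    exact (Algebra.IsIntegral.isIntegral (R := ℤ) t).map chig.rangeRestrict.toIntAlgHom
  rw [RingHom.injective_iff_ker_eq_bot]
  apply Ideal.eq_bot_of_comap_eq_bot (R := ℤ)
  rw [eq_bot_iff]
  intro n hn
  rw [Ideal.mem_comap, RingHom.mem_ker] at hn
  have : ((n : ℤ) : O') = 0 := by
    rw [← hn]
    simp
  rw [Ideal.mem_bot]
  exact_mod_cast this

/-- Induction principle: the Hecke algebra away from `S` at level `M` is generated by the `T_ℓ`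
when `S` contains all primes dividing `M`. -/
theorem new_hecke_induction {M : ℕ} [NeZero M] (S : Set ℕ) (hMS : ∀ q : ℕ, q.Prime → q ∣ M → q ∈ S)
    (P : heckeAlgebra M 2 S → Prop)
    (hT : ∀ (ℓ : ℕ) (hℓ : ℓ.Prime) (hℓM : ¬ ℓ ∣ M) (hℓS : ℓ ∉ S), P (heckeAlgebra.T hℓ hℓM hℓS))
    (hint : ∀ n : ℤ, P (n : heckeAlgebra M 2 S))
    (hadd : ∀ x y, P x → P y → P (x + y)) (hmul : ∀ x y, P x → P y → P (x * y))
    (t : heckeAlgebra M 2 S) : P t := by
  obtain ⟨t, ht⟩ := t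
  induction ht using Algebra.adjoin_induction with
  | mem x hx =>
    rcases hx with ⟨ℓ, hℓ, hℓM, hℓS, rfl⟩ | ⟨q, hqM, hq, hqS, rfl⟩
    · exact hT ℓ hℓ hℓM hℓS
    · exact absurd (hMS q hq hqM) hqS
  | algebraMap n =>
    have := hint n
    convert this using 1
    apply Subtype.ext
    simp
  | add x y hx hy h1 h2 => exact hadd _ _ h1 h2
  | mul x y hx hy h1 h2 => exact hmul _ _ h1 h2

/-- **NEW.** The eigensystem of a newform of level `N` is not the eigensystem of a character of the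
Hecke algebra of a proper divisor `M` of `N`. -/
theorem new_no_character {N : ℕ} [NeZero N] {g : CuspForm (Gamma0 N) 2} (hg : g.IsNewform)
    (S : Finset ℕ) {O' : Type*} [CommRing O'] [IsDomain O'] [CharZero O']
    (chig : heckeAlgebra N 2 (↑S : Set ℕ) →+* ℂ)
    (hchig : ∀ (ℓ : ℕ) (hℓ : ℓ.Prime) (hℓN : ¬ ℓ ∣ N) (hℓS : ℓ ∉ (↑S : Set ℕ)),
      chig (heckeAlgebra.T hℓ hℓN hℓS) = qCoeff g ℓ)
    (iota : chig.range →+* O') (hNS : ∀ q : ℕ, q.Prime → q ∣ N → q ∈ S)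
    (M : ℕ) [NeZero M] (hMN : M ∣ N) (hne : M ≠ N)
    (ψ : heckeAlgebra M 2 (↑S : Set ℕ) →+* O')
    (hψ : ∀ (ℓ : ℕ) (hℓ : ℓ.Prime) (hℓM : ¬ ℓ ∣ M) (hℓN : ¬ ℓ ∣ N) (hℓS : ℓ ∉ (↑S : Set ℕ)),
      ψ (heckeAlgebra.T hℓ hℓM hℓS) =
        (iota.comp chig.rangeRestrict) (heckeAlgebra.T hℓ hℓN hℓS)) : False := by
  have hinj := new_iota_injective (↑S : Set ℕ) chig iota
  have hMS : ∀ q : ℕ, q.Prime → q ∣ M → q ∈ (↑S : Set ℕ) := fun q hq hqM =>
    hNS q hq (hqM.trans hMN)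
  have hSN : ∀ ℓ : ℕ, ℓ.Prime → ℓ ∉ (↑S : Set ℕ) → ¬ ℓ ∣ N := fun ℓ hℓ hℓS h => hℓS (hNS ℓ hℓ h)
  have hrange : ∀ t, ψ t ∈ iota.range := by
    intro t
    induction t using new_hecke_induction (↑S : Set ℕ) hMS with
    | hT ℓ hℓ hℓM hℓS =>
      rw [hψ ℓ hℓ hℓM (hSN ℓ hℓ hℓS) hℓS]
      exact ⟨_, rfl⟩
    | hint n => rw [map_intCast]; exact intCast_mem _ n
    | hadd x y hx hy => rw [map_add]; exact add_mem hx hy
    | hmul x y hx hy => rw [map_mul]; exact mul_mem hx hy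
  let e : chig.range ≃+* iota.range := RingEquiv.ofBijective iota.rangeRestrict
    ⟨fun a b hab => hinj (congrArg Subtype.val hab), iota.rangeRestrict_surjective⟩
  let ψC : heckeAlgebra M 2 (↑S : Set ℕ) →+* ℂ :=
    (chig.range.subtype.comp (e.symm : iota.range →+* chig.range)).comp
      (ψ.codRestrict iota.range hrange)
  have hψC : ∀ (ℓ : ℕ) (hℓ : ℓ.Prime) (hℓM : ¬ ℓ ∣ M) (hℓS : ℓ ∉ (↑S : Set ℕ)),
      ψC (heckeAlgebra.T hℓ hℓM hℓS) = qCoeff g ℓ := by
    intro ℓ hℓ hℓM hℓS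
    have hℓN := hSN ℓ hℓ hℓS
    have h1 : ψ.codRestrict iota.range hrange (heckeAlgebra.T hℓ hℓM hℓS) =
        e (chig.rangeRestrict (heckeAlgebra.T hℓ hℓN hℓS)) := by
      apply Subtype.ext
      exact hψ ℓ hℓ hℓM hℓN hℓS
    show ((e.symm (ψ.codRestrict iota.range hrange (heckeAlgebra.T hℓ hℓM hℓS)) : chig.range) : ℂ)
      = _
    rw [h1, RingEquiv.symm_apply_apply, ← hchig ℓ hℓ hℓN hℓS]
    rfl
  obtain ⟨g', hg', hcoef⟩ := exists_eigenform_of_char M S ψC
  refine hg.2 M hMN hne ⟨g', hg', ?_⟩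
  intro ℓ hℓ hℓN
  have hℓM : ¬ ℓ ∣ M := fun h => hℓN (h.trans hMN)
  refine (qCoeff_eq_of_eq_outside hg.1 hg' S ?_ ℓ hℓ hℓN hℓM).symm
  intro l hl hlS
  have hlS' : l ∉ (↑S : Set ℕ) := hlS
  have hlM : ¬ l ∣ M := fun h => hSN l hl hlS' (h.trans hMN)
  rw [hcoef l hl hlM hlS', hψC l hl hlM hlS']

/-- **NEW, eigenvector form.** Let the Hecke algebra of level `M` (a proper divisor of `N`) act on a
free `ℤ`-module `H`.  Every vector of `O' ⊗ H` on which the `T_ℓ` (`ℓ ∉ S`) act through the eigensystem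
of the newform `g` of level `N` vanishes. -/
theorem new_eigenvector_eq_zero {N : ℕ} [NeZero N] {g : CuspForm (Gamma0 N) 2} (hg : g.IsNewform)
    (S : Finset ℕ) {O' : Type*} [CommRing O'] [IsDomain O'] [CharZero O']
    (chig : heckeAlgebra N 2 (↑S : Set ℕ) →+* ℂ)
    (hchig : ∀ (ℓ : ℕ) (hℓ : ℓ.Prime) (hℓN : ¬ ℓ ∣ N) (hℓS : ℓ ∉ (↑S : Set ℕ)),
      chig (heckeAlgebra.T hℓ hℓN hℓS) = qCoeff g ℓ)
    (iota : chig.range →+* O') (hNS : ∀ q : ℕ, q.Prime → q ∣ N → q ∈ S)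
    (M : ℕ) [NeZero M] (hMN : M ∣ N) (hne : M ≠ N)
    {H : Type*} [AddCommGroup H] [Module.Free ℤ H]
    (actH : heckeAlgebra M 2 (∅ : Set ℕ) →+* Module.End ℤ H) (h : O' ⊗[ℤ] H)
    (hh : ∀ (ℓ : ℕ) (hℓ : ℓ.Prime) (hℓM : ¬ ℓ ∣ M) (hℓN : ¬ ℓ ∣ N) (hℓS : ℓ ∉ (↑S : Set ℕ)),
      (actH (heckeAlgebra.T hℓ hℓM (Set.notMem_empty ℓ))).baseChange O' h =
        (iota.comp chig.rangeRestrict) (heckeAlgebra.T hℓ hℓN hℓS) • h) : h = 0 := by
  by_contra h0
  have hMS : ∀ q : ℕ, q.Prime → q ∣ M → q ∈ (↑S : Set ℕ) := fun q hq hqM =>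
    hNS q hq (hqM.trans hMN)
  have hSN : ∀ ℓ : ℕ, ℓ.Prime → ℓ ∉ (↑S : Set ℕ) → ¬ ℓ ∣ N := fun ℓ hℓ hℓS h => hℓS (hNS ℓ hℓ h)
  let incl : heckeAlgebra M 2 (↑S : Set ℕ) →+* heckeAlgebra M 2 (∅ : Set ℕ) :=
    (Subalgebra.inclusion (heckeAlgebra_mono (Set.empty_subset (↑S : Set ℕ)))).toRingHom
  have huniq : ∀ c c' : O', c • h = c' • h → c = c' := by
    intro c c' hc
    have h1 : (c - c') • h = 0 := by rw [sub_smul, hc, sub_self]
    rcases smul_eq_zero.1 h1 with h2 | h2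
    · exact sub_eq_zero.1 h2
    · exact absurd h2 h0
  have hex : ∀ t : heckeAlgebra M 2 (↑S : Set ℕ), ∃ c : O',
      (actH (incl t)).baseChange O' h = c • h := by
    intro t
    induction t using new_hecke_induction (↑S : Set ℕ) hMS with
    | hT ℓ hℓ hℓM hℓS => exact ⟨_, hh ℓ hℓ hℓM (hSN ℓ hℓ hℓS) hℓS⟩
    | hint n =>
      refine ⟨(n : O'), ?_⟩
      rw [map_intCast, map_intCast]
      have e : ((n : Module.End ℤ H)) = n • (LinearMap.id : H →ₗ[ℤ] H) := by
        ext x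
        simp
      rw [e, LinearMap.baseChange_smul, LinearMap.baseChange_id, LinearMap.smul_apply,
        LinearMap.id_apply, Int.cast_smul_eq_zsmul]
    | hadd x y hx hy =>
      obtain ⟨c, hc⟩ := hx
      obtain ⟨d, hd⟩ := hy
      refine ⟨c + d, ?_⟩
      rw [map_add, map_add, LinearMap.baseChange_add, LinearMap.add_apply, hc, hd, add_smul]
    | hmul x y hx hy =>
      obtain ⟨c, hc⟩ := hx
      obtain ⟨d, hd⟩ := hy
      refine ⟨c * d, ?_⟩
      rw [map_mul, map_mul, Module.End.mul_eq_comp, LinearMap.baseChange_comp, LinearMap.comp_apply,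
        hd, map_smul, hc, smul_smul, mul_comm]
  choose c hc using hex
  let ψ : heckeAlgebra M 2 (↑S : Set ℕ) →+* O' :=
    { toFun := c
      map_one' := by
        apply huniq
        rw [← hc, map_one, map_one, one_smul, Module.End.one_eq_id, LinearMap.baseChange_id,
          LinearMap.id_apply]
      map_mul' := by
        intro x y
        apply huniq
        rw [← hc, map_mul, map_mul, Module.End.mul_eq_comp, LinearMap.baseChange_comp,
          LinearMap.comp_apply, hc y, map_smul, hc x, smul_smul, mul_comm]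
      map_zero' := by
        apply huniq
        rw [← hc, map_zero, map_zero, zero_smul, LinearMap.baseChange_zero, LinearMap.zero_apply]
      map_add' := by
        intro x y
        apply huniq
        rw [← hc, map_add, map_add, LinearMap.baseChange_add, LinearMap.add_apply, hc, hc,
          add_smul] }
  refine new_no_character hg S chig hchig iota hNS M hMN hne ψ ?_
  intro ℓ hℓ hℓM hℓN hℓS
  apply huniq
  show c _ • h = _
  rw [← hc]
  exact hh ℓ hℓ hℓM hℓN hℓS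

end Fermat.Agent.S35
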