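import Fermat.Agent.S35.AN
import Fermat.Agent.S35.Eqv
import Fermat.Agent.S35.New
import Fermat.Agent.S35.Key
import Fermat.Agent.S35.Cons

/-!
# S35: the hypothesis `hkey` of `consumer` (assembly of the pieces)
-/

set_option autoImplicit false

namespace Fermat.Agent.S35

open ModularCurve AlgebraicCurve HahnSeries Fermat.Agent.S24 Fermat.Agent.S18 Fermat.Agent.GR
open TensorProduct IsLocalRing

/-- a Hecke equivariant map of lattices maps eigenvectors to eigenvectors. -/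
theorem baseChange_eigen {N M : ℕ} [NeZero N] [NeZero M]
    {HN HM : Type} [AddCommGroup HN] [AddCommGroup HM]
    (TN : Module.End ℤ HN) (TM : Module.End ℤ HM) (τ : HN →+ HM)
    (hτ : ∀ h : HN, τ (TN h) = TM (τ h))
    {𝒪 : Type} [CommRing 𝒪] (c : 𝒪) (h : 𝒪 ⊗[ℤ] HN) (heig : TN.baseChange 𝒪 h = c • h) :
    TM.baseChange 𝒪 ((τ.toIntLinearMap).baseChange 𝒪 h) = c • (τ.toIntLinearMap).baseChange 𝒪 h := by
  have key : ∀ y : 𝒪 ⊗[ℤ] HN, TM.baseChange 𝒪 ((τ.toIntLinearMap).baseChange 𝒪 y) =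
      (τ.toIntLinearMap).baseChange 𝒪 (TN.baseChange 𝒪 y) := by
    intro y
    induction y using TensorProduct.induction_on with
    | zero => simp
    | tmul a x =>
      simp only [LinearMap.baseChange_tmul, AddMonoidHom.coe_toIntLinearMap, hτ]
    | add a b ha hb => simp only [map_add, ha, hb]
  rw [key, heig, map_smul]

theorem key_eigen {p q M : ℕ} [Fact p.Prime] [NeZero q] [NeZero M] [NeZero (q * M)]
    (hq : q.Prime) (hqM : ¬ q ∣ M) (hqp : q ≠ p)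
    {w : FN (q * M) ≃ₐ[Kb] FN (q * M)} (hw : IsWq q M w)
    {DN : AnData p (q * M)} {DM : AnData p M} (D2 : AnData2 p q M w DN DM)
    {g : CuspForm (CongruenceSubgroup.Gamma0 (q * M)) 2} (hg : g.IsNewform) (S : Finset ℕ)
    (O' : Type) [CommRing O'] [IsDomain O'] [CharZero O']
    (chig : CuspForm.heckeAlgebra (q * M) 2 (↑S : Set ℕ) →+* ℂ)
    (hchig : ∀ (ℓ : ℕ) (hℓ : ℓ.Prime) (hℓN : ¬ ℓ ∣ q * M) (hℓS : ℓ ∉ (↑S : Set ℕ)),
      chig (CuspForm.heckeAlgebra.T hℓ hℓN hℓS) = ModularFormClass.qCoeff g ℓ)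
    (iota : chig.range →+* O') (hpS : p ∈ S) (hNS : ∀ q' : ℕ, q'.Prime → q' ∣ q * M → q' ∈ S)
    (h : O' ⊗[ℤ] (towerOfAnData DN).H)
    (hheig : ∀ (ℓ : ℕ) (hℓ : ℓ.Prime) (hℓN : ¬ ℓ ∣ q * M) (hℓS : ℓ ∉ (↑S : Set ℕ)),
      ((towerOfAnData DN).actH (CuspForm.heckeAlgebra.T hℓ hℓN (Set.notMem_empty ℓ))).baseChange O' h =
        (iota.comp chig.rangeRestrict) (CuspForm.heckeAlgebra.T hℓ hℓN hℓS) • h)
    {A : ValuationSubring Kb} (hA : A.LiesOverPrime q) {σ : GQ} (hσ : A.IsFrobeniusAt σ q) :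
    ∃ d : O', d ≠ 0 ∧ ∀ (n : ℕ) (g' : GQ),
      d • (towerOfAnData DN).actM O' n σ ((towerOfAnData DN).actM O' n σ
          ((towerOfAnData DN).actM O' n σ ((towerOfAnData DN).actM O' n σ
            ((towerOfAnData DN).actM O' n g' ((towerOfAnData DN).ιM O' n h)))))
        + (-(d * ((q : O') ^ 2 + 1))) • (towerOfAnData DN).actM O' n σ
            ((towerOfAnData DN).actM O' n σ
              ((towerOfAnData DN).actM O' n g' ((towerOfAnData DN).ιM O' n h)))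
        + (d * (q : O') ^ 2) • (towerOfAnData DN).actM O' n g' ((towerOfAnData DN).ιM O' n h) = 0 := by
  have hMN : M ∣ q * M := Dvd.intro_left q rfl
  have hne : M ≠ q * M := by
    intro h0
    have hM0 : 0 < M := Nat.pos_of_ne_zero (NeZero.ne M)
    have := hq.one_lt
    nlinarith
  have hpne : ∀ ℓ : ℕ, ℓ ∉ (↑S : Set ℕ) → ℓ ≠ p := fun ℓ hℓS h0 => hℓS (by simpa [h0] using hpS)
  have h1 : (D2.trH.toIntLinearMap).baseChange O' h = 0 :=
    new_eigenvector_eq_zero hg S chig hchig iota hNS M hMN hne DM.actH _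
      (fun ℓ hℓ hℓM hℓN hℓS => baseChange_eigen (N := q * M) (M := M) _ _ D2.trH
        (fun x => D2.trH_T hq hqM hw hℓ hℓN hℓM (hpne ℓ hℓS) x) _ h (hheig ℓ hℓ hℓN hℓS))
  have h2 : (D2.trH'.toIntLinearMap).baseChange O' h = 0 :=
    new_eigenvector_eq_zero hg S chig hchig iota hNS M hMN hne DM.actH _
      (fun ℓ hℓ hℓM hℓN hℓS => baseChange_eigen (N := q * M) (M := M) _ _ D2.trH'
        (fun x => D2.trH'_T hq hqM hw hℓ hℓN hℓM (hpne ℓ hℓS) x) _ h (hheig ℓ hℓ hℓN hℓS))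
  obtain ⟨d, hd, hkey⟩ := key_tower D2 hq hqM hqp hw
  have hflat : Module.Flat ℤ O' := inferInstance
  have hspan := mem_span_of_baseChange_eq_zero₂ (𝒪 := O') D2.trH.toIntLinearMap
    D2.trH'.toIntLinearMap h h1 h2
  refine ⟨(d : O'), Nat.cast_ne_zero.mpr hd.ne', fun n g' => ?_⟩
  have h3 := rel_of_mem_span (towerOfAnData DN) O'
    {h₀ : DN.H | D2.trH h₀ = 0 ∧ D2.trH' h₀ = 0} σ (d : ℤ) (-((d : ℤ) * ((q : ℤ) ^ 2 + 1)))
    ((d : ℤ) * (q : ℤ) ^ 2) (fun h₀ hh₀ n g' => hkey A hA σ hσ h₀ hh₀.1 hh₀.2 n g') h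
    (by
      refine Submodule.span_mono ?_ hspan
      rintro z ⟨h₀, e1, e2, rfl⟩
      exact ⟨h₀, ⟨e1, e2⟩, rfl⟩) n g'
  push_cast at h3
  exact h3

end Fermat.Agent.S35
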