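import Fermat.Agent.S35.ANKum

/-!
# S35, analytic block: the deliverable `exists_anPair`
-/

set_option autoImplicit false

namespace Fermat.Agent.S35

open UpperHalfPlane ModularForm Filter Topology CongruenceSubgroup ModularCurve AlgebraicCurve
open Fermat.Agent.S20 Fermat.Agent.S23 Fermat.Agent.S24 Fermat.Agent.S29 Fermat.Agent.S34
open Fermat.Agent.GR
open scoped MatrixGroups Manifold ModularForm

/-- the `AnData` built from a choice of Kummer elements (copy of the proof of `S29.exists_anData`). -/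
noncomputable def anDataOf (p : ℕ) [Fact p.Prime] (N : ℕ) [NeZero N] (U : ℕ → HLat N → FN N)
    (hU : ∀ n h, IsKumL (p ^ n) h (U n h)) : AnData p N where
  H := HLat N
  actH := actH N
  actH_inj := actH_injective N
  u := U
  u_ne := fun n h => (hU n h).ne_zero
  u_ord := fun n h P => (hU n h).dvd_ord (pow_pos (Fact.out : p.Prime).pos n) P
  u_add := fun n h h' => by
    obtain ⟨w, -, hw⟩ := ((hU n h).add (hU n h')).unique (pow_pos (Fact.out : p.Prime).pos n)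
      (hU n (h + h'))
    exact ⟨w, hw⟩
  u_ker := fun n h hw => (hU n h).ker (pow_pos (Fact.out : p.Prime).pos n) hw
  u_tr := fun n h => by
    have h1 : IsKumL (p ^ n) h (U (n + 1) h) := by
      have := hU (n + 1) h
      rw [pow_succ] at this
      exact this.of_mul (Fact.out : p.Prime).pos
    obtain ⟨w, -, hw⟩ := (hU n h).unique (pow_pos (Fact.out : p.Prime).pos n) h1
    exact ⟨w, hw⟩
  u_T := by
    intro n ℓ _ hℓ hℓN _ h
    have : Fact ℓ.Prime := ⟨hℓ⟩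
    obtain ⟨ζ₀, hζ₀⟩ := HasEnoughRootsOfUnity.exists_primitiveRoot Kb ℓ
    set ζ : Kbˣ := hζ₀.isUnit (NeZero.ne ℓ) |>.unit with hζ
    have hζp : IsPrimitiveRoot ζ ℓ := by
      rw [← IsPrimitiveRoot.coe_units_iff]; exact hζ₀
    obtain ⟨hs, hk⟩ := (hU n h).hecke hℓN (pow_pos (Fact.out : p.Prime).pos n)
      (fun χ ψ hχ hψ => hχ.isHeckeChar hℓ hℓN hψ) hζp
    obtain ⟨w, -, hw⟩ := (hU n _).unique (pow_pos (Fact.out : p.Prime).pos n) hk
    refine ⟨ζ, w, hζp, ?_⟩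
    exact congrArg Subtype.val hw

/-- the `w` of `S34.exists_wq` satisfies `IsWq`. -/
theorem isWq_of {q M : ℕ} [NeZero q] (w : FN (q * M) →ₐ[Kb] FN (q * M))
    (h1 : ∀ f : FN (q * M), (f : LaurentSeries Kb) ∈ FN M →
        (w f : LaurentSeries Kb) = qExpand Kb q (f : LaurentSeries Kb))
    (h2 : ∀ (f : FN (q * M)) (g : LaurentSeries Kb), g ∈ FN M →
        (f : LaurentSeries Kb) = qExpand Kb q g → (w f : LaurentSeries Kb) = g) : IsWq q M w := by
  intro d _ _ hd f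
  refine ⟨fun hf => ?_, fun hf => ?_⟩
  · rw [h1 f (by rw [hf]; exact jd_mem hd), hf, qExpand_jd]
  · exact h2 f (jd d) (jd_mem hd) (by rw [hf, qExpand_jd])

section kumL

variable {q M : ℕ} [Fact q.Prime] [NeZero (q * M)] {m : ℕ}

/-- `w_q` on Kummer elements: `w (u_lam) = u_{wH lam}`, `wH = (famW B).H`. -/
theorem isKumL_w (B : Bez q M) {w : FN (q * M) →ₐ[Kb] FN (q * M)} (hw : IsWq q M w) (hm : 0 < m)
    {lam : HLat (q * M)} {u : FN (q * M)} (h : IsKumL m lam u) :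
    IsKumL m ((famW B).H lam) (w u) := by
  obtain ⟨χ, hχ, hu⟩ := h
  obtain ⟨ψ, hψ⟩ := exists_isChiOf m ((famW B).H lam)
  exact ⟨ψ, hψ, isKumChi_w B hw hm ((famW B).isTr_of_isChiOf hχ hψ) (hψ.pow_eq_one hm) hψ.isPar hu⟩

/-- the norm on Kummer elements: `N1 (u_lam) = u_{trH lam}`, `trH = (famTr B hqM).H`. -/
theorem isKumL_norm [NeZero q] [NeZero M] (B : Bez q M) (hqM : ¬ q ∣ M)
    {w : FN (q * M) →ₐ[Kb] FN (q * M)} (hw : IsWq q M w) (hm : 0 < m)
    {lam : HLat (q * M)} {u : FN (q * M)} (h : IsKumL m lam u) {ζ : Kbˣ}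
    (hζ : IsPrimitiveRoot ζ q) :
    ∃ hs : (u : LaurentSeries Kb) * Uop q (Pop ζ q (w u : LaurentSeries Kb)) ∈ FN M,
      IsKumL m ((famTr B hqM).H lam) ⟨_, hs⟩ := by
  obtain ⟨χ, hχ, hu⟩ := h
  obtain ⟨χ', hχ'⟩ := exists_isChiOf m ((famW B).H lam)
  obtain ⟨ψ, hψ⟩ := exists_isChiOf m ((famTr B hqM).H lam)
  obtain ⟨hs, hk⟩ := isKumChi_norm B hqM hw hm ((famW B).isTr_of_isChiOf hχ hχ') hχ'.isPar
    ((famTr B hqM).isTr_of_isChiOf hχ hψ) (hψ.pow_eq_one hm) hψ.isPar hu hζ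
  exact ⟨hs, ψ, hψ, hk⟩

end kumL

/-- **The deliverable of the analytic block of S35.** -/
theorem exists_anPair (p : ℕ) [Fact p.Prime] {q M : ℕ} [NeZero (q * M)] [NeZero M] [NeZero q]
    (hq : q.Prime) (hqM : ¬ q ∣ M) :
    ∃ (D : AnData p (q * M)) (D' : AnData p M) (wH : D.H →ₗ[ℤ] D.H) (trH : D.H →ₗ[ℤ] D'.H),
      (∀ w : FN (q * M) →ₐ[Kb] FN (q * M), IsWq q M w → ∀ n h,
        ∃ v : FN (q * M), w (D.u n h) = D.u n (wH h) * v ^ (p ^ n)) ∧
      (∀ w : FN (q * M) →ₐ[Kb] FN (q * M), IsWq q M w → ∀ ζ : Kbˣ, IsPrimitiveRoot ζ q → ∀ n h,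
        ∃ v : FN M, (D.u n h : LaurentSeries Kb) * Uop q (Pop ζ q (w (D.u n h) : LaurentSeries Kb)) =
          ((D'.u n (trH h) * v ^ (p ^ n) : FN M) : LaurentSeries Kb)) ∧
      (∀ w : FN (q * M) →ₐ[Kb] FN (q * M), IsWq q M w → ∀ ζ : Kbˣ, IsPrimitiveRoot ζ q → ∀ n h,
        ∃ v : FN M, (w (D.u n h) : LaurentSeries Kb) *
            Uop q (Pop ζ q (w (w (D.u n h)) : LaurentSeries Kb)) =
          ((D'.u n (trH (wH h)) * v ^ (p ^ n) : FN M) : LaurentSeries Kb)) := by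
  classical
  have : Fact q.Prime := ⟨hq⟩
  have hp : 0 < p := (Fact.out : p.Prime).pos
  have hpn : ∀ n : ℕ, 0 < p ^ n := fun n => pow_pos hp n
  obtain ⟨B⟩ := exists_bez hq hqM
  choose U hU using fun (n : ℕ) (h : HLat (q * M)) => exists_isKumL (hpn n) h
  choose U' hU' using fun (n : ℕ) (h : HLat M) => exists_isKumL (hpn n) h
  refine ⟨anDataOf p (q * M) U hU, anDataOf p M U' hU', (famW B).H, (famTr B hqM).H, ?_, ?_, ?_⟩
  · intro w hw n h
    obtain ⟨v, -, hv⟩ := (hU n ((famW B).H h)).unique (hpn n) (isKumL_w B hw (hpn n) (hU n h))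
    exact ⟨v, hv⟩
  · intro w hw ζ hζ n h
    obtain ⟨hs, hk⟩ := isKumL_norm B hqM hw (hpn n) (hU n h) hζ
    obtain ⟨v, -, hv⟩ := (hU' n ((famTr B hqM).H h)).unique (hpn n) hk
    exact ⟨v, congrArg Subtype.val hv⟩
  · intro w hw ζ hζ n h
    obtain ⟨hs, hk⟩ := isKumL_norm B hqM hw (hpn n) (isKumL_w B hw (hpn n) (hU n h)) hζ
    obtain ⟨v, -, hv⟩ := (hU' n ((famTr B hqM).H ((famW B).H h))).unique (hpn n) hk
    exact ⟨v, congrArg Subtype.val hv⟩

end Fermat.Agent.S35
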