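import Fermat.Agent.S35.N1
import Fermat.Agent.S35.ANMain

/-!
# S35: the analytic block in the form used by the assembly (one family of analytic data for all levels)
-/

set_option autoImplicit false

namespace Fermat.Agent.S35

open ModularCurve AlgebraicCurve HahnSeries Fermat.Agent.S24 Fermat.Agent.S18 Fermat.Agent.GR
open Fermat.Agent.S29

theorem IsWq.toS34 {q M : ℕ} [NeZero q] {w : FN (q * M) ≃ₐ[Kb] FN (q * M)} (hw : IsWq q M w) :
    Fermat.Agent.S34.IsWq q M w.toAlgHom := by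
  refine isWq_of _ hw.incl ?_
  intro f g hg hfg
  have h1 := hw.incl (inclFN (Dvd.intro_left q rfl) ⟨g, hg⟩) (by rw [coe_inclFN]; exact hg)
  rw [coe_inclFN] at h1
  have h2 : w (inclFN (Dvd.intro_left q rfl) ⟨g, hg⟩) = f := Subtype.ext (by rw [h1, hfg])
  show ((w f : FN (q * M)) : LaurentSeries Kb) = g
  rw [← h2, hw.invol, coe_inclFN]

/-- **AN.**  ONE family of analytic data `D N` (all levels) which is compatible with the norm `N1` and with `N1 ∘ w_q` for ALL `q ∥ N`.  (The family has to be chosen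
before `q`, because the representation of S35 is constructed once, from `towerOfAnData (D N)`.) -/
theorem exists_anFamily (p : ℕ) [Fact p.Prime] :
    ∃ D : ∀ (N : ℕ) [NeZero N], AnData p N,
      ∀ (q M : ℕ) [NeZero q] [NeZero M] [NeZero (q * M)], q.Prime → ¬ q ∣ M →
        ∀ w : FN (q * M) ≃ₐ[Kb] FN (q * M), IsWq q M w →
          Nonempty (AnData2 p q M w (D (q * M)) (D M)) := by
  classical
  have hp : 0 < p := (Fact.out : p.Prime).pos
  have hpn : ∀ n : ℕ, 0 < p ^ n := fun n => pow_pos hp n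
  choose U hU using fun (N : ℕ) (hN : NeZero N) (n : ℕ) (h : HLat N) => exists_isKumL (hpn n) h
  refine ⟨fun N hN => anDataOf p N (U N hN) (hU N hN), ?_⟩
  intro q M iq iM iqM hq hqM w hw
  have : Fact q.Prime := ⟨hq⟩
  obtain ⟨B⟩ := exists_bez hq hqM
  obtain ⟨wH, hwH⟩ := (famW B).exists_H
  obtain ⟨trH, htrH⟩ := (famTr B hqM).exists_H
  have hw' := hw.toS34
  obtain ⟨ζ₀, hζ₀⟩ := HasEnoughRootsOfUnity.exists_primitiveRoot Kb q
  set ζ : Kbˣ := hζ₀.isUnit (NeZero.ne q) |>.unit with hζdef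
  have hζ : IsPrimitiveRoot ζ q := by
    rw [← IsPrimitiveRoot.coe_units_iff]; exact hζ₀
  have key1 : ∀ n (h : HLat (q * M)), ∃ v : FN (q * M),
      w (U (q * M) iqM n h) = U (q * M) iqM n (wH h) * v ^ (p ^ n) := by
    intro n h
    obtain ⟨χ, hχ, hu⟩ := hU (q * M) iqM n h
    obtain ⟨ψ, hψ⟩ := exists_isChiOf (p ^ n) (wH h)
    have h1 : IsKumL (p ^ n) (wH h) (w.toAlgHom (U (q * M) iqM n h)) :=
      ⟨ψ, hψ, isKumChi_w B hw' (hpn n) (hwH _ _ _ _ hχ hψ) (hψ.pow_eq_one (hpn n)) hψ.isPar hu⟩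
    obtain ⟨v, -, hv⟩ := (hU (q * M) iqM n (wH h)).unique (hpn n) h1
    exact ⟨v, hv⟩
  have key2 : ∀ n (h : HLat (q * M)), ∃ v : FN M,
      N1 w ζ (U (q * M) iqM n h) = ((U M iM n (trH h) * v ^ (p ^ n) : FN M) : LaurentSeries Kb) := by
    intro n h
    obtain ⟨χ, hχ, hu⟩ := hU (q * M) iqM n h
    obtain ⟨χ', hχ'⟩ := exists_isChiOf (p ^ n) (wH h)
    obtain ⟨ψ, hψ⟩ := exists_isChiOf (p ^ n) (trH h)
    obtain ⟨hs, hk⟩ := isKumChi_norm B hqM hw' (hpn n) (hwH _ _ _ _ hχ hχ') hχ'.isPar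
      (htrH _ _ _ _ hχ hψ) (hψ.pow_eq_one (hpn n)) hψ.isPar hu hζ
    obtain ⟨v, -, hv⟩ := (hU M iM n (trH h)).unique (hpn n) ⟨ψ, hψ, hk⟩
    exact ⟨v, congrArg Subtype.val hv⟩
  refine ⟨{ trH := trH.toAddMonoidHom, trH' := (trH.comp wH).toAddMonoidHom, u_tr := ?_, u_tr' := ?_ }⟩
  · intro n h
    obtain ⟨v, hv⟩ := key2 n h
    exact ⟨ζ, v, hζ, hv⟩
  · intro n h
    obtain ⟨v, hv⟩ := key1 n h
    obtain ⟨x, hx⟩ := key2 n (wH h)
    refine ⟨ζ, x * ⟨N1 w ζ v, N1_mem hw hζ hq hqM v⟩, hζ, ?_⟩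
    show N1 w ζ (w (U (q * M) iqM n h)) = _
    rw [hv, N1_mul hζ, N1_pow hζ, hx]
    show _ = ((U M iM n (trH (wH h)) * (x * ⟨N1 w ζ v, N1_mem hw hζ hq hqM v⟩) ^ (p ^ n) : FN M) :
      LaurentSeries Kb)
    rw [mul_pow, ← mul_assoc]
    rfl

end Fermat.Agent.S35
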