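import Fermat.Agent.S29.ANMain
import Fermat.Agent.S34.WQ

/-!
# S35, analytic block: definitions (no sorry in this file)

`Fam N N' ι`: a finite family of real matrices `δ_x` of positive determinant which induces a correspondence from level
`N` to level `N'`: for every `g ∈ Γ₀(N')` there are a permutation `π` and `g'_x ∈ Γ₀(N)` with `δ_x g = g'_x δ_{π x}`.

* `A.IsTr χ ψ` : `ψ` is the transfer of `χ`: `ψ g = ∏_x χ (g'_x)`;
* `A.P k E`    : the product `∏_x E ∣[k] δ_x`.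

Instances (`S35/ANInst.lean`): `famW B` (Atkin-Lehner, `ι = Unit`), `famTr B` (norm from level `q M` to level `M`).
-/

set_option autoImplicit false

namespace Fermat.Agent.S35

open UpperHalfPlane ModularForm Filter Topology CongruenceSubgroup ModularCurve
open Fermat.Agent.S20 Fermat.Agent.S23 Fermat.Agent.S24 Fermat.Agent.S29
open Matrix.SpecialLinearGroup
open scoped MatrixGroups Manifold ModularForm

/-- a family of matrices inducing a correspondence from level `N` to level `N'`. -/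
structure Fam (N N' : ℕ) (ι : Type) where
  δ : ι → GL (Fin 2) ℝ
  det_pos : ∀ x, 0 < (δ x).det.val
  ex : ∀ g : Gamma0 N', ∃ (π : Equiv.Perm ι) (g' : ι → Gamma0 N),
    ∀ x, δ x * mapGL ℝ (g : SL(2, ℤ)) = mapGL ℝ (g' x : SL(2, ℤ)) * δ (π x)
  cusp : ∀ (g : SL(2, ℤ)) (x : ι), ∃ (g' : SL(2, ℤ)) (τ : GL (Fin 2) ℝ), τ 1 0 = 0 ∧
    δ x * mapGL ℝ g = mapGL ℝ g' * τ

variable {N N' : ℕ} {ι : Type}

/-- `ψ` is the transfer of `χ`. -/
def Fam.IsTr [Fintype ι] (A : Fam N N' ι) (χ : Gamma0 N →* ℂˣ) (ψ : Gamma0 N' →* ℂˣ) : Prop :=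
  ∀ (g : Gamma0 N') (π : Equiv.Perm ι) (g' : ι → Gamma0 N),
    (∀ x, A.δ x * mapGL ℝ (g : SL(2, ℤ)) = mapGL ℝ (g' x : SL(2, ℤ)) * A.δ (π x)) →
    ψ g = ∏ x, χ (g' x)

/-- the product of the slashes. -/
noncomputable def Fam.P [Fintype ι] (A : Fam N N' ι) (k : ℤ) (E : ℍ → ℂ) : ℍ → ℂ :=
  ∏ x, E ∣[k] A.δ x

/-- a Bezout relation `q c - M b = 1`. -/
structure Bez (q M : ℕ) where
  b : ℤ
  c : ℤ
  h : (q : ℤ) * c - (M : ℤ) * b = 1

theorem exists_bez {q M : ℕ} (hq : q.Prime) (hqM : ¬ q ∣ M) : Nonempty (Bez q M) := by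
  have hcop : IsCoprime (q : ℤ) (M : ℤ) :=
    Nat.isCoprime_iff_coprime.mpr ((Nat.Prime.coprime_iff_not_dvd hq).mpr hqM)
  obtain ⟨u, v, huv⟩ := hcop
  exact ⟨⟨-v, u, by linear_combination huv⟩⟩

variable {q M : ℕ}

/-- `γ₀ = [[1, b], [M, q c]] ∈ Γ₀(M)`. -/
def Bez.gam (B : Bez q M) : SL(2, ℤ) :=
  ⟨!![1, B.b; (M : ℤ), (q : ℤ) * B.c], by
    rw [Matrix.det_fin_two_of]
    linear_combination B.h⟩

/-- the Atkin-Lehner matrix `W = [[q, b], [q M, q c]] = γ₀ * diag(q, 1)`. -/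
noncomputable def Bez.W [Fact q.Prime] (B : Bez q M) : GL (Fin 2) ℝ :=
  Fermat.Agent.S34.wqMat q M B.b B.c (Fact.out : q.Prime).pos B.h

/-- representatives of `Γ₀(q M) \ Γ₀(M)`: `κ_∞ = 1`, `κ_j = γ₀ T^j`. -/
def Bez.kap (B : Bez q M) (x : OnePoint (ZMod q)) : SL(2, ℤ) :=
  x.elim 1 (fun j => B.gam * ModularGroup.T ^ j.val)

theorem Bez.kap_infty (B : Bez q M) : B.kap OnePoint.infty = 1 := rfl

theorem Bez.kap_coe (B : Bez q M) (j : ZMod q) :
    B.kap (j : OnePoint (ZMod q)) = B.gam * ModularGroup.T ^ j.val := rfl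

end Fermat.Agent.S35
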