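import Fermat.Agent.S35.ANDefs

/-!
# S35, analytic block, piece AN-FAM: the abstract theory of a family `A : Fam N N' ι`

* `Fam.P_mem_Mchi` : `∏_x E ∣[k] δ_x` is a form of level `N'` with the transferred character;
* `Fam.op`         : `f ↦ ∑_x f ∣[2] δ_x`, `S₂(N) → S₂(N')`;
* `Fam.per_op`     : `per_{N'}(g)(op f) = ∑_x per_N(g'_x)(f)`;
* `Fam.lat`, `Fam.H`, `Fam.isTr_of_isChiOf`.
-/

set_option autoImplicit false

namespace Fermat.Agent.S35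

open UpperHalfPlane ModularForm Filter Topology CongruenceSubgroup ModularCurve
open Fermat.Agent.S20 Fermat.Agent.S23 Fermat.Agent.S24 Fermat.Agent.S29
open Matrix.SpecialLinearGroup
open scoped MatrixGroups Manifold ModularForm

variable {N N' : ℕ} {ι : Type} [Fintype ι] (A : Fam N N' ι)
variable {χ : Gamma0 N →* ℂˣ} {ψ : Gamma0 N' →* ℂˣ} {k : ℤ} {E D : ℍ → ℂ}

omit [Fintype ι] in
theorem Fam.σ_eq (x : ι) : UpperHalfPlane.σ (A.δ x) = .refl ℝ ℂ := by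
  rw [UpperHalfPlane.σ, if_pos (A.det_pos x)]

theorem Fam.P_slash (k : ℤ) (E : ℍ → ℂ) (g : SL(2, ℤ)) :
    A.P k E ∣[k * (Fintype.card ι : ℤ)] g = ∏ x, E ∣[k] (A.δ x * mapGL ℝ g) := by
  change A.P k E ∣[k * (Fintype.card ι : ℤ)] (mapGL ℝ g) = _
  rw [Fam.P, ← Finset.card_univ, prod_slash]
  have hdet : |(mapGL ℝ g).det.val| = 1 := by simp
  rw [hdet, one_zpow, one_smul]
  refine Finset.prod_congr rfl fun x _ => ?_
  rw [← SlashAction.slash_mul]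

/-- **F1.** -/
theorem Fam.P_mem_Mchi (hψ : A.IsTr χ ψ) (hE : E ∈ Mchi (Gamma0 N) χ k) :
    A.P k E ∈ Mchi (Gamma0 N') ψ (k * Fintype.card ι) := by
  refine ⟨MDifferentiable.prod (t := Finset.univ) (fun _ _ => hE.1.slash k _), fun g => ?_,
    fun g => ?_⟩
  · obtain ⟨π, g', hg'⟩ := A.ex g
    rw [A.P_slash, hψ g π g' hg']
    have h1 : ∀ x, E ∣[k] (A.δ x * mapGL ℝ (g : SL(2, ℤ))) = (χ (g' x) : ℂ) • (E ∣[k] A.δ (π x)) := by
      intro x
      rw [hg' x, SlashAction.slash_mul]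
      have h2 : E ∣[k] mapGL ℝ (g' x : SL(2, ℤ)) = (χ (g' x) : ℂ) • E := hE.2.1 (g' x)
      rw [h2, ModularForm.smul_slash, A.σ_eq]
      rfl
    simp_rw [h1]
    rw [Finset.prod_smul, Units.coe_prod]
    congr 1
    exact Equiv.prod_comp π (fun x ↦ E ∣[k] A.δ x)
  · rw [A.P_slash]
    refine Filter.BoundedAtFilter.prod (s := Finset.univ) fun x _ => ?_
    obtain ⟨g', τ, hτ, h⟩ := A.cusp g x
    rw [h, SlashAction.slash_mul]
    exact (hE.2.2 g').slash k hτ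

theorem Fam.P_ne_zero (hE : MDiff E) (hE0 : E ≠ 0) : A.P k E ≠ 0 := by
  refine HK.prod_ne_zero_of_mdiff _ _ (fun x _ => hE.slash k _) (fun x _ h => hE0 ?_)
  have h1 : (E ∣[k] A.δ x) ∣[k] (A.δ x)⁻¹ = 0 := by rw [h, SlashAction.zero_slash]
  rwa [← SlashAction.slash_mul, mul_inv_cancel, SlashAction.slash_one] at h1

theorem Fam.isTr_one : A.IsTr 1 1 := by
  intro g π g' _
  simp

theorem Fam.P_mem_MFs (hD : D ∈ MFs (Gamma0 N) k) :
    A.P k D ∈ MFs (Gamma0 N') (k * Fintype.card ι) := by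
  rw [← Mchi_one] at hD ⊢
  exact A.P_mem_Mchi A.isTr_one hD

variable [NeZero N] [NeZero N']

/-- the cusp form `∑_x f ∣[2] δ_x`. -/
noncomputable def Fam.opFun (f : CuspForm (Gamma0 N) 2) : CuspForm (Gamma0 N') 2 where
  toFun := ∑ x, (⇑f : ℍ → ℂ) ∣[(2 : ℤ)] A.δ x
  slash_action_eq' := by
    rintro _ ⟨γ, hγ, rfl⟩
    obtain ⟨π, g', hg'⟩ := A.ex ⟨γ, hγ⟩
    rw [SlashAction.sum_slash]
    have h1 : ∀ x, ((⇑f : ℍ → ℂ) ∣[(2 : ℤ)] A.δ x) ∣[(2 : ℤ)] (mapGL ℝ γ) =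
        (⇑f : ℍ → ℂ) ∣[(2 : ℤ)] A.δ (π x) := by
      intro x
      have h2 : (⇑f : ℍ → ℂ) ∣[(2 : ℤ)] mapGL ℝ (g' x : SL(2, ℤ)) = ⇑f :=
        SlashInvariantFormClass.slash_action_eq f _ (mapGL_mem_Gamma0 (g' x))
      rw [← SlashAction.slash_mul, hg' x, SlashAction.slash_mul, h2]
    rw [Finset.sum_congr rfl fun x _ => h1 x]
    exact Equiv.sum_comp π (fun x ↦ (⇑f : ℍ → ℂ) ∣[(2 : ℤ)] A.δ x)
  holo' := MDifferentiable.sum (t := Finset.univ) (fun _ _ => (CuspFormClass.holo f).slash _ _)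
  zero_at_cusps' := by
    intro c hc
    rw [Subgroup.IsArithmetic.isCusp_iff_isCusp_SL2Z] at hc
    rw [OnePoint.isZeroAt_iff_forall_SL2Z hc]
    intro γ _
    change IsZeroAtImInfty ((∑ x, (⇑f : ℍ → ℂ) ∣[(2 : ℤ)] A.δ x) ∣[(2 : ℤ)] (mapGL ℝ γ))
    rw [SlashAction.sum_slash]
    have h0 : ∀ x, IsZeroAtImInfty (((⇑f : ℍ → ℂ) ∣[(2 : ℤ)] A.δ x) ∣[(2 : ℤ)] (mapGL ℝ γ)) := by
      intro x
      obtain ⟨g', τ, hτ, h⟩ := A.cusp γ x
      rw [← SlashAction.slash_mul, h, SlashAction.slash_mul]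
      exact (CuspFormClass.zero_at_infty_slash f g').slash 2 hτ
    unfold IsZeroAtImInfty ZeroAtFilter at h0 ⊢
    have := tendsto_finsetSum Finset.univ (fun x _ => h0 x)
    rw [Finset.sum_const_zero] at this
    refine this.congr fun z => ?_
    rw [Finset.sum_apply]

theorem Fam.coe_opFun (f : CuspForm (Gamma0 N) 2) :
    (⇑(A.opFun f) : ℍ → ℂ) = ∑ x, (⇑f : ℍ → ℂ) ∣[(2 : ℤ)] A.δ x := rfl

/-- **F2.** the operator `f ↦ ∑_x f ∣[2] δ_x` on cusp forms of weight two. -/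
noncomputable def Fam.op : CuspForm (Gamma0 N) 2 →ₗ[ℂ] CuspForm (Gamma0 N') 2 where
  toFun := A.opFun
  map_add' f g := by
    apply DFunLike.coe_injective
    rw [FunLike.coe_add, A.coe_opFun, A.coe_opFun, A.coe_opFun, FunLike.coe_add,
      ← Finset.sum_add_distrib]
    exact Finset.sum_congr rfl fun x _ => SlashAction.add_slash _ _ _ _
  map_smul' c f := by
    apply DFunLike.coe_injective
    rw [RingHom.id_apply, FunLike.coe_smul, A.coe_opFun, A.coe_opFun, FunLike.coe_smul,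
      Finset.smul_sum]
    refine Finset.sum_congr rfl fun x _ => ?_
    rw [ModularForm.smul_slash, A.σ_eq]
    rfl

theorem Fam.coe_op (f : CuspForm (Gamma0 N) 2) :
    (⇑(A.op f) : ℍ → ℂ) = ∑ x, (⇑f : ℍ → ℂ) ∣[(2 : ℤ)] A.δ x := rfl

theorem Fam.exists_op : ∃ T : CuspForm (Gamma0 N) 2 →ₗ[ℂ] CuspForm (Gamma0 N') 2,
    ∀ f, (⇑(T f) : ℍ → ℂ) = ∑ x, (⇑f : ℍ → ℂ) ∣[(2 : ℤ)] A.δ x :=
  ⟨A.op, A.coe_op⟩


omit [NeZero N'] in
/-- the period can be computed with any primitive. -/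
theorem per_apply_of_prim (f : CuspForm (Gamma0 N) 2) {F : ℍ → ℂ}
    (hF : ∀ τ : ℍ, HasDerivAt (F ∘ ofComplex) (f τ) τ) (g : Gamma0 N) (z : ℍ) :
    ((per N g : Fermat.Agent.S22.Lat N 0) :
      Module.Dual ℂ (CuspForm (Gamma0 N) (((0 : ℕ) : ℤ) + 2))) f =
      F ((g : SL(2, ℤ)) • z) - F z := by
  rw [per_apply g f, Fermat.Agent.S21.periodMap_apply N f g z]
  have hc := Fermat.Agent.S22.const_of_hasDerivAt_zero
    (F := fun w => F w - Fermat.Agent.S21.prim f w) (fun τ => by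
      have := (hF τ).sub ((Fermat.Agent.S21.isPrim_prim f).1 τ)
      rwa [sub_self] at this) ((g : SL(2, ℤ)) • z) z
  linear_combination -hc

/-- **F3.** -/
theorem Fam.per_op (g : Gamma0 N') (π : Equiv.Perm ι) (g' : ι → Gamma0 N)
    (hmul : ∀ x, A.δ x * mapGL ℝ (g : SL(2, ℤ)) = mapGL ℝ (g' x : SL(2, ℤ)) * A.δ (π x))
    (f : CuspForm (Gamma0 N) 2) :
    ((per N' g : Fermat.Agent.S22.Lat N' 0) :
      Module.Dual ℂ (CuspForm (Gamma0 N') (((0 : ℕ) : ℤ) + 2))) (A.op f) =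
    ∑ x, ((per N (g' x) : Fermat.Agent.S22.Lat N 0) :
      Module.Dual ℂ (CuspForm (Gamma0 N) (((0 : ℕ) : ℤ) + 2))) f := by
  set F := Fermat.Agent.S21.prim f with hFdef
  have hF : ∀ τ : ℍ, HasDerivAt (F ∘ ofComplex) (f τ) τ := (Fermat.Agent.S21.isPrim_prim f).1
  have hpos : ∀ x, 0 < (A.δ x).val.det := fun x => by
    have := A.det_pos x
    rwa [Matrix.GeneralLinearGroup.val_det_apply] at this
  have hF' : ∀ τ : ℍ, HasDerivAt ((fun z : ℍ => ∑ x, F (A.δ x • z)) ∘ ofComplex) (A.op f τ) τ := by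
    intro τ
    have h1 : ∀ x ∈ (Finset.univ : Finset ι),
        HasDerivAt ((fun τ' : ℍ => F (A.δ x • τ')) ∘ ofComplex)
        (((⇑f : ℍ → ℂ) ∣[(2 : ℤ)] A.δ x) τ) τ := by
      intro x _
      have h2 := Fermat.Agent.S22.hasDerivAt_comp_smul (F := F) (hpos x) τ (hF (A.δ x • τ))
      have h3 := Fermat.Agent.S22.slash_apply_of_det_pos (⇑f) 0 (hpos x) τ
      have h4 : ((⇑f : ℍ → ℂ) ∣[(2 : ℤ)] A.δ x) τ = ((⇑f : ℍ → ℂ) ∣[((0 : ℕ) : ℤ) + 2] A.δ x) τ := by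
        norm_num
      rw [h4, h3]
      convert h2 using 1
      simp
      ring
    have h5 := HasDerivAt.sum h1
    rw [A.coe_op, Finset.sum_apply]
    have e : ((fun z : ℍ => ∑ x, F (A.δ x • z)) ∘ ofComplex) =
        ∑ i, (fun τ' : ℍ => F (A.δ i • τ')) ∘ ofComplex := by
      funext w
      simp [Finset.sum_apply]
    rw [e]
    exact h5
  rw [per_apply_of_prim (A.op f) hF' g UpperHalfPlane.I]
  rw [← Equiv.sum_comp π (fun x => F (A.δ x • UpperHalfPlane.I)), ← Finset.sum_sub_distrib]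
  refine Finset.sum_congr rfl fun x _ => ?_
  rw [per_apply_of_prim f hF (g' x) (A.δ (π x) • UpperHalfPlane.I)]
  congr 2
  have e1 : A.δ x • ((g : SL(2, ℤ)) • UpperHalfPlane.I) =
      (A.δ x * mapGL ℝ (g : SL(2, ℤ))) • UpperHalfPlane.I := by
    rw [mul_smul]; rfl
  rw [e1, hmul x, mul_smul]
  rfl


section lat
open Fermat.Agent.S22

/-- `op` with the weight written as in `S22`. -/
noncomputable def Fam.op' : CuspForm (Gamma0 N) (((0 : ℕ) : ℤ) + 2) →ₗ[ℂ]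
    CuspForm (Gamma0 N') (((0 : ℕ) : ℤ) + 2) := A.op

theorem Fam.per_comp_op' (g : Gamma0 N') (π : Equiv.Perm ι) (g' : ι → Gamma0 N)
    (hmul : ∀ x, A.δ x * mapGL ℝ (g : SL(2, ℤ)) = mapGL ℝ (g' x : SL(2, ℤ)) * A.δ (π x)) :
    ((per N' g : Lat N' 0) : Module.Dual ℂ (CuspForm (Gamma0 N') (((0 : ℕ) : ℤ) + 2))) ∘ₗ A.op' =
    ((∑ x, per N (g' x) : Lat N 0) : Module.Dual ℂ (CuspForm (Gamma0 N) (((0 : ℕ) : ℤ) + 2))) := by
  refine LinearMap.ext fun f => ?_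
  rw [AddSubmonoidClass.coe_finsetSum, LinearMap.sum_apply]
  exact A.per_op g π g' hmul f

theorem Fam.comp_mem_Lat (l : Lat N' 0) :
    (l : Module.Dual ℂ (CuspForm (Gamma0 N') (((0 : ℕ) : ℤ) + 2))) ∘ₗ A.op' ∈ Lat N 0 := by
  have hl : l ∈ Submodule.span ℤ (Set.range (per N')) := by
    rw [span_range_per]; trivial
  induction hl using Submodule.span_induction with
  | mem l hl =>
    obtain ⟨g, rfl⟩ := hl
    obtain ⟨π, g', hg'⟩ := A.ex g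
    rw [A.per_comp_op' g π g' hg']
    exact Subtype.property _
  | zero =>
    rw [Submodule.coe_zero, LinearMap.zero_comp]
    exact zero_mem _
  | add l₁ l₂ _ _ ih₁ ih₂ =>
    rw [Submodule.coe_add, LinearMap.add_comp]
    exact add_mem ih₁ ih₂
  | smul a l _ ih =>
    have : ((a • l : Lat N' 0) : Module.Dual ℂ (CuspForm (Gamma0 N') (((0 : ℕ) : ℤ) + 2))) ∘ₗ A.op'
        = a • ((l : Module.Dual ℂ (CuspForm (Gamma0 N') (((0 : ℕ) : ℤ) + 2))) ∘ₗ A.op') := by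
      ext v
      simp
    rw [this]
    exact Submodule.smul_mem _ a ih

/-- `l ↦ l ∘ op` on the period lattices. -/
noncomputable def Fam.lat : Lat N' 0 →ₗ[ℤ] Lat N 0 where
  toFun l := ⟨_, A.comp_mem_Lat l⟩
  map_add' l l' := by
    apply Subtype.ext
    simp [LinearMap.add_comp]
  map_smul' r l := by
    apply Subtype.ext
    ext v
    simp

theorem Fam.lat_per (g : Gamma0 N') (π : Equiv.Perm ι) (g' : ι → Gamma0 N)
    (hmul : ∀ x, A.δ x * mapGL ℝ (g : SL(2, ℤ)) = mapGL ℝ (g' x : SL(2, ℤ)) * A.δ (π x)) :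
    A.lat (per N' g) = ∑ x, per N (g' x) :=
  Subtype.ext (A.per_comp_op' g π g' hmul)

/-- the map on `H = Hom(Lat, ℤ)`. -/
noncomputable def Fam.H : HLat N →ₗ[ℤ] HLat N' := LinearMap.lcomp ℤ ℤ A.lat

theorem Fam.H_apply (lam : HLat N) (l : Lat N' 0) : A.H lam l = lam (A.lat l) := rfl

end lat

theorem Fam.isTr_of_isChiOf {m : ℕ} {lam : HLat N} {χ : Gamma0 N →* ℂˣ} {ψ : Gamma0 N' →* ℂˣ}
    (h : IsChiOf m lam χ) (h' : IsChiOf m (A.H lam) ψ) : A.IsTr χ ψ := by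
  intro g π g' hmul
  ext
  rw [h' g, Units.coe_prod]
  have h1 : A.H lam (per N' g) = ∑ x, lam (per N (g' x)) := by
    rw [A.H_apply, A.lat_per g π g' hmul, map_sum]
  rw [h1, Finset.prod_congr rfl fun x _ => h (g' x), ← Complex.exp_sum]
  congr 1
  rw [Int.cast_sum, Finset.mul_sum, Finset.sum_div]

/-- **F4.** the map on the lattices `H = Hom(Lat, ℤ)`. -/
theorem Fam.exists_H : ∃ T : HLat N →ₗ[ℤ] HLat N',
    ∀ (m : ℕ) (lam : HLat N) (χ : Gamma0 N →* ℂˣ) (ψ : Gamma0 N' →* ℂˣ),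
      IsChiOf m lam χ → IsChiOf m (T lam) ψ → A.IsTr χ ψ :=
  ⟨A.H, fun _ _ _ _ h h' => A.isTr_of_isChiOf h h'⟩

end Fermat.Agent.S35
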