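import Fermat.Agent.S35.ANDefs
import Fermat.Agent.S20.DualCore

/-!
# S35, analytic block, split of AN-FAM: `Fam.P_ne_zero` and `Fam.exists_op`
-/

set_option autoImplicit false

namespace Fermat.Agent.S35.FamOp

open UpperHalfPlane ModularForm Filter Topology CongruenceSubgroup ModularCurve
open Fermat.Agent.S20 Fermat.Agent.S23 Fermat.Agent.S24 Fermat.Agent.S29
open Matrix.SpecialLinearGroup
open scoped MatrixGroups Manifold ModularForm

variable {N N' : ℕ} {ι : Type} [Fintype ι] (A : Fam N N' ι)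
variable {k : ℤ} {E : ℍ → ℂ}

theorem slash_ne_zero (δ : GL (Fin 2) ℝ) (k : ℤ) (hE0 : E ≠ 0) : E ∣[k] δ ≠ 0 := by
  intro h
  apply hE0
  have h1 : (E ∣[k] δ) ∣[k] δ⁻¹ = E := by
    rw [← SlashAction.slash_mul, mul_inv_cancel, SlashAction.slash_one]
  rw [← h1, h, SlashAction.zero_slash]

omit [Fintype ι] in
theorem prod_ne_zero (s : Finset ι) (F : ι → ℍ → ℂ) (hF : ∀ x, MDiff (F x)) (h0 : ∀ x, F x ≠ 0) :
    ∏ x ∈ s, F x ≠ 0 := by
  classical
  induction s using Finset.induction_on with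
  | empty => simp
  | insert a s ha ih =>
    rw [Finset.prod_insert ha]
    intro h
    rcases eq_zero_or_eq_zero_of_mul_eq_zero (hF a)
      (MDifferentiable.prod (t := s) (fun x _ => hF x)) h with h1 | h1
    · exact h0 a h1
    · exact ih h1

theorem P_ne_zero (hE : MDiff E) (hE0 : E ≠ 0) : A.P k E ≠ 0 :=
  prod_ne_zero Finset.univ _ (fun x => hE.slash k (A.δ x)) (fun x => slash_ne_zero (A.δ x) k hE0)

/-- the sum of the slashes. -/
noncomputable def sumS (k : ℤ) (F : ℍ → ℂ) : ℍ → ℂ := ∑ x, F ∣[k] A.δ x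

theorem sumS_mem {F : ℍ → ℂ} (hF : F ∈ CFs (Gamma0 N) k) : sumS A k F ∈ CFs (Gamma0 N') k := by
  refine ⟨?_, fun γ hγ => ?_, fun g => ?_⟩
  · exact MDifferentiable.sum (t := Finset.univ) (fun x _ => hF.1.slash k (A.δ x))
  · obtain ⟨π, g', hg'⟩ := A.ex ⟨γ, hγ⟩
    show (∑ x, F ∣[k] A.δ x) ∣[k] (mapGL ℝ γ) = ∑ x, F ∣[k] A.δ x
    rw [SlashAction.sum_slash, ← Equiv.sum_comp π (fun x => F ∣[k] A.δ x)]
    refine Finset.sum_congr rfl fun x _ => ?_
    rw [← SlashAction.slash_mul, hg' x, SlashAction.slash_mul]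
    congr 1
    exact hF.2.1 _ (g' x).2
  · show IsZeroAtImInfty ((∑ x, F ∣[k] A.δ x) ∣[k] (mapGL ℝ g))
    rw [SlashAction.sum_slash]
    have key : ∀ x, IsZeroAtImInfty ((F ∣[k] A.δ x) ∣[k] (mapGL ℝ g)) := by
      intro x
      obtain ⟨g', τ, hτ, h⟩ := A.cusp g x
      rw [← SlashAction.slash_mul, h, SlashAction.slash_mul]
      exact IsZeroAtImInfty.slash k hτ (hF.2.2 g')
    have : ∀ s : Finset ι, IsZeroAtImInfty (∑ x ∈ s, (F ∣[k] A.δ x) ∣[k] (mapGL ℝ g)) := by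
      classical
      intro s
      induction s using Finset.induction_on with
      | empty =>
        rw [Finset.sum_empty]
        exact Filter.zero_zeroAtFilter atImInfty
      | insert a s ha ih =>
        rw [Finset.sum_insert ha]
        exact (key a).add ih
    exact this _

theorem sumS_add (F G : ℍ → ℂ) : sumS A k (F + G) = sumS A k F + sumS A k G := by
  simp only [sumS, SlashAction.add_slash, Finset.sum_add_distrib]

theorem sumS_smul (c : ℂ) (F : ℍ → ℂ) : sumS A k (c • F) = c • sumS A k F := by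
  simp only [sumS, Finset.smul_sum]
  refine Finset.sum_congr rfl fun x _ => ?_
  funext z
  have hσ : UpperHalfPlane.σ (A.δ x) = .refl ℝ ℂ := by rw [UpperHalfPlane.σ, if_pos (A.det_pos x)]
  rw [Pi.smul_apply, ModularForm.slash_apply, ModularForm.slash_apply, hσ]
  simp only [ContinuousAlgEquiv.refl_apply, Pi.smul_apply, smul_eq_mul]
  ring

variable [NeZero N] [NeZero N']

/-- **F2.** the operator `f ↦ ∑_x f ∣[2] δ_x` on cusp forms of weight two. -/
theorem exists_op : ∃ T : CuspForm (Gamma0 N) 2 →ₗ[ℂ] CuspForm (Gamma0 N') 2,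
    ∀ f, (⇑(T f) : ℍ → ℂ) = ∑ x, (⇑f : ℍ → ℂ) ∣[(2 : ℤ)] A.δ x := by
  let φ : CFs (Gamma0 N) 2 →ₗ[ℂ] CFs (Gamma0 N') 2 :=
    { toFun := fun F => ⟨sumS A 2 F.1, sumS_mem A F.2⟩
      map_add' := fun F G => Subtype.ext (sumS_add A F.1 G.1)
      map_smul' := fun c F => Subtype.ext (sumS_smul A c F.1) }
  refine ⟨(Fermat.Agent.S20.Dual.equivCFs (Gamma0 N') 2).symm.toLinearMap ∘ₗ φ ∘ₗ (Fermat.Agent.S20.Dual.equivCFs (Gamma0 N) 2).toLinearMap,
    fun f => ?_⟩
  have h1 : ∀ G : CFs (Gamma0 N') 2, (⇑((Fermat.Agent.S20.Dual.equivCFs (Gamma0 N') 2).symm G) : ℍ → ℂ) = G.1 := by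
    intro G
    have := congrArg Subtype.val ((Fermat.Agent.S20.Dual.equivCFs (Gamma0 N') 2).apply_symm_apply G)
    exact this
  simp only [LinearMap.comp_apply, LinearEquiv.coe_toLinearMap]
  rw [h1]
  rfl

end Fermat.Agent.S35.FamOp
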