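import Fermat.Agent.S35.ANDefs

/-!
# S35, analytic block, piece AN-INST: the two families `famW`, `famTr` (matrix computations)
-/

set_option autoImplicit false

namespace Fermat.Agent.S35

open UpperHalfPlane ModularForm Filter Topology CongruenceSubgroup ModularCurve
open Fermat.Agent.S20 Fermat.Agent.S23 Fermat.Agent.S24 Fermat.Agent.S29
open Matrix.SpecialLinearGroup
open scoped MatrixGroups Manifold ModularForm

variable {q M : ℕ}

namespace Inst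

theorem coe_mapGL_eq (γ : SL(2, ℤ)) :
    ((mapGL ℝ γ : GL (Fin 2) ℝ) : Matrix (Fin 2) (Fin 2) ℝ) =
      !![(γ 0 0 : ℝ), (γ 0 1 : ℝ); (γ 1 0 : ℝ), (γ 1 1 : ℝ)] := by
  ext i j
  fin_cases i <;> fin_cases j <;> simp [Matrix.SpecialLinearGroup.mapGL_coe_matrix]

/-- Build an element of `SL₂(ℤ)` from its entries. -/
def mkSL (a b c d : ℤ) (h : a * d - b * c = 1) : SL(2, ℤ) :=
  ⟨!![a, b; c, d], by rw [Matrix.det_fin_two_of]; exact h⟩

theorem coe_mapGL_mkSL (a b c d : ℤ) (h : a * d - b * c = 1) :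
    ((mapGL ℝ (mkSL a b c d h) : GL (Fin 2) ℝ) : Matrix (Fin 2) (Fin 2) ℝ) =
      !![(a : ℝ), (b : ℝ); (c : ℝ), (d : ℝ)] := by
  rw [coe_mapGL_eq]
  rfl

theorem det_eq (γ : SL(2, ℤ)) : γ 0 0 * γ 1 1 - γ 0 1 * γ 1 0 = 1 := by
  have := γ.det_coe
  rwa [Matrix.det_fin_two] at this

theorem mem_Gamma0_iff {N : ℕ} {γ : SL(2, ℤ)} : γ ∈ Gamma0 N ↔ (N : ℤ) ∣ γ 1 0 := by
  rw [Gamma0_mem, ZMod.intCast_zmod_eq_zero_iff_dvd]

theorem coe_W [Fact q.Prime] (B : Bez q M) :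
    ((B.W : GL (Fin 2) ℝ) : Matrix (Fin 2) (Fin 2) ℝ) =
      !![(q : ℝ), (B.b : ℝ); ((q * M : ℕ) : ℝ), (q : ℝ) * B.c] := rfl

theorem coe_gam (B : Bez q M) :
    (B.gam : Matrix (Fin 2) (Fin 2) ℤ) = !![1, B.b; (M : ℤ), (q : ℤ) * B.c] := rfl

theorem coe_T_pow (j : ℕ) : ((ModularGroup.T ^ j : SL(2, ℤ)) : Matrix (Fin 2) (Fin 2) ℤ) =
    !![1, (j : ℤ); 0, 1] := by
  have := ModularGroup.coe_T_zpow (j : ℤ)
  rwa [zpow_natCast] at this

theorem coe_gam_T (B : Bez q M) (j : ℕ) :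
    ((B.gam * ModularGroup.T ^ j : SL(2, ℤ)) : Matrix (Fin 2) (Fin 2) ℤ) =
      !![1, (j : ℤ) + B.b; (M : ℤ), (M : ℤ) * j + (q : ℤ) * B.c] := by
  rw [Matrix.SpecialLinearGroup.coe_mul, coe_gam, coe_T_pow]
  ext a b
  fin_cases a <;> fin_cases b <;> simp [Matrix.mul_apply, Fin.sum_univ_two]

end Inst

open Inst

/-- `W = γ₀ * diag(q, 1)`. -/
theorem Bez.W_eq [Fact q.Prime] (B : Bez q M) : B.W = mapGL ℝ B.gam * heckeDiagMatrix q := by
  apply Units.ext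
  rw [Matrix.GeneralLinearGroup.coe_mul, coe_W, val_heckeDiagMatrix (Fact.out : q.Prime).ne_zero,
    coe_mapGL_eq]
  have h00 : B.gam 0 0 = 1 := rfl
  have h01 : B.gam 0 1 = B.b := rfl
  have h10 : B.gam 1 0 = M := rfl
  have h11 : B.gam 1 1 = q * B.c := rfl
  rw [h00, h01, h10, h11]
  ext a b
  fin_cases a <;> fin_cases b <;> simp [Matrix.mul_apply, Fin.sum_univ_two]; ring

theorem Inst.W_ex' [Fact q.Prime] (B : Bez q M) (γ : SL(2, ℤ)) (hγ : γ ∈ Gamma0 (q * M)) :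
    ∃ γ' ∈ Gamma0 (q * M), B.W * mapGL ℝ γ = mapGL ℝ γ' * B.W := by
  rw [mem_Gamma0_iff] at hγ
  obtain ⟨c', hc'⟩ := hγ
  have hdet := det_eq γ
  have hB := B.h
  rw [hc'] at hdet
  push_cast at hdet hc'
  refine ⟨mkSL ((q : ℤ) * γ 0 0 * B.c + B.b * q * M * c' * B.c - q * γ 0 1 * M - B.b * γ 1 1 * M)
    (-γ 0 0 * B.b - B.b ^ 2 * M * c' + q * γ 0 1 + B.b * γ 1 1)
    ((q : ℤ) * M * (γ 0 0 * B.c + q * B.c ^ 2 * c' - M * γ 0 1 - B.c * γ 1 1))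
    (-(M : ℤ) * γ 0 0 * B.b - B.c * q * M * c' * B.b + q * M * γ 0 1 + q * B.c * γ 1 1) ?_, ?_, ?_⟩
  · linear_combination ((q : ℤ) * B.c - M * B.b + 1) * (γ 0 0 * γ 1 1 - γ 0 1 * (q * M * c')) * hB + hdet
  · rw [mem_Gamma0_iff]
    show ((q * M : ℕ) : ℤ) ∣ ((q : ℤ) * M * (γ 0 0 * B.c + q * B.c ^ 2 * c' - M * γ 0 1 - B.c * γ 1 1))
    push_cast
    exact Dvd.intro _ rfl
  · apply Units.ext
    rw [Matrix.GeneralLinearGroup.coe_mul, Matrix.GeneralLinearGroup.coe_mul, coe_W,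
      coe_mapGL_eq, coe_mapGL_mkSL]
    have hc'' : (γ 1 0 : ℝ) = (q : ℝ) * M * (c' : ℝ) := by exact_mod_cast hc'
    have hB' : (q : ℝ) * B.c - M * B.b = 1 := by exact_mod_cast hB
    rw [hc'']
    ext i j
    fin_cases i <;> fin_cases j <;> simp [Matrix.mul_apply, Fin.sum_univ_two]
    · linear_combination (-(q : ℝ) * γ 0 0 - (B.b : ℝ) * q * M * c') * hB'
    · linear_combination (-((q : ℝ) * γ 0 1 + (B.b : ℝ) * γ 1 1)) * hB'
    · linear_combination (-((q : ℝ) * M * (γ 0 0 + (q : ℝ) * B.c * c'))) * hB'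
    · linear_combination (-((q : ℝ) * M * γ 0 1 + (q : ℝ) * B.c * γ 1 1)) * hB'

theorem Bez.W_ex [Fact q.Prime] (B : Bez q M) (g : Gamma0 (q * M)) :
    ∃ g' : Gamma0 (q * M), B.W * mapGL ℝ (g : SL(2, ℤ)) = mapGL ℝ (g' : SL(2, ℤ)) * B.W := by
  obtain ⟨γ', h1, h2⟩ := Inst.W_ex' B g g.2
  exact ⟨⟨γ', h1⟩, h2⟩


open P2MW.S_ModularForm_heckeT_slash_eq_self_of_mem_Gamma0.ModularForm.HeckeSlashInvariance in
theorem Bez.W_cusp [Fact q.Prime] (B : Bez q M) (g : SL(2, ℤ)) :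
    ∃ (g' : SL(2, ℤ)) (τ : GL (Fin 2) ℝ), τ 1 0 = 0 ∧ B.W * mapGL ℝ g = mapGL ℝ g' * τ := by
  obtain ⟨g', hg'⟩ := Fermat.Agent.S29.HK.exists_g' (ℓ := q) g
  refine ⟨B.gam * g' OnePoint.infty, heckeRep q (redMatrix q g • OnePoint.infty),
    Fermat.Agent.S28.NormForm.heckeRep_one_zero q _, ?_⟩
  rw [B.W_eq, mul_assoc, ← heckeRep_infty, hg' OnePoint.infty, map_mul, mul_assoc]

theorem Bez.gam_mem (B : Bez q M) : B.gam ∈ Gamma0 M := by
  rw [mem_Gamma0_iff]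
  exact dvd_refl _

theorem Bez.kap_mem (B : Bez q M) (x : OnePoint (ZMod q)) : B.kap x ∈ Gamma0 M := by
  induction x using OnePoint.rec with
  | infty => rw [B.kap_infty]; exact one_mem _
  | coe j =>
    rw [B.kap_coe, mem_Gamma0_iff]
    show (M : ℤ) ∣ ((B.gam * ModularGroup.T ^ j.val : SL(2, ℤ)) : Matrix (Fin 2) (Fin 2) ℤ) 1 0
    rw [coe_gam_T]
    exact dvd_refl _


theorem Inst.mul_inv_10 (g h : SL(2, ℤ)) : (g * h⁻¹) 1 0 = g 1 0 * h 1 1 - g 1 1 * h 1 0 := by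
  show ((g * h⁻¹ : SL(2, ℤ)) : Matrix (Fin 2) (Fin 2) ℤ) 1 0 = _
  rw [Matrix.SpecialLinearGroup.coe_mul, Matrix.SpecialLinearGroup.coe_inv,
    Matrix.adjugate_fin_two, Matrix.mul_apply, Fin.sum_univ_two]
  simp
  ring

theorem Inst.kap_coe_10 (B : Bez q M) (j : ZMod q) : B.kap (j : OnePoint (ZMod q)) 1 0 = M := by
  rw [B.kap_coe]
  show ((B.gam * ModularGroup.T ^ j.val : SL(2, ℤ)) : Matrix (Fin 2) (Fin 2) ℤ) 1 0 = _
  rw [coe_gam_T]; rfl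

theorem Inst.kap_coe_11 (B : Bez q M) (j : ZMod q) :
    B.kap (j : OnePoint (ZMod q)) 1 1 = (M : ℤ) * (j.val : ℤ) + (q : ℤ) * B.c := by
  rw [B.kap_coe]
  show ((B.gam * ModularGroup.T ^ j.val : SL(2, ℤ)) : Matrix (Fin 2) (Fin 2) ℤ) 1 1 = _
  rw [coe_gam_T]; rfl

theorem Inst.isCoprime_qM [Fact q.Prime] (hqM : ¬ q ∣ M) : IsCoprime (q : ℤ) (M : ℤ) :=
  Nat.isCoprime_iff_coprime.mpr ((Nat.Prime.coprime_iff_not_dvd Fact.out).mpr hqM)

theorem Bez.kap_cover [Fact q.Prime] (B : Bez q M) (hqM : ¬ q ∣ M) (g : SL(2, ℤ)) (hg : g ∈ Gamma0 M) :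
    ∃ x, g * (B.kap x)⁻¹ ∈ Gamma0 (q * M) := by
  rw [mem_Gamma0_iff] at hg
  by_cases hq : (q : ℤ) ∣ g 1 0
  · refine ⟨OnePoint.infty, ?_⟩
    rw [B.kap_infty, inv_one, mul_one, mem_Gamma0_iff]
    push_cast
    exact (isCoprime_qM hqM).mul_dvd hq hg
  · have hne : ((g 1 0 : ℤ) : ZMod q) ≠ 0 := by
      rwa [Ne, ZMod.intCast_zmod_eq_zero_iff_dvd]
    refine ⟨((((g 1 1 : ℤ) : ZMod q) / ((g 1 0 : ℤ) : ZMod q) : ZMod q) : OnePoint (ZMod q)), ?_⟩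
    rw [mem_Gamma0_iff, mul_inv_10, kap_coe_10, kap_coe_11]
    push_cast
    refine (isCoprime_qM hqM).mul_dvd ?_ ?_
    · rw [← ZMod.intCast_zmod_eq_zero_iff_dvd]
      push_cast
      rw [ZMod.natCast_zmod_val, ZMod.natCast_self]
      field_simp
      ring
    · exact dvd_sub (Dvd.dvd.mul_right hg _) (Dvd.intro_left _ rfl)

theorem Bez.kap_inj [Fact q.Prime] (B : Bez q M) (hqM : ¬ q ∣ M) (x y : OnePoint (ZMod q))
    (h : B.kap x * (B.kap y)⁻¹ ∈ Gamma0 (q * M)) : x = y := by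
  have hqM' : ¬ (q : ℤ) ∣ (M : ℤ) := by
    rwa [Int.natCast_dvd_natCast]
  have hqp : Prime (q : ℤ) := Nat.prime_iff_prime_int.mp Fact.out
  rw [mem_Gamma0_iff, mul_inv_10] at h
  have h' : (q : ℤ) ∣ B.kap x 1 0 * B.kap y 1 1 - B.kap x 1 1 * B.kap y 1 0 := by
    refine dvd_trans ?_ h
    push_cast
    exact Dvd.intro _ rfl
  push_cast at h
  induction x using OnePoint.rec with
  | infty =>
    induction y using OnePoint.rec with
    | infty => rfl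
    | coe j =>
      exfalso
      rw [kap_coe_10, kap_coe_11, B.kap_infty] at h'
      apply hqM'
      simpa using h'
  | coe i =>
    induction y using OnePoint.rec with
    | infty =>
      exfalso
      rw [kap_coe_10, kap_coe_11, B.kap_infty] at h'
      apply hqM'
      simpa using h'
    | coe j =>
      rw [kap_coe_10, kap_coe_11, kap_coe_10, kap_coe_11] at h'
      have h2 : (q : ℤ) ∣ (M : ℤ) * ((M : ℤ) * ((j.val : ℤ) - (i.val : ℤ))) := by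
        convert h' using 1
        ring
      have h3 := (hqp.dvd_or_dvd ((hqp.dvd_or_dvd h2).resolve_left hqM')).resolve_left hqM'
      rw [← ZMod.intCast_zmod_eq_zero_iff_dvd] at h3
      push_cast at h3
      rw [ZMod.natCast_zmod_val, ZMod.natCast_zmod_val, sub_eq_zero] at h3
      rw [h3]

theorem Bez.kap_ex [Fact q.Prime] (B : Bez q M) (hqM : ¬ q ∣ M) (g : Gamma0 M) :
    ∃ (π : Equiv.Perm (OnePoint (ZMod q))) (g' : OnePoint (ZMod q) → Gamma0 (q * M)),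
      ∀ x, B.kap x * (g : SL(2, ℤ)) = (g' x : SL(2, ℤ)) * B.kap (π x) := by
  have h1 : ∀ x, ∃ y, B.kap x * (g : SL(2, ℤ)) * (B.kap y)⁻¹ ∈ Gamma0 (q * M) := fun x =>
    B.kap_cover hqM _ (mul_mem (B.kap_mem x) g.2)
  choose π hπ using h1
  have hinj : Function.Injective π := by
    intro x x' hxx
    apply B.kap_inj hqM
    have h2 := mul_mem (hπ x) (inv_mem (hπ x'))
    rw [hxx] at h2
    convert h2 using 1
    group
  refine ⟨Equiv.ofBijective π (Finite.injective_iff_bijective.mp hinj), fun x => ⟨_, hπ x⟩,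
    fun x => ?_⟩
  simp

/-- the Atkin-Lehner family. -/
noncomputable def famW [Fact q.Prime] (B : Bez q M) : Fam (q * M) (q * M) Unit where
  δ _ := B.W
  det_pos _ := Fermat.Agent.S34.det_wqMat q M B.b B.c _ B.h
  ex g := by
    obtain ⟨g', hg'⟩ := B.W_ex g
    exact ⟨1, fun _ => g', fun _ => hg'⟩
  cusp g _ := B.W_cusp g

/-- the norm family. -/
noncomputable def famTr [Fact q.Prime] (B : Bez q M) (hqM : ¬ q ∣ M) :
    Fam (q * M) M (OnePoint (ZMod q)) where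
  δ x := mapGL ℝ (B.kap x)
  det_pos x := by simp
  ex g := by
    obtain ⟨π, g', hg'⟩ := B.kap_ex hqM g
    refine ⟨π, g', fun x => ?_⟩
    rw [← map_mul, hg' x, map_mul]
  cusp g x := ⟨B.kap x * g, 1, rfl, by rw [map_mul, mul_one]⟩

/-- `W * [1, j; 0, q] = q • (γ₀ T^j)`. -/
theorem Bez.W_mul_heckeMatrix [Fact q.Prime] (B : Bez q M) (j : ℕ) :
    ((B.W * heckeMatrix q j : GL (Fin 2) ℝ) : Matrix (Fin 2) (Fin 2) ℝ) =
      (q : ℝ) • ((mapGL ℝ (B.gam * ModularGroup.T ^ j) : GL (Fin 2) ℝ) :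
        Matrix (Fin 2) (Fin 2) ℝ) := by
  rw [Matrix.GeneralLinearGroup.coe_mul, coe_W, val_heckeMatrix (Fact.out : q.Prime).ne_zero,
    coe_mapGL_eq]
  have h := coe_gam_T B j
  have h00 : (B.gam * ModularGroup.T ^ j : SL(2, ℤ)) 0 0 = 1 := by
    show ((B.gam * ModularGroup.T ^ j : SL(2, ℤ)) : Matrix (Fin 2) (Fin 2) ℤ) 0 0 = _
    rw [h]; rfl
  have h01 : (B.gam * ModularGroup.T ^ j : SL(2, ℤ)) 0 1 = (j : ℤ) + B.b := by
    show ((B.gam * ModularGroup.T ^ j : SL(2, ℤ)) : Matrix (Fin 2) (Fin 2) ℤ) 0 1 = _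
    rw [h]; rfl
  have h10 : (B.gam * ModularGroup.T ^ j : SL(2, ℤ)) 1 0 = M := by
    show ((B.gam * ModularGroup.T ^ j : SL(2, ℤ)) : Matrix (Fin 2) (Fin 2) ℤ) 1 0 = _
    rw [h]; rfl
  have h11 : (B.gam * ModularGroup.T ^ j : SL(2, ℤ)) 1 1 = (M : ℤ) * j + (q : ℤ) * B.c := by
    show ((B.gam * ModularGroup.T ^ j : SL(2, ℤ)) : Matrix (Fin 2) (Fin 2) ℤ) 1 1 = _
    rw [h]; rfl
  rw [h00, h01, h10, h11]
  ext a b
  fin_cases a <;> fin_cases b <;> simp [Matrix.mul_apply, Fin.sum_univ_two] <;> ring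

end Fermat.Agent.S35
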