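import Fermat.Agent.S35.ANFam
import Fermat.Agent.S35.ANInst

/-!
# S35, analytic block, piece AN-KUM: `w_q` and the norm on Kummer elements
-/

set_option autoImplicit false

namespace Fermat.Agent.S35

open UpperHalfPlane ModularForm Filter Topology CongruenceSubgroup ModularCurve
open Fermat.Agent.S20 Fermat.Agent.S23 Fermat.Agent.S24 Fermat.Agent.S29 Fermat.Agent.S34
open Fermat.Agent.GR
open Matrix.SpecialLinearGroup
open scoped MatrixGroups Manifold ModularForm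

theorem kum_hT {N : ℕ} {ψ : Gamma0 N →* ℂˣ} (hψpar : IsPar N ψ) :
    ∃ h : ModularGroup.T ∈ Gamma0 N, ψ ⟨_, h⟩ = 1 :=
  ⟨T_mem_Gamma0 N, hψpar 1 ⟨_, T_mem_Gamma0 N⟩ (by
    rw [inv_one, one_mul, mul_one]
    simp [ModularGroup.T])⟩

/-- (second half of the proof of `S29.isKumChi_of_TTm`) -/
theorem isKumChi_of_forms {N : ℕ} [NeZero N] {m : ℕ} (hm : 0 < m) {ψ : Gamma0 N →* ℂˣ}
    (hψm : ψ ^ m = 1) (hψpar : IsPar N ψ) {k : ℤ} {E D : ℍ → ℂ}
    (hE : E ∈ Mchi (Gamma0 N) ψ k) (hD : D ∈ MFs (Gamma0 N) k) (hE0 : E ≠ 0) (hD0 : D ≠ 0)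
    {s : LaurentSeries Kb} (hs : iotaL s * qLf D ^ m = qLf E ^ m) :
    ∃ hs' : s ∈ FN N, IsKumChi N m ψ ⟨s, hs'⟩ := by
  have hEN : E ∈ Fermat.Agent.S23.Nice := mem_Nice_of_mem_Mchi (kum_hT hψpar) hE
  have hDN : D ∈ Fermat.Agent.S23.Nice := mem_Nice_of_mem_MFs_Gamma0 hD
  have hEm : E ^ m ∈ MFs (Gamma0 N) (m * k) :=
    mem_MFs_of_mem_Mchi hψm (pow_mem_Mchi hE m)
  have hDm : D ^ m ∈ MFs (Gamma0 N) (m * k) := by
    have h1 : D ∈ Mchi (Gamma0 N) 1 k := by rw [Mchi_one]; exact hD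
    have h2 : (1 : Gamma0 N →* ℂˣ) ^ m = 1 := by
      ext g
      simp
    exact mem_MFs_of_mem_Mchi h2 (pow_mem_Mchi h1 m)
  have hDm0 : D ^ m ≠ 0 := by
    intro h0
    apply hD0
    have h1 : qLf D ^ m = 0 := by rw [← qLf_pow hDN, h0, qLf_zero]
    exact (qLf_eq_zero_iff hDN).mp (pow_eq_zero_iff (Nat.pos_iff_ne_zero.mp hm) |>.mp h1)
  have hs' : s ∈ FN N :=
    mem_FN_of_quot N hEm hDm hDm0 (by rw [qLf_pow hDN, qLf_pow hEN]; exact hs)
  exact ⟨hs', hψm, hψpar, _, _, _, hE, hD, hE0, hD0, hs⟩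

/-- (the proof of `S34.Rel.unique`, without the second series) -/
theorem rel_transport {δ : GL (Fin 2) ℝ} (hδ : 0 < δ.det.val) {s s' : LaurentSeries Kb}
    (h : Rel δ s s') {G D G' D' : ℍ → ℂ} (nG : G ∈ Nice) (nD : D ∈ Nice) (nG' : G' ∈ Nice)
    (nD' : D' ∈ Nice) (hD : D ≠ 0) (hD' : D' ≠ 0) (e : iotaL s * qLf D = qLf G)
    (r : ∀ z : ℍ, G (δ • z) * D' z = G' z * D (δ • z)) : iotaL s' * qLf D' = qLf G' := by
  obtain ⟨G₂, D₂, G₂', D₂', nG₂, nD₂, nG₂', nD₂', hD₂, hD₂', e₂, e₂', r₂⟩ := h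
  have hGD : G * D₂ = G₂ * D := by
    apply qLf_injOn (mul_mem nG nD₂) (mul_mem nG₂ nD)
    rw [qLf_mul nG nD₂, qLf_mul nG₂ nD, ← e, ← e₂]
    ring
  have key : (G' * D₂' - G₂' * D') * (fun z : ℍ => (D * D₂) (δ • z)) = 0 := by
    funext z
    have h3 := congrFun hGD (δ • z)
    simp only [Pi.mul_apply, Pi.sub_apply, Pi.zero_apply] at h3 ⊢
    linear_combination (-(D₂' z * D₂ (δ • z))) * r z + (D' z * D (δ • z)) * r₂ z
      + (D' z * D₂' z) * h3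
  have hsub : G' * D₂' - G₂' * D' = 0 := by
    rcases eq_zero_or_eq_zero_of_mul_eq_zero
      ((nG'.2.1.mul nD₂'.2.1).sub (nG₂'.2.1.mul nD'.2.1))
      (wq_comp_mdiff δ hδ (nD.2.1.mul nD₂.2.1)) key with h | h
    · exact h
    · exact absurd h (wq_comp_ne_zero δ (Rel.nice_mul_ne_zero nD nD₂ hD hD₂))
  have h4 : qLf G' * qLf D₂' = qLf G₂' * qLf D' := by
    rw [← qLf_mul nG' nD₂', ← qLf_mul nG₂' nD', sub_eq_zero.mp hsub]
  rw [← e₂'] at h4
  have h6 : qLf D₂' ≠ 0 := fun h => hD₂' ((qLf_eq_zero_iff nD₂').mp h)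
  apply mul_right_cancel₀ h6
  linear_combination -h4

variable {q M : ℕ} {m : ℕ}

/-- by `S34.FN_induction`, `rel_jd_A`, `rel_jd_B`, `Rel.add` ... (as in `S34.exists_rel`) -/
theorem rel_of_isWq [Fact q.Prime] [NeZero (q * M)] (B : Bez q M)
    {w : FN (q * M) →ₐ[Kb] FN (q * M)} (hw : IsWq q M w) (f : FN (q * M)) :
    Rel B.W (f : LaurentSeries Kb) (w f : LaurentSeries Kb) := by
  have hq : q.Prime := Fact.out
  have hdet : 0 < B.W.det.val := det_wqMat q M B.b B.c hq.pos B.h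
  induction f using FN_induction with
  | gen d hd =>
    by_cases hqd : q ∣ d
    · obtain ⟨d₁, rfl⟩ := hqd
      have hd₁ : d₁ ∣ M := Nat.dvd_of_mul_dvd_mul_left hq.pos hd
      have i1 : NeZero d₁ := ⟨fun h0 => NeZero.ne (q * d₁) (by rw [h0, mul_zero])⟩
      rw [(hw d₁ hd₁ _).2 rfl]
      exact rel_jd_B hq B.b B.c B.h d₁ hd₁
    · have hcop : Nat.Coprime d q := ((Nat.Prime.coprime_iff_not_dvd hq).mpr hqd).symm
      have hd₁ : d ∣ M := hcop.dvd_of_dvd_mul_left hd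
      have i1 : NeZero (q * d) := ⟨Nat.mul_ne_zero hq.ne_zero (NeZero.ne d)⟩
      rw [(hw d hd₁ _).1 rfl]
      exact rel_jd_A hq B.b B.c B.h d hd₁
  | alg c =>
    rw [AlgHom.commutes]
    exact Rel.const c
  | add x y hx hy =>
    rw [map_add, AddMemClass.coe_add, AddMemClass.coe_add]
    exact hx.add hy
  | inv x hx =>
    rw [map_inv₀, IntermediateField.coe_inv, IntermediateField.coe_inv]
    exact hx.inv hdet
  | mul x y hx hy =>
    rw [map_mul, MulMemClass.coe_mul, MulMemClass.coe_mul]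
    exact hx.mul hy

theorem kum_slash_pos {δ : GL (Fin 2) ℝ} (hδ : 0 < δ.det.val) (k : ℤ) (E : ℍ → ℂ) (z : ℍ) :
    (E ∣[k] δ) z = E (δ • z) * (((|δ.det.val| : ℝ) : ℂ) ^ (k - 1) * denom δ z ^ (-k)) := by
  have hσ : UpperHalfPlane.σ δ = .refl ℝ ℂ := by rw [UpperHalfPlane.σ, if_pos hδ]
  rw [ModularForm.slash_apply, hσ]
  simp only [ContinuousAlgEquiv.refl_apply]
  ring

theorem famW_P [Fact q.Prime] (B : Bez q M) (k : ℤ) (E : ℍ → ℂ) :
    (famW B).P k E = E ∣[k] B.W := by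
  simp [Fam.P, famW]

theorem kum_pow_ne_zero {D : ℍ → ℂ} (nD : D ∈ Nice) (hD : D ≠ 0) (m : ℕ) : D ^ m ≠ 0 := by
  intro h0
  have h1 : qLf D ^ m = 0 := by rw [← qLf_pow nD, h0, qLf_zero]
  exact hD ((qLf_eq_zero_iff nD).mp (eq_zero_of_pow_eq_zero h1))

/-- the core of K1 (also used in K2). -/
theorem iotaL_w_mul [Fact q.Prime] [NeZero (q * M)] (B : Bez q M)
    {w : FN (q * M) →ₐ[Kb] FN (q * M)} (hw : IsWq q M w)
    {χ χ' : Gamma0 (q * M) →* ℂˣ} (hχpar : IsPar (q * M) χ) (hχ' : (famW B).IsTr χ χ')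
    (hχ'par : IsPar (q * M) χ') {k : ℤ} {E D : ℍ → ℂ} (hE : E ∈ Mchi (Gamma0 (q * M)) χ k)
    (hD : D ∈ MFs (Gamma0 (q * M)) k) (hD0 : D ≠ 0) {u : FN (q * M)}
    (hu : iotaL (u : LaurentSeries Kb) * qLf D ^ m = qLf E ^ m) :
    iotaL (w u : LaurentSeries Kb) * qLf ((famW B).P k D) ^ m = qLf ((famW B).P k E) ^ m := by
  have hq : q.Prime := Fact.out
  have hdet : 0 < B.W.det.val := det_wqMat q M B.b B.c hq.pos B.h
  have nE : E ∈ Nice := mem_Nice_of_mem_Mchi (kum_hT hχpar) hE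
  have nD : D ∈ Nice := mem_Nice_of_mem_MFs_Gamma0 hD
  have nE' : (famW B).P k E ∈ Nice :=
    mem_Nice_of_mem_Mchi (kum_hT hχ'par) ((famW B).P_mem_Mchi hχ' hE)
  have nD' : (famW B).P k D ∈ Nice := mem_Nice_of_mem_MFs_Gamma0 ((famW B).P_mem_MFs hD)
  have hD0' : (famW B).P k D ≠ 0 := (famW B).P_ne_zero hD.1 hD0
  rw [← qLf_pow nD', ← qLf_pow nE']
  refine rel_transport hdet (rel_of_isWq B hw u) (pow_mem nE m) (pow_mem nD m) (pow_mem nE' m)
    (pow_mem nD' m) (kum_pow_ne_zero nD hD0 m) (kum_pow_ne_zero nD' hD0' m) ?_ ?_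
  · rw [qLf_pow nD, qLf_pow nE]; exact hu
  · intro z
    simp only [Pi.pow_apply, famW_P]
    rw [kum_slash_pos hdet, kum_slash_pos hdet]
    ring

/-- **K1.**  `w_q` maps a Kummer element of `χ` to a Kummer element of `χ^W`. -/
theorem isKumChi_w [Fact q.Prime] [NeZero (q * M)] (B : Bez q M)
    {w : FN (q * M) →ₐ[Kb] FN (q * M)} (hw : IsWq q M w) (hm : 0 < m)
    {χ ψ : Gamma0 (q * M) →* ℂˣ} (hψ : (famW B).IsTr χ ψ) (hψm : ψ ^ m = 1)
    (hψpar : IsPar (q * M) ψ) {u : FN (q * M)} (h : IsKumChi (q * M) m χ u) :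
    IsKumChi (q * M) m ψ (w u) := by
  obtain ⟨-, hpar, k, E, D, hE, hD, hE0, hD0, hu⟩ := h
  obtain ⟨hs, hk⟩ := isKumChi_of_forms hm hψm hψpar ((famW B).P_mem_Mchi hψ hE)
    ((famW B).P_mem_MFs hD) ((famW B).P_ne_zero hE.1 hE0) ((famW B).P_ne_zero hD.1 hD0)
    (iotaL_w_mul B hw hpar hψ hψpar hE hD hD0 hu)
  exact hk

/-- the slash action of a scalar multiple. -/
theorem kum_slash_of_smul {A B : GL (Fin 2) ℝ} (hB : 0 < B.det.val) {c : ℝ} (hc : 0 < c)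
    (h : (A : Matrix (Fin 2) (Fin 2) ℝ) = c • (B : Matrix (Fin 2) (Fin 2) ℝ)) (k : ℤ) (f : ℍ → ℂ) :
    f ∣[k] A = ((c : ℂ) ^ (k - 2)) • (f ∣[k] B) := by
  have hdet : A.det.val = c ^ 2 * B.det.val := by
    rw [Matrix.GeneralLinearGroup.val_det_apply, Matrix.GeneralLinearGroup.val_det_apply, h,
      Matrix.det_smul]
    simp
  have hA : 0 < A.det.val := by rw [hdet]; positivity
  have hnum : ∀ z : ℂ, num A z = c * num B z := by
    intro z
    have h00 : A 0 0 = c * B 0 0 := by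
      have := congrFun (congrFun h 0) 0; simpa using this
    have h01 : A 0 1 = c * B 0 1 := by
      have := congrFun (congrFun h 0) 1; simpa using this
    simp only [num, h00, h01]; push_cast; ring
  have hden : ∀ z : ℂ, denom A z = c * denom B z := by
    intro z
    have h00 : A 1 0 = c * B 1 0 := by
      have := congrFun (congrFun h 1) 0; simpa using this
    have h01 : A 1 1 = c * B 1 1 := by
      have := congrFun (congrFun h 1) 1; simpa using this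
    simp only [denom, h00, h01]; push_cast; ring
  have hc' : (c : ℂ) ≠ 0 := by exact_mod_cast hc.ne'
  ext τ
  have hsm : A • τ = B • τ := by
    apply UpperHalfPlane.ext
    rw [coe_smul_of_det_pos hA, coe_smul_of_det_pos hB, hnum, hden, mul_div_mul_left _ _ hc']
  rw [Pi.smul_apply, smul_eq_mul, kum_slash_pos hA, kum_slash_pos hB, hsm, hden, hdet,
    abs_of_pos (by positivity), abs_of_pos hB]
  push_cast
  rw [mul_zpow, mul_zpow, ← zpow_natCast (c : ℂ) 2, ← zpow_mul]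
  have h1 : (c : ℂ) ^ (((2 : ℕ) : ℤ) * (k - 1)) * (c : ℂ) ^ (-k) = (c : ℂ) ^ (k - 2) := by
    rw [← zpow_add₀ hc']
    congr 1
    push_cast
    ring
  rw [← h1]
  ring

theorem kum_slash_kap [Fact q.Prime] (B : Bez q M) (k : ℤ) (E : ℍ → ℂ) (j : ℕ) (z : ℍ) :
    (E ∣[k] (mapGL ℝ (B.gam * ModularGroup.T ^ j) : GL (Fin 2) ℝ)) z
      = ((q : ℂ) ^ (2 - k) * (q : ℂ)⁻¹) * (E ∣[k] B.W) (heckeMatrix q j • z) := by
  have hq : q.Prime := Fact.out
  have hqC : (q : ℂ) ≠ 0 := by exact_mod_cast hq.ne_zero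
  have h1 : (E ∣[k] B.W) ∣[k] heckeMatrix q j
      = (((q : ℝ) : ℂ) ^ (k - 2)) • (E ∣[k] (mapGL ℝ (B.gam * ModularGroup.T ^ j) : GL (Fin 2) ℝ)) := by
    rw [← SlashAction.slash_mul]
    exact kum_slash_of_smul (by simp) (by exact_mod_cast hq.pos) (B.W_mul_heckeMatrix j) k E
  have h2 := congrFun h1 z
  rw [slash_heckeMatrix_apply k hq.ne_zero, Pi.smul_apply, smul_eq_mul] at h2
  push_cast at h2
  have h3 : (q : ℂ) ^ (2 - k) * (q : ℂ) ^ (k - 2) = 1 := by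
    rw [← zpow_add₀ hqC]; simp
  calc _ = ((q : ℂ) ^ (2 - k) * (q : ℂ) ^ (k - 2)) *
        (E ∣[k] (mapGL ℝ (B.gam * ModularGroup.T ^ j) : GL (Fin 2) ℝ)) z := by rw [h3, one_mul]
    _ = (q : ℂ) ^ (2 - k) * ((q : ℂ) ^ (k - 2) *
        (E ∣[k] (mapGL ℝ (B.gam * ModularGroup.T ^ j) : GL (Fin 2) ℝ)) z) := by ring
    _ = _ := by rw [← h2]; ring

theorem P_famTr_eq [Fact q.Prime] (B : Bez q M) (hqM : ¬ q ∣ M) (k : ℤ) :
    ∃ c : ℂ, c ≠ 0 ∧ ∀ E : ℍ → ℂ,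
      (famTr B hqM).P k E = c • (E * brP q ((famW B).P k E)) := by
  have hq : q.Prime := Fact.out
  have hqC : (q : ℂ) ≠ 0 := by exact_mod_cast hq.ne_zero
  refine ⟨((q : ℂ) ^ (2 - k) * (q : ℂ)⁻¹) ^ q,
    pow_ne_zero _ (mul_ne_zero (zpow_ne_zero _ hqC) (inv_ne_zero hqC)), fun E => ?_⟩
  funext z
  have h1 : (famTr B hqM).P k E z
      = ∏ x : Option (ZMod q), (E ∣[k] (mapGL ℝ (B.kap x) : GL (Fin 2) ℝ)) z := by
    rw [Fam.P, Finset.prod_apply]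
    rfl
  rw [h1, Fintype.prod_option]
  have h2 : (E ∣[k] (mapGL ℝ (B.kap (none : Option (ZMod q))) : GL (Fin 2) ℝ)) z = E z := by
    have : B.kap (none : Option (ZMod q)) = 1 := rfl
    rw [this, map_one, SlashAction.slash_one]
  have h3 : ∀ j : ZMod q, (E ∣[k] (mapGL ℝ (B.kap (some j : Option (ZMod q))) : GL (Fin 2) ℝ)) z
      = ((q : ℂ) ^ (2 - k) * (q : ℂ)⁻¹) * (E ∣[k] B.W) (heckeMatrix q j.val • z) := fun j =>
    kum_slash_kap B k E j.val z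
  rw [h2]
  simp_rw [h3]
  rw [Finset.prod_mul_distrib, Finset.prod_const, Finset.card_univ, ZMod.card, Pi.smul_apply,
    Pi.mul_apply, smul_eq_mul, brP, famW_P,
    Fermat.Agent.S28.NormForm.prod_range_eq_prod_zmod q (fun j => (E ∣[k] B.W) (heckeMatrix q j • z))]
  ring

theorem kum_UU_pow {R : Type*} [CommRing R] [IsDomain R] {z : Rˣ} {ℓ : ℕ} [NeZero ℓ]
    (hz : IsPrimitiveRoot z ℓ) (X : LaurentSeries R) (n : ℕ) :
    Uop ℓ (Pop z ℓ (X ^ n)) = Uop ℓ (Pop z ℓ X) ^ n := by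
  induction n with
  | zero =>
    rw [pow_zero, pow_zero, Pop_one]
    have := Uop_C (R := R) ℓ 1
    rwa [map_one] at this
  | succ k ih => rw [pow_succ, Uop_Pop_mul hz, ih, pow_succ]

/-- **K2.**  the norm `u * ∏_b (w u)(ζ^b t^(1/q))` of a Kummer element of `χ` is a Kummer element of the transfer of `χ`. -/
theorem isKumChi_norm [Fact q.Prime] [NeZero q] [NeZero (q * M)] [NeZero M] (B : Bez q M)
    (hqM : ¬ q ∣ M)
    {w : FN (q * M) →ₐ[Kb] FN (q * M)} (hw : IsWq q M w) (hm : 0 < m)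
    {χ χ' : Gamma0 (q * M) →* ℂˣ} (hχ' : (famW B).IsTr χ χ') (hχ'par : IsPar (q * M) χ')
    {ψ : Gamma0 M →* ℂˣ} (hψ : (famTr B hqM).IsTr χ ψ) (hψm : ψ ^ m = 1)
    (hψpar : IsPar M ψ) {u : FN (q * M)} (h : IsKumChi (q * M) m χ u)
    {ζ : Kbˣ} (hζ : IsPrimitiveRoot ζ q) :
    ∃ hs : (u : LaurentSeries Kb) * Uop q (Pop ζ q (w u : LaurentSeries Kb)) ∈ FN M,
      IsKumChi M m ψ ⟨_, hs⟩ := by
  obtain ⟨-, hpar, k, E, D, hE, hD, hE0, hD0, hu⟩ := h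
  obtain ⟨c, -, hc⟩ := P_famTr_eq B hqM k
  have nE : E ∈ Nice := mem_Nice_of_mem_Mchi (kum_hT hpar) hE
  have nD : D ∈ Nice := mem_Nice_of_mem_MFs_Gamma0 hD
  have nE' : (famW B).P k E ∈ Nice :=
    mem_Nice_of_mem_Mchi (kum_hT hχ'par) ((famW B).P_mem_Mchi hχ' hE)
  have nD' : (famW B).P k D ∈ Nice := mem_Nice_of_mem_MFs_Gamma0 ((famW B).P_mem_MFs hD)
  have hζc : IsPrimitiveRoot (Fermat.Agent.S28.zetaC q) q := Fermat.Agent.S28.isPrimitiveRoot_zetaC q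
  have hζi : IsPrimitiveRoot (Units.map (iota : Kb →* ℂ) ζ) q :=
    hζ.map_of_injective (Units.map_injective iota_injective)
  have h2 := congrArg (fun X => Uop q (Pop (Fermat.Agent.S28.zetaC q) q X))
    (iotaL_w_mul (m := m) B hw hpar hχ' hχ'par hE hD hD0 hu)
  beta_reduce at h2
  rw [Uop_Pop_mul hζc, kum_UU_pow hζc, kum_UU_pow hζc] at h2
  have key : iotaL ((u : LaurentSeries Kb) * Uop q (Pop ζ q (w u : LaurentSeries Kb))) *
      qLf ((famTr B hqM).P k D) ^ m = qLf ((famTr B hqM).P k E) ^ m := by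
    rw [hc D, hc E, qLf_smul _ (mul_mem nD (brP_mem nD')), qLf_smul _ (mul_mem nE (brP_mem nE')),
      qLf_mul nD (brP_mem nD'), qLf_mul nE (brP_mem nE'), qLf_brP nD', qLf_brP nE', map_mul]
    have h3 : iotaL (Uop q (Pop ζ q (w u : LaurentSeries Kb)))
        = Uop q (Pop (Fermat.Agent.S28.zetaC q) q (iotaL (w u : LaurentSeries Kb))) := by
      rw [iotaL, coeffMap_Uop, coeffMap_Pop, Pop_eq_of_isPrimitiveRoot hζi hζc]
    rw [h3, ← HahnSeries.C_mul_eq_smul, ← HahnSeries.C_mul_eq_smul, mul_pow, mul_pow, mul_pow,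
      mul_pow, ← hu, ← h2]
    ring
  exact isKumChi_of_forms hm hψm hψpar ((famTr B hqM).P_mem_Mchi hψ hE)
    ((famTr B hqM).P_mem_MFs hD) ((famTr B hqM).P_ne_zero hE.1 hE0)
    ((famTr B hqM).P_ne_zero hD.1 hD0) key

end Fermat.Agent.S35
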