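import Fermat.Agent.S29
import Fermat.Agent.GR.FD
import Fermat.Agent.GR.Lucas
import Fermat.Agent.S54.Frobenius

/-!
# S35, piece SMO: strong multiplicity one for the good Hecke eigenvalues

Two normalised eigenforms whose `ℓ`-th coefficients agree for almost all primes `ℓ` have the same `ℓ`-th
coefficient for every prime `ℓ` not dividing the two levels.  (Mod `p₀` representations of S29 for a suitable auxiliary
prime `p₀` + Frobenius density.)
-/

set_option autoImplicit false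
set_option linter.style.haveILetI false

namespace Fermat.Agent.S35

open Polynomial ModularFormClass

/-- a nonzero algebraic integer divides a nonzero integer. -/
theorem smo_exists_mul_eq (x : integralClosure ℤ ℂ) (hx : x ≠ 0) :
    ∃ (y : integralClosure ℤ ℂ) (c : ℤ), c ≠ 0 ∧ y * x = (c : integralClosure ℤ ℂ) := by
  have hint : IsIntegral ℤ (x : ℂ) := x.2
  have hx0 : (x : ℂ) ≠ 0 := fun h => hx (Subtype.ext h)
  set P := minpoly ℤ (x : ℂ) with hP
  have hc0 : P.coeff 0 ≠ 0 := by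
    intro h
    have h1 := minpoly.isIntegrallyClosed_eq_field_fractions' ℚ hint
    have h2 := minpoly.coeff_zero_ne_zero (A := ℚ) hint.tower_top hx0
    rw [h1, coeff_map, ← hP, h] at h2
    exact h2 (map_zero _)
  have hroot : aeval x P = 0 := by
    apply Subtype.ext
    have h1 := Subalgebra.aeval_coe (integralClosure ℤ ℂ) x P
    rw [← h1]
    exact minpoly.aeval ℤ (x : ℂ)
  refine ⟨-(aeval x P.divX), P.coeff 0, hc0, ?_⟩
  have h2 := congrArg (aeval x) P.divX_mul_X_add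
  rw [map_add, map_mul, aeval_X, aeval_C, hroot] at h2
  have h3 : algebraMap ℤ (integralClosure ℤ ℂ) (P.coeff 0) = ((P.coeff 0 : ℤ) : integralClosure ℤ ℂ) :=
    rfl
  rw [h3] at h2
  linear_combination -h2

/-- a nonzero algebraic integer is a unit modulo a maximal ideal of arbitrarily large residue characteristic. -/
theorem smo_exists_residue (x : integralClosure ℤ ℂ) (hx : x ≠ 0) (n : ℕ) :
    ∃ (p : ℕ) (Q : Ideal (integralClosure ℤ ℂ)), p.Prime ∧ n < p ∧ Q.IsMaximal ∧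
      (p : integralClosure ℤ ℂ) ∈ Q ∧ x ∉ Q := by
  obtain ⟨y, c, hc, hy⟩ := smo_exists_mul_eq x hx
  obtain ⟨p, hpn, hp⟩ := Nat.exists_infinite_primes (n + c.natAbs + 1)
  have hpp : Prime (p : ℤ) := Nat.prime_iff_prime_int.mp hp
  haveI : (Ideal.span {(p : ℤ)}).IsMaximal :=
    PrincipalIdealRing.isMaximal_of_irreducible hpp.irreducible
  have hker : RingHom.ker (algebraMap ℤ (integralClosure ℤ ℂ)) ≤ Ideal.span {(p : ℤ)} := by
    intro z hz
    rw [RingHom.mem_ker] at hz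
    have h1 : ((z : ℤ) : ℂ) = 0 := by
      have := congrArg (Subtype.val) hz
      simpa using this
    have h2 : z = 0 := by exact_mod_cast h1
    rw [h2]
    exact zero_mem _
  obtain ⟨Q, hQ, hQp⟩ := Ideal.exists_ideal_over_maximal_of_isIntegral (S := integralClosure ℤ ℂ)
    (Ideal.span {(p : ℤ)}) hker
  have hmem : ∀ z : ℤ, (z : integralClosure ℤ ℂ) ∈ Q ↔ (p : ℤ) ∣ z := by
    intro z
    rw [← Ideal.mem_span_singleton, ← hQp, Ideal.mem_comap]
    rfl
  refine ⟨p, Q, hp, by omega, hQ, ?_, ?_⟩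
  · have := (hmem (p : ℤ)).mpr dvd_rfl
    simpa using this
  · intro hxQ
    have h1 : (c : integralClosure ℤ ℂ) ∈ Q := by
      rw [← hy]
      exact Q.mul_mem_left y hxQ
    have h2 := (hmem c).mp h1
    have h3 := Int.natAbs_dvd_natAbs.mpr h2
    rw [Int.natAbs_natCast] at h3
    have h4 := Nat.le_of_dvd (Int.natAbs_pos.mpr hc) h3
    omega

/-- the trace is read off from the characteristic polynomial. -/
theorem smo_trace_eq {k : Type} [Field k] (ρ : ResidualGaloisRep k) (f : Module.End k ρ.V) (a d : k)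
    (hf : f.charpoly = X ^ 2 - C a * X + C d) : LinearMap.trace k ρ.V f = a := by
  have := GR.trace_pow_eq_luc ρ.finrank_eq f a d hf 1
  rwa [pow_one] at this

/-- **SMO.** -/
theorem qCoeff_eq_of_eq_outside {N M : ℕ} {g : CuspForm (CongruenceSubgroup.Gamma0 N) 2}
    {g' : CuspForm (CongruenceSubgroup.Gamma0 M) 2} (hg : g.IsNormalizedEigenform)
    (hg' : g'.IsNormalizedEigenform) (B : Finset ℕ)
    (h : ∀ l : ℕ, l.Prime → l ∉ B → qCoeff g l = qCoeff g' l) :
    ∀ l : ℕ, l.Prime → ¬ l ∣ N → ¬ l ∣ M → qCoeff g l = qCoeff g' l := by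
  intro l hl hlN hlM
  have hN0 : N ≠ 0 := fun h0 => hlN (h0 ▸ dvd_zero l)
  have hM0 : M ≠ 0 := fun h0 => hlM (h0 ▸ dvd_zero l)
  obtain ⟨Al, σl, hAl, hσl⟩ := S54.exists_frobenius l hl
  -- key statement for an arbitrary residue field of characteristic `≠ l`
  have key : ∀ (p : ℕ) (Q : Ideal (integralClosure ℤ ℂ)), p.Prime → l < p → Q.IsMaximal →
      (p : integralClosure ℤ ℂ) ∈ Q → ∃ a a' : integralClosure ℤ ℂ, (a : ℂ) = qCoeff g l ∧
        (a' : ℂ) = qCoeff g' l ∧ a - a' ∈ Q := by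
    intro p Q hp hlp hQ hpQ
    letI : Field (integralClosure ℤ ℂ ⧸ Q) := Ideal.Quotient.field Q
    let φ : integralClosure ℤ ℂ →+* (integralClosure ℤ ℂ ⧸ Q) := Ideal.Quotient.mk Q
    haveI : CharP (integralClosure ℤ ℂ ⧸ Q) p := by
      rw [CharP.charP_iff_prime_eq_zero hp]
      have : φ (p : integralClosure ℤ ℂ) = 0 := Ideal.Quotient.eq_zero_iff_mem.mpr hpQ
      simpa using this
    have hcast : ∀ r : ℕ, r.Prime → r ≠ p → (r : integralClosure ℤ ℂ ⧸ Q) ≠ 0 := by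
      intro r hr hrp h0
      have := (CharP.cast_eq_zero_iff (integralClosure ℤ ℂ ⧸ Q) p r).mp h0
      exact hrp ((Nat.prime_dvd_prime_iff_eq hp hr).mp this).symm
    obtain ⟨ρ, hρ, -⟩ := S29.result hg hp φ
    obtain ⟨ρ', hρ', -⟩ := S29.result hg' hp φ
    obtain ⟨L₁, hL₁, h1⟩ := ρ.factorsThroughFiniteLevel
    obtain ⟨L₂, hL₂, h2⟩ := ρ'.factorsThroughFiniteLevel
    obtain ⟨r, hr, hrB, P, hP, s, hs, e, he⟩ := GR.frobenius_density (L₁ ⊔ L₂) σl
      (B ∪ N.primeFactors ∪ M.primeFactors ∪ {p})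
    simp only [Finset.mem_union, Finset.mem_singleton, not_or, Nat.mem_primeFactors] at hrB
    obtain ⟨⟨⟨hrB, hrN⟩, hrM⟩, hrp⟩ := hrB
    have hrN' : ¬ r ∣ N := fun hd => hrN ⟨hr, hd, hN0⟩
    have hrM' : ¬ r ∣ M := fun hd => hrM ⟨hr, hd, hM0⟩
    obtain ⟨b, hb, hcb⟩ := hρ r hr hrN' (hcast r hr hrp) P hP s hs
    obtain ⟨b', hb', hcb'⟩ := hρ' r hr hrM' (hcast r hr hrp) P hP s hs
    have hbb : b = b' := Subtype.ext (by rw [hb, hb', h r hr hrB])
    obtain ⟨a, ha, hca⟩ := hρ l hl hlN (hcast l hl hlp.ne) Al hAl σl hσl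
    obtain ⟨a', ha', hca'⟩ := hρ' l hl hlM (hcast l hl hlp.ne) Al hAl σl hσl
    refine ⟨a, a', ha, ha', ?_⟩
    -- `σl = s ^ e` on `L₁ ⊔ L₂`
    have hfix : ∀ x ∈ L₁ ⊔ L₂, (σl⁻¹ * s ^ e) x = x := by
      intro x hx
      rw [AlgEquiv.mul_apply, he x hx]
      exact σl.symm_apply_apply x
    have e1 : ρ.ρ (s ^ e) = ρ.ρ σl := by
      have := h1 (σl⁻¹ * s ^ e) fun x hx => hfix x ((le_sup_left : L₁ ≤ L₁ ⊔ L₂) hx)
      have h3 : s ^ e = σl * (σl⁻¹ * s ^ e) := by rw [mul_inv_cancel_left]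
      rw [h3, map_mul, this, mul_one]
    have e2 : ρ'.ρ (s ^ e) = ρ'.ρ σl := by
      have := h2 (σl⁻¹ * s ^ e) fun x hx => hfix x ((le_sup_right : L₂ ≤ L₁ ⊔ L₂) hx)
      have h3 : s ^ e = σl * (σl⁻¹ * s ^ e) := by rw [mul_inv_cancel_left]
      rw [h3, map_mul, this, mul_one]
    have t1 := GR.trace_pow_eq_luc ρ.finrank_eq _ _ _ hcb e
    have t2 := GR.trace_pow_eq_luc ρ'.finrank_eq _ _ _ hcb' e
    rw [← map_pow, e1, smo_trace_eq ρ _ _ _ hca] at t1
    rw [← map_pow, e2, smo_trace_eq ρ' _ _ _ hca', ← hbb, ← t1] at t2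
    have : φ (a - a') = 0 := by rw [map_sub, t2, sub_self]
    exact Ideal.Quotient.eq_zero_iff_mem.mp this
  -- integrality of the two coefficients (any auxiliary prime)
  obtain ⟨p₁, Q₁, hp₁, hlp₁, hQ₁, hpQ₁, -⟩ := smo_exists_residue 1 one_ne_zero l
  obtain ⟨a, a', ha, ha', -⟩ := key p₁ Q₁ hp₁ hlp₁ hQ₁ hpQ₁
  by_contra hne
  have hx : a - a' ≠ 0 := by
    intro h0
    apply hne
    rw [← ha, ← ha', sub_eq_zero.mp h0]
  obtain ⟨p, Q, hp, hlp, hQ, hpQ, hxQ⟩ := smo_exists_residue (a - a') hx l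
  obtain ⟨c, c', hc, hc', hcQ⟩ := key p Q hp hlp hQ hpQ
  have h1 : c = a := Subtype.ext (hc.trans ha.symm)
  have h2 : c' = a' := Subtype.ext (hc'.trans ha'.symm)
  rw [h1, h2] at hcQ
  exact hxQ hcQ

end Fermat.Agent.S35
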