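import Fermat.Agent.S34.ToricKL
import Fermat.Agent.S34.Inv0

/-!
# S35, piece TKL-abs: the abstract toric Kummer lemma, semilinear (Galois) form

`γ` a ring endomorphism of `F` fixing `x`, preserving `K`, `V`, with `rd (γ f) = gb (rd f)` and `ξ (gb r) = ξ(r)^Q` for all the possible nodes `ξ ∈ Ξ`
(`Q` a power of the residue characteristic: `(a + b)^Q = a^Q + b^Q` in `k`).  Then for `u ≡ 1`, `m ∣ div u`: `γ u / u^Q` is an `m`-th power.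
`Q = 1`, `gb = id`: inertia (S34).  `Q = q²`, `γ = σ²`: Frobenius squared (S35).
-/

set_option autoImplicit false

namespace Fermat.Agent.S35

open Polynomial IntermediateField Fermat.Agent.S24 Fermat.Agent.S18 Fermat.Agent.S18.CoreDim Module
open AlgebraicCurve Fermat.Agent.S34

variable {K F k R : Type*} [Field K] [Field F] [Algebra K F] [Field k] [CommRing R] [Algebra k R]
variable {S : NSetting K F k R}

theorem sum_pow_of_add {k : Type*} [Field k] {Q : ℕ} (hQ0 : 0 < Q)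
    (hQadd : ∀ a b : k, (a + b) ^ Q = a ^ Q + b ^ Q) {ι : Type*} (s : Finset ι) (a : ι → k) :
    (∑ i ∈ s, a i) ^ Q = ∑ i ∈ s, a i ^ Q := by
  classical
  induction s using Finset.induction_on with
  | empty => simp [hQ0.ne']
  | insert j s hj ih => rw [Finset.sum_insert hj, Finset.sum_insert hj, hQadd, ih]

/-- reductions of elements of the chart module `X^0_u` (`ū = 1`) lie in `C₀`. -/
theorem rd_mem_C0 {x : F} (Z : NodalZ S x) {m : ℕ} {hm : 0 < m} {u : F} (huV : u ∈ S.V)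
    (hu1 : S.rd u = 1) {g : F} (hgV : g ∈ S.V) (hg : g ∈ Xch K x u m hm) : S.rd g ∈ Z.C0 := by
  apply Z.root0 _ m hm
  apply Z.chart_le
  refine S.mem_chart.2 ⟨u * g ^ m, hg, mul_mem huV (pow_mem hgV m), ?_⟩
  rw [S.rd_mul huV (pow_mem hgV m), hu1, one_mul, S.rd_pow hgV]

/-- **Lemma B'.**  If `e = rd f₀`, `f₀ ∈ X^0_v ∩ V`, satisfies `ξ e = 1` for all `ξ ∈ Ξ` and `v̄ = 1`, then `rd (X^0_v ∩ V) ⊆ B₀`. -/
theorem rd_mem_chart_of_xi_one {x : F} (Z : NodalZ S x) {m : ℕ} {hm : 0 < m} {v : F} (hvV : v ∈ S.V)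
    (hv1 : S.rd v = 1) {f0 : F} (h0V : f0 ∈ S.V) (h0 : f0 ∈ Xch K x v m hm)
    (h0ξ : ∀ ξ ∈ Z.Ξ, ξ ⟨S.rd f0, rd_mem_C0 Z hvV hv1 h0V h0⟩ = 1)
    {f : F} (hfV : f ∈ S.V) (hf : f ∈ Xch K x v m hm) : S.rd f ∈ S.chart x := by
  set e := S.rd f0 with he
  set r := S.rd f with hr
  have heC : e ∈ Z.C0 := rd_mem_C0 Z hvV hv1 h0V h0
  have hrC : r ∈ Z.C0 := rd_mem_C0 Z hvV hv1 hfV hf
  -- `e ∈ B₀`
  have heB : e ∈ S.chart x := by
    have h1 : e - 1 ∈ S.chart x := by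
      refine Z.nod ⟨e - 1, sub_mem heC (one_mem _)⟩ fun ξ hξ => ?_
      have e1 : (⟨e - 1, sub_mem heC (one_mem _)⟩ : Z.C0) = ⟨e, heC⟩ - 1 := rfl
      rw [e1, map_sub, map_one, h0ξ ξ hξ, sub_self]
    have := add_mem h1 (one_mem (S.chart x))
    rwa [sub_add_cancel] at this
  -- `r e^(m-1) ∈ B₀`
  have h2 : r * e ^ (m - 1) ∈ S.chart x := by
    refine S.mem_chart.2 ⟨v * (f * f0 ^ (m - 1)), Xch_mixed hf h0,
      mul_mem hvV (mul_mem hfV (pow_mem h0V _)), ?_⟩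
    rw [S.rd_mul hvV (mul_mem hfV (pow_mem h0V _)), S.rd_mul hfV (pow_mem h0V _), S.rd_pow h0V, hv1,
      one_mul]
  have h3 : r * (1 - e ^ m) ∈ S.chart x := by
    have hC : r * (1 - e ^ m) ∈ Z.C0 := mul_mem hrC (sub_mem (one_mem _) (pow_mem heC m))
    refine Z.nod ⟨r * (1 - e ^ m), hC⟩ fun ξ hξ => ?_
    have e1 : (⟨r * (1 - e ^ m), hC⟩ : Z.C0) = ⟨r, hrC⟩ * (1 - ⟨e, heC⟩ ^ m) := rfl
    rw [e1, map_mul, map_sub, map_one, map_pow, h0ξ ξ hξ, one_pow, sub_self, mul_zero]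
  have e2 : r = r * e ^ (m - 1) * e + r * (1 - e ^ m) := by
    obtain ⟨j, rfl⟩ : ∃ j, m = j + 1 := ⟨m - 1, by omega⟩
    simp only [Nat.add_sub_cancel]
    ring
  rw [e2]
  exact add_mem (mul_mem h2 heB) h3

/-- **The abstract toric Kummer lemma, semilinear form.** -/
theorem toricKL_semilinear [IsAlgClosed K] [CharZero K] [IsAlgClosed k] (hFF : IsFF K F) {x : F}
    (hx : S.Coord x) (Z : NodalZ S x)
    (dimRed : ∀ W : Submodule K F, FiniteDimensional K W → finrank k (S.core.redSub W) = finrank K W)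
    (finb : ∀ a b, FiniteDimensional k (S.Lbar x a b))
    (good : ∃ n₀, ∀ n, n₀ ≤ n → finrank k (S.Lbar x 0 n) ≤ finrank K (Lsp K x 0 n) ∧
        finrank k (S.Lbar x n 0) ≤ finrank K (Lsp K x n 0))
    (constb : ∀ h ∈ S.Lbar x 0 0, ∃ c : k, h = algebraMap k R c)
    {m : ℕ} (hmk : (m : k) ≠ 0) (γ : F →+* F)
    (hγK : ∀ c : K, ∃ c' : K, γ (algebraMap K F c) = algebraMap K F c') (hγx : γ x = x)
    (gb : R →+* R) {Q : ℕ} (hQ0 : 0 < Q) (hQadd : ∀ a b : k, (a + b) ^ Q = a ^ Q + b ^ Q)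
    (hγV : ∀ f ∈ S.V, γ f ∈ S.V ∧ S.rd (γ f) = gb (S.rd f))
    (hgbC : ∀ r ∈ Z.C0, gb r ∈ Z.C0)
    (hgbξ : ∀ ξ ∈ Z.Ξ, ∀ (r : R) (hr : r ∈ Z.C0), ξ ⟨gb r, hgbC r hr⟩ = ξ ⟨r, hr⟩ ^ Q)
    {u : F} (huV : u ∈ S.V) (hu1 : S.rd u = 1)
    (hord : ∀ P : Place K F, (m : ℤ) ∣ P.ord u) (hord' : ∀ P : Place K F, (m : ℤ) ∣ P.ord (γ u)) :
    ∃ h : F, h ^ m = γ u / u ^ Q := by
  classical
  have hnt := S.nontrivial
  have hm : 0 < m := by
    rcases Nat.eq_zero_or_pos m with rfl | h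
    · exact absurd Nat.cast_zero hmk
    · exact h
  have hxV := hx.mem
  have hxi := hx.inv_mem
  have hx0 := hx.ne_zero
  have hxt := hx.transK
  have := hx.fin
  have finK := finK_of (K := K) hxt
  have hu0 : u ≠ 0 := by
    rintro rfl
    rw [S.rd_zero] at hu1
    exact zero_ne_one hu1
  have huU : IsUnit (S.rd u) := by rw [hu1]; exact isUnit_one
  have huiV : u⁻¹ ∈ S.V := S.inv_mem_of_isUnit_rd huV huU
  have hui1 : S.rd u⁻¹ = 1 := by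
    have := S.rd_mul_rd_inv huU
    rwa [hu1, one_mul] at this
  have hui0 : u⁻¹ ≠ 0 := inv_ne_zero hu0
  have hordi : ∀ P : Place K F, (m : ℤ) ∣ P.ord u⁻¹ := by
    intro P
    rw [P.ord_inv]
    exact (dvd_neg).2 (hord P)
  -- COUNT for `u` and `u⁻¹`
  have good0 : ∃ n₀, ∀ n, n₀ ≤ n → finrank k (S.Lbar x 0 n) ≤ finrank K (Lsp K x 0 n) := by
    obtain ⟨n₀, h⟩ := good
    exact ⟨n₀, fun n hn => (h n hn).1⟩
  obtain ⟨r₁, hr₁⟩ := riem_of hFF hxt hu0 hm hord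
  obtain ⟨r₂, hr₂⟩ := riem_of hFF hxt hui0 hm hordi
  obtain ⟨n₃, hn₃⟩ := Z.count_all hxV hxi hx0 dimRed finK finb good0 hm hu0 huV hu1
    ⟨r₁, fun n hn => (hr₁ n hn).1⟩
  obtain ⟨n₄, hn₄⟩ := Z.count_all hxV hxi hx0 dimRed finK finb good0 hm hui0 huiV hui1
    ⟨r₂, fun n hn => (hr₂ n hn).1⟩
  -- INV₀
  obtain ⟨ι, _, g, h, hg, hh, hsum⟩ := Z.exists_inv0' hxi hx0 hm hu0
    ⟨n₃, fun n hn => (hn₃ n hn).1⟩ ⟨n₄, fun n hn => (hn₄ n hn).1⟩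
    (fun ξ hξ => ⟨n₃, (hn₃ n₃ le_rfl).2 ξ hξ⟩) (fun ξ hξ => ⟨n₄, (hn₄ n₄ le_rfl).2 ξ hξ⟩)
  -- the class `v = γ u / u^Q`
  set v : F := γ u * (u⁻¹) ^ Q with hv
  have hγu0 : γ u ≠ 0 := (map_ne_zero γ).2 hu0
  have hv0 : v ≠ 0 := mul_ne_zero hγu0 (pow_ne_zero _ hui0)
  have hvV : v ∈ S.V := mul_mem (hγV u huV).1 (pow_mem huiV Q)
  have hv1 : S.rd v = 1 := by
    rw [hv, S.rd_mul (hγV u huV).1 (pow_mem huiV Q), (hγV u huV).2, hu1, S.rd_pow huiV, hui1, map_one,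
      one_pow, one_mul]
  have hordv : ∀ P : Place K F, (m : ℤ) ∣ P.ord v := by
    intro P
    rw [hv, P.ord_mul hγu0 (pow_ne_zero _ hui0), ← zpow_natCast, P.ord_zpow]
    exact dvd_add (hord' P) (Dvd.dvd.mul_left (hordi P) _)
  -- the section `f0`
  set f0 : F := ∑ i, γ (g i) * h i ^ Q with hf0
  have hpowX : ∀ i, h i ^ Q ∈ Xch K x ((u⁻¹) ^ Q) m hm := by
    intro i
    have := pow_mem (hh i).2 Q
    rw [mem_Xch]
    convert this using 1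
    ring
  have hf0X : f0 ∈ Xch K x v m hm :=
    sum_mem fun i _ => Xch_mul (map_mem_Xch γ hγK hγx (hm := hm) (hg i).2) (hpowX i)
  have hf0mem : ∀ i ∈ Finset.univ, γ (g i) * h i ^ Q ∈ S.V :=
    fun i _ => mul_mem (hγV _ (hg i).1).1 (pow_mem (hh i).1 Q)
  have hf0V : f0 ∈ S.V := sum_mem hf0mem
  have hgC : ∀ i, S.rd (g i) ∈ Z.C0 := fun i => rd_mem_C0 Z (hm := hm) huV hu1 (hg i).1 (hg i).2
  have hhC : ∀ i, S.rd (h i) ∈ Z.C0 := fun i => rd_mem_C0 Z (hm := hm) huiV hui1 (hh i).1 (hh i).2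
  have hf0rd : S.rd f0 = ∑ i, gb (S.rd (g i)) * S.rd (h i) ^ Q := by
    rw [hf0, S.rd_sum _ _ hf0mem]
    refine Finset.sum_congr rfl fun i _ => ?_
    rw [S.rd_mul (hγV _ (hg i).1).1 (pow_mem (hh i).1 Q), (hγV _ (hg i).1).2, S.rd_pow (hh i).1]
  have hf0ξ : ∀ ξ ∈ Z.Ξ, ξ ⟨S.rd f0, rd_mem_C0 Z hvV hv1 hf0V hf0X⟩ = 1 := by
    intro ξ hξ
    have e1 : (⟨S.rd f0, rd_mem_C0 Z hvV hv1 hf0V hf0X⟩ : Z.C0) =
        ∑ i, (⟨gb (S.rd (g i)), hgbC _ (hgC i)⟩ : Z.C0) * ⟨S.rd (h i), hhC i⟩ ^ Q := by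
      apply Subtype.ext
      show S.rd f0 = _
      rw [hf0rd]
      simp only [AddSubmonoidClass.coe_finsetSum, MulMemClass.coe_mul, SubmonoidClass.coe_pow]
    have e2 : (1 : Z.C0) = ∑ i, (⟨S.rd (g i), hgC i⟩ : Z.C0) * ⟨S.rd (h i), hhC i⟩ := by
      apply Subtype.ext
      simp only [AddSubmonoidClass.coe_finsetSum, MulMemClass.coe_mul, OneMemClass.coe_one]
      exact hsum.symm
    have e3 : ξ 1 = 1 := map_one ξ
    rw [e2, map_sum] at e3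
    rw [e1, map_sum]
    have e4 : ∀ i, ξ ((⟨gb (S.rd (g i)), hgbC _ (hgC i)⟩ : Z.C0) * ⟨S.rd (h i), hhC i⟩ ^ Q) =
        (ξ ((⟨S.rd (g i), hgC i⟩ : Z.C0) * ⟨S.rd (h i), hhC i⟩)) ^ Q := by
      intro i
      rw [map_mul, map_pow, hgbξ ξ hξ, map_mul, mul_pow]
    simp only [e4]
    rw [← sum_pow_of_add hQ0 hQadd, e3, one_pow]
  -- reductions of `X_v(a,b)`
  have hredX : ∀ (a b : ℕ) (f : F), f ∈ Xsp K x v m hm a b → f ∈ S.core.R →
      S.core.rd f ∈ S.core.Lbar x a b := by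
    intro a b f hf hfV
    rw [S.core_Lbar]
    have hfV' : f ∈ S.V := hfV
    show S.rd f ∈ S.Lbar x a b
    constructor
    · have := rd_mem_chart_of_xi_one Z hvV hv1 hf0V hf0X hf0ξ (mul_mem (pow_mem hxV a) hfV')
        (pow_mul_mem_Xch_of_Xsp hf)
      rwa [S.rd_mul (pow_mem hxV a) hfV', S.rd_pow hxV] at this
    · apply Z.rootInf _ m hm
      have h1 := pow_mul_mem_Xch_of_Xsp' hf
      have h2V : x⁻¹ ^ b * f ∈ S.V := mul_mem (pow_mem hxi b) hfV'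
      refine S.mem_chart.2 ⟨v * (x⁻¹ ^ b * f) ^ m, h1, mul_mem hvV (pow_mem h2V m), ?_⟩
      rw [S.rd_mul hvV (pow_mem h2V m), hv1, one_mul, S.rd_pow h2V, S.rd_mul (pow_mem hxi b) hfV',
        S.rd_pow hxi]
  obtain ⟨h', hh'0, c, hc⟩ := core_dim2 S.core (S.core.Lbar x)
    (fun a b => one_mem_LB (S.core.rd_self_mem hxV) (S.core.rd_self_mem hxi) a b)
    (fun n => LB_inf_le n)
    (fun n N a1 a2 => LB_sat (S.core.rd_self_mem hxV) (S.core.rd_self_mem hxi) n N a1 a2)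
    (S.core.rd_mem_Lbar hxV hxi) dimRed
    (fun h hh => const_of_mem_Lsp (finK 0 0) hh)
    (fun h hh => constb h (by rwa [S.core_Lbar] at hh))
    finK (fun a b => by rw [S.core_Lbar]; exact finb a b)
    (by
      obtain ⟨n₀, hn₀⟩ := good
      refine ⟨n₀, fun n hn => ?_⟩
      rw [S.core_Lbar, S.core_Lbar]
      exact hn₀ n hn)
    hm hmk hv0 hvV hv1 hredX (riem_of hFF hxt hv0 hm hordv)
  obtain ⟨d, hd⟩ := IsAlgClosed.exists_pow_nat_eq c hm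
  refine ⟨algebraMap K F d * h'⁻¹, ?_⟩
  rw [mul_pow, ← map_pow, hd, ← hc, inv_pow, mul_assoc, mul_inv_cancel₀ (pow_ne_zero _ hh'0), mul_one,
    hv, div_eq_mul_inv, inv_pow]

end Fermat.Agent.S35
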