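import Fermat.Agent.S35.CoordF
import Fermat.Agent.S35.N1

/-!
# S35, piece TKL (level change + norm descent): `σ² = q²` on the toric classes of level `q M`, up to a constant exponent

`M₁ = 4 M` (`9 M` for `q = 2`); `w_q` at level `q M₁` restricts to `w_q` at level `q M`; `TorFrob q M₁` (S34 machine);
descent by the norm `F_{q M₁} → F_{q M}`.
-/

set_option autoImplicit false

namespace Fermat.Agent.S35.TKLH

open ModularCurve AlgebraicCurve HahnSeries Fermat.Agent.S24 Fermat.Agent.S28 Fermat.Agent.S18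
open Fermat.Agent.GR Fermat.Agent.S34 Fermat.Agent.S35

section

variable {q M : ℕ} [NeZero q] {w : FN (q * M) ≃ₐ[Kb] FN (q * M)}

/-- `w` maps `g(t^q)` to `g(t)`. -/
theorem coe_w_of_qExpand (hw : IsWq q M w) (f : FN (q * M)) (g : LaurentSeries Kb) (hg : g ∈ FN M)
    (hf : (f : LaurentSeries Kb) = qExpand Kb q g) : ((w f : FN (q * M)) : LaurentSeries Kb) = g := by
  have hg' : g ∈ FN (q * M) := FN_le_of_dvd (Dvd.intro_left q rfl) hg
  have h1 : w ⟨g, hg'⟩ = f := Subtype.ext (by rw [hw.incl ⟨g, hg'⟩ hg, hf])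
  rw [← h1, hw.invol]

/-- the values of `w` on the generators. -/
theorem coe_w_jd (hw : IsWq q M w) (hq : q.Prime) (d : ℕ) [NeZero d] (hd : d ∣ q * M)
    (f : FN (q * M)) (hf : (f : LaurentSeries Kb) = jd d) :
    (∃ (d₁ : ℕ) (_ : NeZero d₁), d = q * d₁ ∧ d₁ ∣ M ∧
        ((w f : FN (q * M)) : LaurentSeries Kb) = jd d₁) ∨
      (¬ q ∣ d ∧ d ∣ M ∧ ((w f : FN (q * M)) : LaurentSeries Kb) = qExpand Kb q (jd d)) := by
  by_cases hqd : q ∣ d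
  · left
    obtain ⟨d₁, rfl⟩ := hqd
    have hd₁ : d₁ ∣ M := Nat.dvd_of_mul_dvd_mul_left hq.pos hd
    have i1 : NeZero d₁ := ⟨fun h0 => NeZero.ne (q * d₁) (by rw [h0, mul_zero])⟩
    refine ⟨d₁, i1, rfl, hd₁, ?_⟩
    exact coe_w_of_qExpand hw f (jd d₁) (jd_mem hd₁) (by rw [hf, qExpand_jd])
  · right
    have hcop : Nat.Coprime d q := ((Nat.Prime.coprime_iff_not_dvd hq).mpr hqd).symm
    have hd₁ : d ∣ M := hcop.dvd_of_dvd_mul_left hd
    refine ⟨hqd, hd₁, ?_⟩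
    rw [hw.incl f (by rw [hf]; exact jd_mem hd₁), hf]

end

/-- **`w_q` is compatible with the change of level.** -/
theorem wq_compat {q M M₁ : ℕ} [NeZero q] (hq : q.Prime) (hMM : M ∣ M₁)
    {w : FN (q * M) ≃ₐ[Kb] FN (q * M)} {w₁ : FN (q * M₁) ≃ₐ[Kb] FN (q * M₁)}
    (hw : IsWq q M w) (hw₁ : IsWq q M₁ w₁) (f : FN (q * M)) :
    ((w₁ (inclFN (mul_dvd_mul_left q hMM) f) : FN (q * M₁)) : LaurentSeries Kb) =
      ((w f : FN (q * M)) : LaurentSeries Kb) := by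
  induction f using FN_induction with
  | gen d hd =>
    have hd' : d ∣ q * M₁ := hd.trans (mul_dvd_mul_left q hMM)
    have e1 : ((inclFN (mul_dvd_mul_left q hMM) (⟨jd d, jd_mem hd⟩ : FN (q * M)) : FN (q * M₁)) :
        LaurentSeries Kb) = jd d := coe_inclFN _ _
    rcases coe_w_jd hw hq d hd ⟨jd d, jd_mem hd⟩ rfl with ⟨d₁, i1, hdd, -, h1⟩ | ⟨hqd, -, h1⟩
    · rcases coe_w_jd hw₁ hq d hd' _ e1 with ⟨d₂, i2, hdd', -, h2⟩ | ⟨hqd', -, -⟩
      · have : d₁ = d₂ := Nat.eq_of_mul_eq_mul_left hq.pos (hdd.symm.trans hdd')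
        subst this
        rw [h1, h2]
      · exact absurd ⟨d₁, hdd⟩ hqd'
    · rcases coe_w_jd hw₁ hq d hd' _ e1 with ⟨d₂, i2, hdd', -, -⟩ | ⟨-, -, h2⟩
      · exact absurd ⟨d₂, hdd'⟩ hqd
      · rw [h1, h2]
  | alg c =>
    rw [AlgHom.commutes, AlgEquiv.commutes, AlgEquiv.commutes, coe_algebraMap_FN, coe_algebraMap_FN]
  | add x y hx hy =>
    rw [map_add, map_add, map_add, AddMemClass.coe_add, AddMemClass.coe_add, hx, hy]
  | inv x hx =>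
    rw [map_inv₀, map_inv₀, map_inv₀, IntermediateField.coe_inv, IntermediateField.coe_inv, hx]
  | mul x y hx hy =>
    rw [map_mul, map_mul, map_mul, MulMemClass.coe_mul, MulMemClass.coe_mul, hx, hy]

/-- toric classes stay toric at a higher level. -/
theorem isTor1_inclFN {q M M₁ : ℕ} [NeZero q] [NeZero (q * M₁)] (hq : q.Prime) (hMM : M ∣ M₁)
    {w : FN (q * M) ≃ₐ[Kb] FN (q * M)} {w₁ : FN (q * M₁) ≃ₐ[Kb] FN (q * M₁)}
    (hw : IsWq q M w) (hw₁ : IsWq q M₁ w₁) {A : ValuationSubring Kb} {m : ℕ} {z : FN (q * M)}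
    (hz : IsTor1 A q M m w z) : IsTor1 A q M₁ m w₁ (inclFN (mul_dvd_mul_left q hMM) z) := by
  obtain ⟨hord, c, r, r', hc, hr, hr', h1, h2⟩ := hz
  refine ⟨dvdOrd_inclFN _ hord, c, r, r', hc, dw_fullC_le _ hMM hr, dw_fullC_le _ hMM hr', ?_, ?_⟩
  · rw [coe_inclFN]; exact h1
  · rw [wq_compat hq hMM hw hw₁]; exact h2

/-- **TKL** (`toric_sq`, in the `IsTor1` form). -/
theorem toric_sq {q M : ℕ} [NeZero q] [NeZero M] [NeZero (q * M)] (hq : q.Prime) (hqM : ¬ q ∣ M)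
    {w : FN (q * M) ≃ₐ[Kb] FN (q * M)} (hw : IsWq q M w) :
    ∃ d : ℕ, 0 < d ∧ ∀ (A : ValuationSubring Kb), A.LiesOverPrime q → ∀ σ : GQ,
      A.IsFrobeniusAt σ q → ∀ m : ℕ, ¬ q ∣ m → ∀ z : FN (q * M), IsTor1 A q M m w z →
        ∃ x : FN (q * M),
          (galF (q * M) σ (galF (q * M) σ z)) ^ d = (z ^ (q ^ 2)) ^ d * x ^ m := by
  have : Fact q.Prime := ⟨hq⟩
  obtain ⟨M₁, _, hqM₁, hMM, HC⟩ := exists_coordF (q := q) (NeZero.ne M) hqM
  have : NeZero (q * M₁) := ⟨mul_ne_zero (NeZero.ne q) (NeZero.ne M₁)⟩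
  have HT : TorFrob q M₁ := torFrob_of_coord HC
  obtain ⟨w₁, hw₁⟩ := exists_isWq (M := M₁) hq hqM₁
  obtain ⟨d, hd, hn⟩ := exists_pow_eq_of_inclFN_eq_pow (mul_dvd_mul_left q hMM)
  refine ⟨d, hd, fun A hA σ hσ m hm z hz => ?_⟩
  have hz0 : z ≠ 0 := by
    obtain ⟨-, c, r, r', -, -, -, h1, -⟩ := hz
    rintro rfl
    apply h1.ne_zero
    show C c * ((0 : FN (q * M)) : LaurentSeries Kb) = 0
    rw [ZeroMemClass.coe_zero, mul_zero]
  obtain ⟨h, hh⟩ := HT A hA w₁ hw₁ m hm σ hσ _ (isTor1_inclFN hq hMM hw hw₁ hz)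
  rw [galF_inclFN, galF_inclFN] at hh
  have hz1 : inclFN (mul_dvd_mul_left q hMM) z ≠ 0 := by rw [Ne, map_eq_zero]; exact hz0
  obtain ⟨x, hx⟩ := hn m (galF (q * M) σ (galF (q * M) σ z) * (z ^ (q ^ 2))⁻¹) h (by
    rw [map_mul, hh, map_inv₀, map_pow]
    field_simp)
  refine ⟨x, ?_⟩
  rw [← hx, mul_pow _ ((z ^ (q ^ 2))⁻¹), inv_pow]
  field_simp

end Fermat.Agent.S35.TKLH
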